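/-
CELL-B / node B0 ALG (support leaf under FIN′, helper59 4975 (2)): an integral ring homomorphism
preserves Krull dimension.  Mathlib (v4.33) has going-up (`Ideal.exists_ltSeries_of_hasGoingUp`)
and incomparability (`Ideal.IsIntegral.comap_lt_comap`) but not the dimension statement.

Main results (namespace `Fermat.Agent.GB.Alg.IntegralDim`):
* `ringKrullDim_le_of_algebra_isIntegral` : `B` integral over `A` ⟹ `dim B ≤ dim A`.
* `ringKrullDim_eq_of_algebra_isIntegral_of_injective` : if moreover `A → B` is injective,
  `dim B = dim A`.
* `ringKrullDim_eq_of_isIntegral` : for an integral ring hom `f : A →+* B`,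
  `dim B = dim (A ⧸ ker f)`.
* `ringKrullDim_eq_of_isIntegral_of_injective` : integral + injective ring hom ⟹ `dim B = dim A`.
-/
import Mathlib

set_option autoImplicit false

namespace Fermat.Agent.GB.Alg.IntegralDim

open Order

section AlgebraForm

variable {A B : Type*} [CommRing A] [CommRing B] [Algebra A B]

/-- Incomparability: along an integral algebra the comap on prime spectra is strictly monotone,
so the dimension cannot go up. -/
theorem ringKrullDim_le_of_algebra_isIntegral [Algebra.IsIntegral A B] :
    ringKrullDim B ≤ ringKrullDim A := by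
  refine Order.krullDim_le_of_strictMono (PrimeSpectrum.comap (algebraMap A B)) ?_
  intro P Q hPQ
  have h1 : P.asIdeal < Q.asIdeal := hPQ
  have h2 : P.asIdeal.comap (algebraMap A B) < Q.asIdeal.comap (algebraMap A B) :=
    Ideal.IsIntegral.comap_lt_comap (R := A) h1
  exact h2

/-- Going-up: along an injective integral algebra every chain of primes lifts,
so the dimension cannot go down. -/
theorem ringKrullDim_le_of_algebra_isIntegral_of_injective [Algebra.IsIntegral A B]
    (hinj : Function.Injective (algebraMap A B)) :
    ringKrullDim A ≤ ringKrullDim B := by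
  unfold ringKrullDim Order.krullDim
  refine iSup_le fun l => ?_
  -- a prime of `B` over the head of the chain
  have hker : (⊥ : Ideal B).comap (algebraMap A B) ≤ (RelSeries.head l).asIdeal := by
    intro x hx
    have hx0 : algebraMap A B x = 0 := by simpa using hx
    have : x = 0 := hinj (by simpa using hx0)
    simp [this]
  obtain ⟨Q, -, hQ, hQl⟩ :=
    Ideal.exists_ideal_over_prime_of_isIntegral (RelSeries.head l).asIdeal (⊥ : Ideal B) hker
  have : Q.IsPrime := hQ
  have : Q.LiesOver (RelSeries.head l).asIdeal := ⟨hQl.symm⟩
  obtain ⟨L, hL, -, -⟩ := Ideal.exists_ltSeries_of_hasGoingUp l Q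
  rw [← hL]
  exact le_iSup (fun p : LTSeries (PrimeSpectrum B) => (p.length : WithBot ℕ∞)) L

theorem ringKrullDim_eq_of_algebra_isIntegral_of_injective [Algebra.IsIntegral A B]
    (hinj : Function.Injective (algebraMap A B)) :
    ringKrullDim B = ringKrullDim A :=
  le_antisymm ringKrullDim_le_of_algebra_isIntegral
    (ringKrullDim_le_of_algebra_isIntegral_of_injective hinj)

end AlgebraForm

section RingHomForm

variable {A B : Type*} [CommRing A] [CommRing B]

/-- An integral and injective ring homomorphism preserves Krull dimension. -/
theorem ringKrullDim_eq_of_isIntegral_of_injective (f : A →+* B) (hf : f.IsIntegral)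
    (hinj : Function.Injective f) : ringKrullDim B = ringKrullDim A := by
  let _ : Algebra A B := f.toAlgebra
  have : Algebra.IsIntegral A B := ⟨hf⟩
  exact ringKrullDim_eq_of_algebra_isIntegral_of_injective (A := A) (B := B) hinj

/-- An integral ring homomorphism does not raise Krull dimension. -/
theorem ringKrullDim_le_of_isIntegral (f : A →+* B) (hf : f.IsIntegral) :
    ringKrullDim B ≤ ringKrullDim A := by
  let _ : Algebra A B := f.toAlgebra
  have : Algebra.IsIntegral A B := ⟨hf⟩
  exact ringKrullDim_le_of_algebra_isIntegral (A := A) (B := B)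

/-- The induced map `A ⧸ ker f → B` of an integral ring hom is integral. -/
theorem isIntegral_kerLift (f : A →+* B) (hf : f.IsIntegral) : (RingHom.kerLift f).IsIntegral := by
  refine RingHom.IsIntegral.tower_top (Ideal.Quotient.mk (RingHom.ker f)) (RingHom.kerLift f) ?_
  have : (RingHom.kerLift f).comp (Ideal.Quotient.mk (RingHom.ker f)) = f := by
    ext x; simp
  rw [this]; exact hf

/-- **Integral ring homomorphisms preserve Krull dimension**: `dim B = dim (A ⧸ ker f)`. -/
theorem ringKrullDim_eq_of_isIntegral (f : A →+* B) (hf : f.IsIntegral) :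
    ringKrullDim B = ringKrullDim (A ⧸ RingHom.ker f) :=
  ringKrullDim_eq_of_isIntegral_of_injective (RingHom.kerLift f) (isIntegral_kerLift f hf)
    (RingHom.kerLift_injective f)

end RingHomForm

end Fermat.Agent.GB.Alg.IntegralDim
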