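/-
CELL-B / node B0 ALG (support leaf under FIN′, helper59 4975 (2) / helper53 5007 (E2)).

A module `M` over two commutative rings `R`, `S` with commuting actions, finitely generated over
BOTH, has the same dimension from both sides:
  `ringKrullDim (R ⧸ Ann_R M) = ringKrullDim (S ⧸ Ann_S M)`.
(Both are the dimension of `R′ := (R ⊗_ℤ S) ⧸ Ann M`, which is integral over both images by
Cayley–Hamilton.)  No noetherian or local hypothesis; the `S`-action need not factor through `R`.

Consequences used by FIN′:
* `exists_minimalPrimes_fullDim` : if `M ≠ 0` is faithful over `S` and `dim R ≤ dim S < ∞`, there is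
  a minimal prime `P ⊇ Ann_R M` of `R` with `dim R ⧸ P = dim S`.
* `mem_radical_of_smul_le` : `t M ⊆ λ M` ⟹ `t ∈ rad (Ann_R M + (λ))` (determinant trick).
* `fin'` : the contradiction form (FIN′): if `t ∉ rad (P + (λ))` for every full-dimensional minimal
  prime `P` of `R`, then `M = 0`.
-/
import Mathlib
import Fermat.Agent.GB.Alg.IntegralDim

set_option autoImplicit false

namespace Fermat.Agent.GB.Alg.BimoduleDim

open Fermat.Agent.GB.Alg.IntegralDim

open Polynomial

/-! ### A module over `T` that is finite over `A` through `g : A →+* T` -/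

section ThroughHom

variable {A T M : Type*} [CommRing A] [CommRing T] [AddCommGroup M] [Module A M] [Module T M]

/-- The `A`-linear endomorphism `m ↦ x • m` of `M`, for `x : T`, when `A` acts through
`g : A →+* T`. -/
def smulEnd (g : A →+* T) (hg : ∀ (a : A) (m : M), g a • m = a • m) (x : T) : Module.End A M where
  toFun m := x • m
  map_add' := smul_add x
  map_smul' a m := by
    simp only [RingHom.id_apply]
    rw [← hg a m, ← hg a (x • m), smul_smul, smul_smul, mul_comm]

@[simp] theorem smulEnd_apply (g : A →+* T) (hg : ∀ (a : A) (m : M), g a • m = a • m) (x : T)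
    (m : M) : smulEnd g hg x m = x • m := rfl

theorem eval₂_smul_eq_aeval_smulEnd (g : A →+* T) (hg : ∀ (a : A) (m : M), g a • m = a • m)
    (x : T) (q : A[X]) (m : M) : (q.eval₂ g x) • m = (aeval (smulEnd g hg x) q) m := by
  induction q using Polynomial.induction_on generalizing m with
  | C a =>
    simp [hg, Module.algebraMap_end_apply]
  | add p q hp hq =>
    simp [add_smul, hp, hq]
  | monomial n a ih =>
    have h1 : (C a * X ^ (n + 1) : A[X]) = (C a * X ^ n) * X := by ring
    rw [h1, eval₂_mul, eval₂_X, map_mul, aeval_X, Module.End.mul_apply, smulEnd_apply,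
      ← ih (x • m), smul_smul]

/-- Cayley–Hamilton: every `x : T` satisfies on `M` a monic polynomial with coefficients in `A`. -/
theorem exists_monic_eval₂_smul_eq_zero [Module.Finite A M] (g : A →+* T)
    (hg : ∀ (a : A) (m : M), g a • m = a • m) (x : T) :
    ∃ p : A[X], p.Monic ∧ ∀ m : M, (p.eval₂ g x) • m = 0 := by
  obtain ⟨p, hp, h0⟩ := LinearMap.exists_monic_and_aeval_eq_zero A (smulEnd g hg x)
  refine ⟨p, hp, fun m => ?_⟩
  rw [eval₂_smul_eq_aeval_smulEnd g hg x p m, h0, LinearMap.zero_apply]

/-- `T ⧸ Ann_T M` is integral over `A`. -/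
theorem isIntegral_mk_annihilator_comp [Module.Finite A M] (g : A →+* T)
    (hg : ∀ (a : A) (m : M), g a • m = a • m) :
    ((Ideal.Quotient.mk (Module.annihilator T M)).comp g).IsIntegral := by
  intro y
  obtain ⟨x, rfl⟩ := Ideal.Quotient.mk_surjective y
  obtain ⟨p, hp, h0⟩ := exists_monic_eval₂_smul_eq_zero (M := M) g hg x
  refine ⟨p, hp, ?_⟩
  rw [← Polynomial.hom_eval₂]
  exact Ideal.Quotient.eq_zero_iff_mem.mpr (Module.mem_annihilator.mpr h0)

theorem ker_mk_annihilator_comp (g : A →+* T) (hg : ∀ (a : A) (m : M), g a • m = a • m) :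
    RingHom.ker ((Ideal.Quotient.mk (Module.annihilator T M)).comp g) =
      Module.annihilator A M := by
  ext a
  simp only [RingHom.mem_ker, RingHom.coe_comp, Function.comp_apply,
    Ideal.Quotient.eq_zero_iff_mem, Module.mem_annihilator, hg]

/-- If `A` acts on the `T`-module `M` through `g : A →+* T` and `M` is finite over `A`, then
`dim T ⧸ Ann_T M = dim A ⧸ Ann_A M`. -/
theorem ringKrullDim_quotient_annihilator_eq_of_hom [Module.Finite A M] (g : A →+* T)
    (hg : ∀ (a : A) (m : M), g a • m = a • m) :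
    ringKrullDim (T ⧸ Module.annihilator T M) = ringKrullDim (A ⧸ Module.annihilator A M) := by
  rw [ringKrullDim_eq_of_isIntegral _ (isIntegral_mk_annihilator_comp (M := M) g hg),
    ker_mk_annihilator_comp g hg]

end ThroughHom

/-! ### Bimodules -/

section Bimodule

variable {R S M : Type*} [CommRing R] [CommRing S] [AddCommGroup M] [Module R M] [Module S M]
  [SMulCommClass R S M]

open TensorProduct in
/-- **Bimodule dimension equality.** A module over two commutative rings with commuting actions,
finite over both, has the same dimension from both sides. -/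
theorem ringKrullDim_quotient_annihilator_eq [Module.Finite R M] [Module.Finite S M] :
    ringKrullDim (R ⧸ Module.annihilator R M) = ringKrullDim (S ⧸ Module.annihilator S M) := by
  let _ : Module (R ⊗[ℤ] S) M := TensorProduct.Algebra.module
  have hR : ∀ (r : R) (m : M),
      (Algebra.TensorProduct.includeLeftRingHom (R := ℤ) (A := R) (B := S) r) • m = r • m := by
    intro r m
    rw [Algebra.TensorProduct.includeLeftRingHom_apply, TensorProduct.Algebra.smul_def, one_smul]
  have hS : ∀ (s : S) (m : M),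
      ((Algebra.TensorProduct.includeRight (R := ℤ) (A := R) (B := S)).toRingHom s) • m
        = s • m := by
    intro s m
    change ((1 : R) ⊗ₜ[ℤ] s) • m = s • m
    rw [TensorProduct.Algebra.smul_def, one_smul]
  rw [← ringKrullDim_quotient_annihilator_eq_of_hom (M := M) _ hR,
    ← ringKrullDim_quotient_annihilator_eq_of_hom (M := M) _ hS]

end Bimodule

/-! ### Coheight and quotients by primes -/

section Coheight

variable {R : Type*} [CommRing R]

/-- `dim R ⧸ P` is the coheight of `P` in the prime spectrum. -/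
theorem ringKrullDim_quotient_prime (P : PrimeSpectrum R) :
    ringKrullDim (R ⧸ P.asIdeal) = (Order.coheight P : WithBot ℕ∞) := by
  rw [ringKrullDim_quotient, Order.coheight_eq_krullDim_Ici]
  have : PrimeSpectrum.zeroLocus (P.asIdeal : Set R) = Set.Ici P := by
    ext Q
    simp only [PrimeSpectrum.mem_zeroLocus, SetLike.coe_subset_coe, Set.mem_Ici]
    exact Iff.rfl
  rw [this]

/-- If `dim R ⧸ I = n` is finite, some prime `P ⊇ I` has `dim R ⧸ P = n`. -/
theorem exists_prime_ge_ringKrullDim_quotient_eq (I : Ideal R) {n : ℕ}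
    (h : ringKrullDim (R ⧸ I) = n) :
    ∃ P : PrimeSpectrum R, I ≤ P.asIdeal ∧ ringKrullDim (R ⧸ P.asIdeal) = n := by
  have h' : (n : WithBot ℕ∞) ≤ Order.krullDim (PrimeSpectrum.zeroLocus (I : Set R)) := by
    rw [← ringKrullDim_quotient, h]
  obtain ⟨l, hl⟩ := Order.le_krullDim_iff.mp h'
  have hIP : I ≤ (RelSeries.head l).1.asIdeal := by
    have := (RelSeries.head l).2
    rwa [PrimeSpectrum.mem_zeroLocus, SetLike.coe_subset_coe] at this
  refine ⟨(RelSeries.head l).1, hIP, le_antisymm ?_ ?_⟩
  · rw [← h]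
    exact ringKrullDim_le_of_surjective (Ideal.Quotient.factor hIP)
      (Ideal.Quotient.factor_surjective hIP)
  · rw [ringKrullDim_quotient_prime]
    have hmono : StrictMono (fun x : PrimeSpectrum.zeroLocus (I : Set R) => x.1) :=
      fun _ _ hxy => hxy
    have h1 : ((l.map _ hmono).length : ℕ∞) ≤ Order.coheight (RelSeries.head (l.map _ hmono)) :=
      Order.length_le_coheight_head
    have h2 : RelSeries.head (l.map _ hmono) = (RelSeries.head l).1 := rfl
    have h3 : (l.map _ hmono).length = n := by rw [LTSeries.map_length, hl]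
    rw [h2, h3] at h1
    exact_mod_cast h1

end Coheight

/-! ### The full-dimensional minimal prime and FIN′ -/

section Fin

variable {R S M : Type*} [CommRing R] [CommRing S] [AddCommGroup M] [Module R M] [Module S M]
  [SMulCommClass R S M]

/-- If `M ≠ 0` is finite over `R` and `S` (commuting actions), faithful over `S`, and
`dim R ≤ dim S < ∞`, then some MINIMAL prime `P ⊇ Ann_R M` of `R` has `dim R ⧸ P = dim S`. -/
theorem exists_minimalPrimes_fullDim [Module.Finite R M] [Module.Finite S M] [Nontrivial M]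
    (hS : Module.annihilator S M = ⊥) (hdim : ringKrullDim R ≤ ringKrullDim S)
    (hfin : ringKrullDim S ≠ ⊤) :
    ∃ P ∈ minimalPrimes R, Module.annihilator R M ≤ P ∧
      ringKrullDim (R ⧸ P) = ringKrullDim S := by
  have : Nontrivial S := Module.nontrivial S M
  have hbot : ringKrullDim S ≠ ⊥ := (lt_of_lt_of_le (WithBot.bot_lt_coe _)
    (ringKrullDim_nonneg_of_nontrivial (R := S))).ne'
  obtain ⟨a, ha⟩ := WithBot.ne_bot_iff_exists.mp hbot
  have ha' : a ≠ ⊤ := by
    rintro rfl
    exact hfin ha.symm
  obtain ⟨n, rfl⟩ := ENat.ne_top_iff_exists.mp ha'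
  have hn : ringKrullDim S = (n : WithBot ℕ∞) := ha.symm
  have hRS : ringKrullDim (R ⧸ Module.annihilator R M) = (n : WithBot ℕ∞) := by
    rw [ringKrullDim_quotient_annihilator_eq (S := S), hS,
      ringKrullDim_eq_of_ringEquiv (RingEquiv.quotientBot S), hn]
  obtain ⟨P, hIP, hP⟩ := exists_prime_ge_ringKrullDim_quotient_eq _ hRS
  refine ⟨P.asIdeal, ⟨⟨P.2, bot_le⟩, ?_⟩, hIP, hP.trans hn.symm⟩
  rintro Q ⟨hQ, -⟩ hQP
  by_contra hPQ
  have hlt : (⟨Q, hQ⟩ : PrimeSpectrum R) < P := lt_of_le_of_ne hQP (fun h => hPQ (by rw [← h]))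
  have h1 : Order.coheight P + 1 ≤ Order.coheight (⟨Q, hQ⟩ : PrimeSpectrum R) :=
    Order.coheight_add_one_le hlt
  have h2 : (Order.coheight (⟨Q, hQ⟩ : PrimeSpectrum R) : WithBot ℕ∞) ≤ ringKrullDim R :=
    Order.coheight_le_krullDim _
  have h3 : (Order.coheight P : WithBot ℕ∞) = (n : WithBot ℕ∞) := by
    rw [← ringKrullDim_quotient_prime, hP]
  have h3' : Order.coheight P = (n : ℕ∞) := by exact_mod_cast h3
  have h4 : ((Order.coheight P + 1 : ℕ∞) : WithBot ℕ∞) ≤ (n : WithBot ℕ∞) :=
    (WithBot.coe_le_coe.mpr h1).trans (h2.trans (hdim.trans hn.le))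
  rw [h3'] at h4
  have h5 : ((n : ℕ∞) + 1) ≤ (n : ℕ∞) := by exact_mod_cast h4
  have h6 : (n + 1 : ℕ) ≤ n := by exact_mod_cast h5
  omega

/-- Determinant trick: `t M ⊆ λ M` with `M` finite gives `t ∈ rad (Ann_R M + (λ))`. -/
theorem mem_radical_of_smul_le [Module.Finite R M] {t lam : R}
    (ht : ∀ m : M, ∃ m' : M, t • m = lam • m') :
    t ∈ (Module.annihilator R M ⊔ Ideal.span {lam}).radical := by
  have hrange : LinearMap.range (algebraMap R (Module.End R M) t) ≤
      (Ideal.span {lam}) • (⊤ : Submodule R M) := by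
    rintro _ ⟨m, rfl⟩
    obtain ⟨m', hm'⟩ := ht m
    rw [Module.algebraMap_end_apply, hm']
    exact Submodule.smul_mem_smul (Ideal.mem_span_singleton_self lam) Submodule.mem_top
  obtain ⟨p, hp, -, hcoeff, h0⟩ :=
    LinearMap.exists_monic_and_natDegree_eq_and_coeff_mem_pow_and_aeval_eq_zero R
      (algebraMap R (Module.End R M) t) (Ideal.span {lam}) hrange
  have hann : p.eval t ∈ Module.annihilator R M := by
    rw [Module.mem_annihilator]
    intro m
    rw [Polynomial.aeval_algebraMap_apply] at h0
    have := congrArg (fun f : Module.End R M => f m) h0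
    simpa [Module.algebraMap_end_apply] using this
  refine ⟨p.natDegree, ?_⟩
  have hsum : p.eval t =
      (∑ k ∈ Finset.range p.natDegree, p.coeff k * t ^ k) + t ^ p.natDegree := by
    rw [Polynomial.eval_eq_sum_range, Finset.sum_range_succ, hp.coeff_natDegree, one_mul]
  have hlow : (∑ k ∈ Finset.range p.natDegree, p.coeff k * t ^ k) ∈ Ideal.span {lam} := by
    refine Ideal.sum_mem _ fun k hk => Ideal.mul_mem_right _ _ ?_
    have hk' : k < p.natDegree := Finset.mem_range.mp hk
    exact Ideal.pow_le_self (by omega) (hcoeff k)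
  have hpow : t ^ p.natDegree =
      p.eval t - ∑ k ∈ Finset.range p.natDegree, p.coeff k * t ^ k := by
    rw [hsum]; ring
  rw [hpow]
  exact Ideal.sub_mem _ (Ideal.mem_sup_left hann) (Ideal.mem_sup_right hlow)

/-- **FIN′** (helper59 4975 (2)), abstract bimodule form.  `M` finite over `R` and over `S` with
commuting actions, faithful over `S`, `dim R ≤ dim S < ∞`, `t M ⊆ λ M`, and `t ∉ rad (P + (λ))`
for every minimal prime `P` of `R` with `dim R ⧸ P = dim S`.  Then `M = 0`. -/
theorem fin' [Module.Finite R M] [Module.Finite S M]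
    (hS : Module.annihilator S M = ⊥) (hdim : ringKrullDim R ≤ ringKrullDim S)
    (hfin : ringKrullDim S ≠ ⊤) {t lam : R} (ht : ∀ m : M, ∃ m' : M, t • m = lam • m')
    (hP : ∀ P ∈ minimalPrimes R, ringKrullDim (R ⧸ P) = ringKrullDim S →
      t ∉ (P ⊔ Ideal.span {lam}).radical) :
    Subsingleton M := by
  by_contra hM
  rw [not_subsingleton_iff_nontrivial] at hM
  obtain ⟨P, hPmin, hAnn, hPdim⟩ :=
    exists_minimalPrimes_fullDim (R := R) (S := S) (M := M) hS hdim hfin
  exact hP P hPmin hPdim
    (Ideal.radical_mono (sup_le_sup_right hAnn _) (mem_radical_of_smul_le ht))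

/-- FIN′ for `M` finite FREE over `S` (the patching shape: `S = 𝒪⟦y₁,…,y_s⟧`). -/
theorem fin'_of_free [Module.Finite R M] [Module.Finite S M] [Module.Free S M]
    (hdim : ringKrullDim R ≤ ringKrullDim S)
    (hfin : ringKrullDim S ≠ ⊤) {t lam : R} (ht : ∀ m : M, ∃ m' : M, t • m = lam • m')
    (hP : ∀ P ∈ minimalPrimes R, ringKrullDim (R ⧸ P) = ringKrullDim S →
      t ∉ (P ⊔ Ideal.span {lam}).radical) :
    Subsingleton M := by
  by_contra hM
  rw [not_subsingleton_iff_nontrivial] at hM
  have hS : Module.annihilator S M = ⊥ := Module.annihilator_eq_bot.mpr inferInstance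
  exact hM.exists_pair_ne.elim fun x ⟨y, hxy⟩ =>
    hxy ((fin' (R := R) (S := S) hS hdim hfin ht hP).elim x y)

end Fin

end Fermat.Agent.GB.Alg.BimoduleDim
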