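/-
GATE-B / B0 ALG, node GB-ALG-CHARTDIM (helper53, RULING R4 §3.3–3.4): the two ABSTRACT lemmas that
give the FIN′ hypothesis `hP` for a local ring presented by CHARTS, for any number of framed
primes and WITHOUT any domain lemma.

* `ringKrullDim_quotient_minimalPrimes_of_free` (A) : `E` finite free over a domain `S` ⟹ every
  minimal prime `𝔓` of `E` has `dim E ⧸ 𝔓 = dim S` (equidimensionality; the chart rings are finite
  free over power series rings by Weierstrass division, `Mathlib` `WeierstrassPreparation`).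
* `ringKrullDim_quotient_span_of_free` (A′) : `E` finite free (nontrivial) over `S`, `l ∈ S` ⟹
  `dim E ⧸ (l) = dim S ⧸ (l)`.
* `not_mem_radical_of_chart` (B) : `E` noetherian local, `𝔓` prime with `dim E ⧸ 𝔓 = N + 1`,
  `s` in the maximal ideal, `lam ∈ rad (s)`, `dim E ⧸ (s, lam) ≤ N`, and `t` outside every minimal
  prime over `(s, lam)`.  Then `t ∉ rad (𝔓 + (lam))`.
  (Chart `s₂² Q(u) = c²`, `s = s₂`: `E ⧸ (s₂, λ)` is a power series ring over `B ⧸ λ`, its minimal
  primes are coefficientwise and miss `t = 4 s₁² Q(u) − d²`.)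
* `not_mem_radical_of_comap` : the test passes to subrings (`R̄ ↪ ∏ E_ξ`).

Mathlib + `GB/Alg/{IntegralDim,BimoduleDim}` only.
-/
import Mathlib
import Fermat.Agent.GB.Alg.IntegralDim
import Fermat.Agent.GB.Alg.BimoduleDim

set_option autoImplicit false

namespace Fermat.Agent.GB.Alg.ChartDim

open IsLocalRing

/-! ### (A) equidimensionality of finite free algebras over a domain -/

section Free

variable {S E : Type*} [CommRing S] [CommRing E] [Algebra S E]

/-- A finite algebra is integral, and so are its quotients. -/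
theorem isIntegral_mk_comp_algebraMap [Module.Finite S E] (I : Ideal E) :
    ((Ideal.Quotient.mk I).comp (algebraMap S E)).IsIntegral := by
  have h1 : (algebraMap S E).IsIntegral := by
    intro x
    exact Algebra.IsIntegral.isIntegral (R := S) x
  exact RingHom.IsIntegral.trans _ _ h1
    (RingHom.isIntegral_of_surjective _ Ideal.Quotient.mk_surjective)

/-- **(A)**  If `E` is finite free over the domain `S`, every minimal prime of `E` has coheight
`dim S`. -/
theorem ringKrullDim_quotient_minimalPrimes_of_free [IsDomain S] [Module.Free S E]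
    [Module.Finite S E] {𝔓 : Ideal E} (h𝔓 : 𝔓 ∈ minimalPrimes E) :
    ringKrullDim (E ⧸ 𝔓) = ringKrullDim S := by
  refine IntegralDim.ringKrullDim_eq_of_isIntegral_of_injective
    ((Ideal.Quotient.mk 𝔓).comp (algebraMap S E)) (isIntegral_mk_comp_algebraMap 𝔓) ?_
  rw [injective_iff_map_eq_zero]
  intro a ha
  by_contra ha0
  have hmem : algebraMap S E a ∈ 𝔓 := by
    rw [← Ideal.Quotient.eq_zero_iff_mem]
    exact ha
  have hreg : algebraMap S E a ∈ nonZeroDivisors E := by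
    rw [mem_nonZeroDivisors_iff_right]
    intro x hx
    rw [mul_comm, ← Algebra.smul_def] at hx
    exact (smul_eq_zero.mp hx).resolve_left ha0
  exact Set.disjoint_left.mp (Ideal.disjoint_nonZeroDivisors_of_mem_minimalPrimes h𝔓) hmem hreg

/-- **(A′)**  `E` finite over `S`: `dim E ⧸ (l) ≤ dim S ⧸ (l)` (integrality only). -/
theorem ringKrullDim_quotient_span_le [Module.Finite S E] (l : S) :
    ringKrullDim (E ⧸ Ideal.span {algebraMap S E l}) ≤ ringKrullDim (S ⧸ Ideal.span {l}) := by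
  have hle : Ideal.span {l} ≤ (Ideal.span {algebraMap S E l}).comap (algebraMap S E) := by
    rw [Ideal.span_le]
    intro x hx
    rw [Set.mem_singleton_iff] at hx
    subst hx
    exact Ideal.subset_span rfl
  let f : S ⧸ Ideal.span {l} →+* E ⧸ Ideal.span {algebraMap S E l} :=
    Ideal.quotientMap _ (algebraMap S E) hle
  have hf : f.IsIntegral := by
    have h1 : (f.comp (Ideal.Quotient.mk (Ideal.span {l}))).IsIntegral := by
      have : f.comp (Ideal.Quotient.mk (Ideal.span {l})) =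
          (Ideal.Quotient.mk (Ideal.span {algebraMap S E l})).comp (algebraMap S E) := by
        ext x; simp [f]
      rw [this]
      exact isIntegral_mk_comp_algebraMap _
    exact RingHom.IsIntegral.tower_top _ _ h1
  exact IntegralDim.ringKrullDim_le_of_isIntegral f hf

end Free

/-! ### (B) the dimension step -/

section DimStep

variable {E : Type*} [CommRing E]

/-- strict inclusion of primes raises the coheight -/
theorem ringKrullDim_quotient_add_one_le {P Q : Ideal E} [P.IsPrime] [Q.IsPrime] (h : P < Q) :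
    ringKrullDim (E ⧸ Q) + 1 ≤ ringKrullDim (E ⧸ P) := by
  have hP := BimoduleDim.ringKrullDim_quotient_prime (R := E) ⟨P, inferInstance⟩
  have hQ := BimoduleDim.ringKrullDim_quotient_prime (R := E) ⟨Q, inferInstance⟩
  simp only at hP hQ
  rw [hP, hQ]
  have hlt : (⟨P, inferInstance⟩ : PrimeSpectrum E) < ⟨Q, inferInstance⟩ := h
  have := Order.coheight_add_one_le hlt
  exact_mod_cast this

/-- **(B)**  The dimension step of RULING R4 §3.4. -/
theorem not_mem_radical_of_chart [IsNoetherianRing E] [IsLocalRing E]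
    (𝔓 : Ideal E) [𝔓.IsPrime] (N : ℕ) (hdim : ringKrullDim (E ⧸ 𝔓) = (N : ℕ) + 1)
    (s lam t : E) (hs : s ∈ maximalIdeal E) (hlam : lam ∈ (Ideal.span {s}).radical)
    (hbar : ringKrullDim (E ⧸ (Ideal.span {s, lam} : Ideal E)) ≤ N)
    (ht : ∀ 𝔮 ∈ (Ideal.span {s, lam} : Ideal E).minimalPrimes, t ∉ 𝔮) :
    t ∉ (𝔓 ⊔ Ideal.span {lam}).radical := by
  classical
  -- the local noetherian domain `𝔇 = E ⧸ 𝔓`
  have hne : 𝔓 ≠ ⊤ := Ideal.IsPrime.ne_top inferInstance
  have : Nontrivial (E ⧸ 𝔓) := Ideal.Quotient.nontrivial_iff.mpr hne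
  have : IsLocalRing (E ⧸ 𝔓) :=
    IsLocalRing.of_surjective' (Ideal.Quotient.mk 𝔓) Ideal.Quotient.mk_surjective
  set x : E ⧸ 𝔓 := Ideal.Quotient.mk 𝔓 s with hx
  have hxmem : x ∈ maximalIdeal (E ⧸ 𝔓) := by
    rw [hx]
    by_contra hcon
    have hu : IsUnit (Ideal.Quotient.mk 𝔓 s) := by
      by_contra hnu
      exact hcon ((IsLocalRing.mem_maximalIdeal _).mpr hnu)
    -- a unit modulo `𝔓` is a unit of the local ring `E`
    have : IsUnit s := by
      by_contra hns
      have h1 : s ∈ maximalIdeal E := hs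
      have h2 : Ideal.Quotient.mk 𝔓 s ∈ (maximalIdeal E).map (Ideal.Quotient.mk 𝔓) :=
        Ideal.mem_map_of_mem _ h1
      have h3 : (maximalIdeal E).map (Ideal.Quotient.mk 𝔓) ≠ ⊤ := by
        intro htop
        have hcomap := congrArg (Ideal.comap (Ideal.Quotient.mk 𝔓)) htop
        rw [Ideal.comap_map_of_surjective _ Ideal.Quotient.mk_surjective, Ideal.comap_top,
          ← RingHom.ker_eq_comap_bot, Ideal.mk_ker] at hcomap
        have hle : 𝔓 ≤ maximalIdeal E := IsLocalRing.le_maximalIdeal hne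
        rw [sup_eq_left.mpr hle] at hcomap
        exact (IsLocalRing.maximalIdeal.isMaximal E).ne_top hcomap
      exact h3 (Ideal.eq_top_of_isUnit_mem _ h2 hu)
    exact (IsLocalRing.mem_maximalIdeal _).mp hs this
  -- Krull: `dim 𝔇 ≤ dim 𝔇 ⧸ (x) + 1`
  have hkrull : ringKrullDim (E ⧸ 𝔓) ≤
      ringKrullDim ((E ⧸ 𝔓) ⧸ Ideal.span ((({x} : Finset (E ⧸ 𝔓)) : Set (E ⧸ 𝔓)))) +
        (({x} : Finset (E ⧸ 𝔓)).card : ℕ) := by
    refine ringKrullDim_le_ringKrullDim_quotient_add_card {x} ?_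
    intro y hy
    rw [Finset.coe_singleton, Set.mem_singleton_iff] at hy
    subst hy
    rw [IsLocalRing.ringJacobson_eq_maximalIdeal]
    exact hxmem
  rw [Finset.coe_singleton, Finset.card_singleton, hdim] at hkrull
  -- the dimension of `𝔇 ⧸ (x)` is a natural number `n' ≥ N`
  have hupper : ringKrullDim ((E ⧸ 𝔓) ⧸ Ideal.span {x}) ≤ (N : ℕ) + 1 := by
    rw [← hdim]
    exact ringKrullDim_quotient_le _
  have : Nontrivial ((E ⧸ 𝔓) ⧸ Ideal.span {x}) := by
    rw [Ideal.Quotient.nontrivial_iff]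
    intro htop
    have : (1 : E ⧸ 𝔓) ∈ Ideal.span {x} := by rw [htop]; trivial
    have hle : Ideal.span {x} ≤ maximalIdeal (E ⧸ 𝔓) := by
      rw [Ideal.span_le]; intro y hy; rw [Set.mem_singleton_iff] at hy; subst hy; exact hxmem
    exact (IsLocalRing.maximalIdeal.isMaximal (E ⧸ 𝔓)).ne_top
      ((Ideal.eq_top_iff_one _).mpr (hle this))
  obtain ⟨n', hn'⟩ : ∃ n' : ℕ, ringKrullDim ((E ⧸ 𝔓) ⧸ Ideal.span {x}) = n' := by
    have h0 : (0 : WithBot ℕ∞) ≤ ringKrullDim ((E ⧸ 𝔓) ⧸ Ideal.span {x}) :=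
      ringKrullDim_nonneg_of_nontrivial
    generalize ringKrullDim ((E ⧸ 𝔓) ⧸ Ideal.span {x}) = d at h0 hupper
    induction d with
    | bot => exact absurd h0 (by simp)
    | coe d =>
      induction d with
      | top =>
        exfalso
        have h1 : ((⊤ : ℕ∞) : WithBot ℕ∞) ≤ (((N + 1 : ℕ) : ℕ∞) : WithBot ℕ∞) := by
          push_cast; exact hupper
        have h2 : (⊤ : ℕ∞) ≤ ((N + 1 : ℕ) : ℕ∞) := WithBot.coe_le_coe.mp h1
        exact absurd h2 (by simp)
      | coe d => exact ⟨d, rfl⟩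
  have hNn' : N ≤ n' := by
    rw [hn'] at hkrull
    have h2 : ((N + 1 : ℕ) : WithBot ℕ∞) ≤ ((n' + 1 : ℕ) : WithBot ℕ∞) := by
      push_cast; exact hkrull
    have h3 : ((N + 1 : ℕ) : ℕ∞) ≤ ((n' + 1 : ℕ) : ℕ∞) := WithBot.coe_le_coe.mp h2
    have h4 : N + 1 ≤ n' + 1 := by exact_mod_cast h3
    omega
  -- a prime `P'` of `𝔇` over `x` with `dim 𝔇 ⧸ P' = n'`
  obtain ⟨P', hxP', hP'dim⟩ :=
    BimoduleDim.exists_prime_ge_ringKrullDim_quotient_eq (Ideal.span {x}) hn'
  -- pull back to `E`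
  set 𝔔 : Ideal E := P'.asIdeal.comap (Ideal.Quotient.mk 𝔓) with h𝔔
  have h𝔔prime : 𝔔.IsPrime := Ideal.comap_isPrime _ _
  have h𝔓𝔔 : 𝔓 ≤ 𝔔 := by
    intro y hy
    rw [h𝔔, Ideal.mem_comap, Ideal.Quotient.eq_zero_iff_mem.mpr hy]
    exact Ideal.zero_mem _
  have hs𝔔 : s ∈ 𝔔 := by
    rw [h𝔔, Ideal.mem_comap]
    exact hxP' (Ideal.subset_span rfl)
  have hlam𝔔 : lam ∈ 𝔔 := by
    have h1 : Ideal.span {s} ≤ 𝔔 := by
      rw [Ideal.span_le]; intro y hy; rw [Set.mem_singleton_iff] at hy; subst hy; exact hs𝔔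
    exact (Ideal.IsPrime.radical_le_iff h𝔔prime).mpr h1 hlam
  have hI𝔔 : (Ideal.span {s, lam} : Ideal E) ≤ 𝔔 := by
    rw [Ideal.span_le]
    intro y hy
    rcases hy with rfl | hy
    · exact hs𝔔
    · rw [Set.mem_singleton_iff] at hy; subst hy; exact hlam𝔔
  -- `dim E ⧸ 𝔔 = n'`
  have h𝔔dim : ringKrullDim (E ⧸ 𝔔) = n' := by
    rw [← hP'dim]
    have e : (E ⧸ 𝔔) ≃+* ((E ⧸ 𝔓) ⧸ P'.asIdeal) := by
      have hsurj : Function.Surjective
          ((Ideal.Quotient.mk P'.asIdeal).comp (Ideal.Quotient.mk 𝔓)) :=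
        Ideal.Quotient.mk_surjective.comp Ideal.Quotient.mk_surjective
      have hker : RingHom.ker ((Ideal.Quotient.mk P'.asIdeal).comp (Ideal.Quotient.mk 𝔓)) = 𝔔 := by
        ext y
        rw [RingHom.mem_ker, RingHom.comp_apply, Ideal.Quotient.eq_zero_iff_mem, h𝔔,
          Ideal.mem_comap]
      exact (Ideal.quotEquivOfEq hker.symm).trans
        (RingHom.quotientKerEquivOfSurjective hsurj)
    exact ringKrullDim_eq_of_ringEquiv e
  -- `𝔔` is minimal over `(s, lam)`
  have h𝔔min : 𝔔 ∈ (Ideal.span {s, lam} : Ideal E).minimalPrimes := by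
    obtain ⟨𝔮', h𝔮'min, h𝔮'le⟩ := Ideal.exists_minimalPrimes_le hI𝔔
    have h𝔮'prime : 𝔮'.IsPrime := h𝔮'min.1.1
    rcases eq_or_lt_of_le h𝔮'le with heq | hlt
    · rwa [← heq]
    · exfalso
      have h1 := ringKrullDim_quotient_add_one_le hlt
      rw [h𝔔dim] at h1
      have h2 : ringKrullDim (E ⧸ 𝔮') ≤ N := by
        refine le_trans ?_ hbar
        exact ringKrullDim_le_of_surjective (Ideal.Quotient.factor h𝔮'min.1.2)
          (Ideal.Quotient.factor_surjective h𝔮'min.1.2)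
      have h3 : ((n' + 1 : ℕ) : WithBot ℕ∞) ≤ ((N : ℕ) : WithBot ℕ∞) := by
        push_cast; exact le_trans h1 h2
      have h4 : ((n' + 1 : ℕ) : ℕ∞) ≤ ((N : ℕ) : ℕ∞) := WithBot.coe_le_coe.mp h3
      have h5 : n' + 1 ≤ N := by exact_mod_cast h4
      omega
  -- conclusion
  intro hrad
  have hle : 𝔓 ⊔ Ideal.span {lam} ≤ 𝔔 := by
    refine sup_le h𝔓𝔔 ?_
    rw [Ideal.span_le]; intro y hy; rw [Set.mem_singleton_iff] at hy; subst hy; exact hlam𝔔
  exact ht 𝔔 h𝔔min ((Ideal.IsPrime.radical_le_iff h𝔔prime).mpr hle hrad)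

end DimStep

/-! ### transfer along ring homomorphisms -/

section Comap

variable {R E : Type*} [CommRing R] [CommRing E]

/-- The radical test passes to a source ring: if `t ∉ rad (𝔓 + (lam))` in `E` then
`t ∉ rad (f⁻¹𝔓 + (lam))` in `R`. -/
theorem not_mem_radical_of_comap (f : R →+* E) (𝔓 : Ideal E) (lam t : R)
    (h : f t ∉ (𝔓 ⊔ Ideal.span {f lam}).radical) :
    t ∉ (𝔓.comap f ⊔ Ideal.span {lam}).radical := by
  intro ht
  apply h
  obtain ⟨n, hn⟩ := ht
  refine ⟨n, ?_⟩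
  rw [← map_pow]
  obtain ⟨a, ha, b, hb, hab⟩ := Submodule.mem_sup.mp hn
  rw [← hab, map_add]
  refine Ideal.add_mem _ (Ideal.mem_sup_left ha) (Ideal.mem_sup_right ?_)
  obtain ⟨c, rfl⟩ := Ideal.mem_span_singleton'.mp hb
  rw [map_mul]
  exact Ideal.mul_mem_left _ _ (Ideal.subset_span rfl)

/-- **hP from charts**: if `R → ∏ E i` is injective (finite family) and every minimal prime of
every `E i` passes the test, so does every minimal prime of `R`. -/
theorem hP_of_charts {ι : Type*} [Finite ι] (Ech : ι → Type*) [∀ i, CommRing (Ech i)]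
    (f : ∀ i, R →+* Ech i) (hinj : ⨅ i, RingHom.ker (f i) = ⊥) (lam t : R)
    (h : ∀ i, ∀ 𝔓 ∈ minimalPrimes (Ech i),
      f i t ∉ (𝔓 ⊔ Ideal.span {f i lam}).radical) :
    ∀ P ∈ minimalPrimes R, t ∉ (P ⊔ Ideal.span {lam}).radical := by
  classical
  intro P hP
  have hPprime : P.IsPrime := hP.1.1
  -- `P` contains one of the kernels
  have := Fintype.ofFinite ι
  have hle : ∃ i, RingHom.ker (f i) ≤ P := by
    have h1 : (Finset.univ : Finset ι).inf (fun i => RingHom.ker (f i)) ≤ P := by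
      have : (Finset.univ : Finset ι).inf (fun i => RingHom.ker (f i)) =
          ⨅ i, RingHom.ker (f i) := by
        rw [Finset.inf_eq_iInf]; simp
      rw [this, hinj]; exact bot_le
    obtain ⟨i, -, hi⟩ := (Ideal.IsPrime.inf_le' hPprime).mp h1
    exact ⟨i, hi⟩
  obtain ⟨i, hi⟩ := hle
  -- `P` is minimal over `ker (f i)`, hence contracted from a minimal prime of `Ech i`
  have hPmin : P ∈ (RingHom.ker (f i)).minimalPrimes := by
    refine ⟨⟨hPprime, hi⟩, fun Q hQ hQP => ?_⟩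
    exact hP.2 ⟨hQ.1, bot_le⟩ hQP
  have hker : RingHom.ker (f i) = (⊥ : Ideal (Ech i)).comap (f i) := by
    ext y; simp [RingHom.mem_ker]
  rw [hker] at hPmin
  obtain ⟨𝔓, h𝔓, rfl⟩ := Ideal.exists_minimalPrimes_comap_eq (f i) P hPmin
  exact not_mem_radical_of_comap (f i) 𝔓 lam t (h i 𝔓 h𝔓)

end Comap

end Fermat.Agent.GB.Alg.ChartDim
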