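/-
CELL-B / S59-ENGINE, node B0 (helper66): **lemma FIN** of board post 4904 §2 — the only piece of
commutative algebra that the Ihara-avoidance argument in contradiction form consumes.

`R` noetherian local, `M` a finite `R`-module carrying an `M`-regular sequence `lam :: rs` whose
length is at least `dim R` (in the application: `M = M^χ_∞` is finite free over
`S_∞ = 𝒪⟦y₁,…,y_s⟧`, the `y_i` act through elements of `R = A*⟦x₁,…,x_g⟧`, `dim R = s + 1`),
`t ∈ R` kills `M / lam M`.  Then `t ∈ √(P + (lam))` for some minimal prime `P` of `R`.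

Mathlib-only.  No depth theory, no Auslander–Buchsbaum, no "support is a union of components".
-/
import Mathlib.RingTheory.KrullDimension.Regular
import Mathlib.RingTheory.Support
import Mathlib.RingTheory.Ideal.MinimalPrime.Basic

set_option autoImplicit false

open RingTheory.Sequence PrimeSpectrum Module

namespace Fermat.Agent.GB.Alg

variable {R : Type*} [CommRing R] [IsNoetherianRing R] [IsLocalRing R]
  {M : Type*} [AddCommGroup M] [Module R M] [Module.Finite R M]

/-- A regular sequence forces a long chain of primes in the support. -/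
theorem exists_ltSeries_support_of_isRegular (rs : List R) (reg : IsRegular M rs) :
    ∃ l : LTSeries (Module.support R M), l.length = rs.length := by
  have h := Module.supportDim_add_length_eq_supportDim_of_isRegular rs reg
  have hnt : Nontrivial (M ⧸ Ideal.ofList rs • (⊤ : Submodule R M)) :=
    Submodule.Quotient.nontrivial_iff.mpr reg.2.symm
  have h0 : (0 : WithBot ℕ∞) ≤ Module.supportDim R (M ⧸ Ideal.ofList rs • (⊤ : Submodule R M)) := by
    have hne := (Module.supportDim_ne_bot_iff_nontrivial R
      (M ⧸ Ideal.ofList rs • (⊤ : Submodule R M))).mpr hnt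
    rcases hd : Module.supportDim R (M ⧸ Ideal.ofList rs • (⊤ : Submodule R M)) with _ | d
    · exact absurd hd hne
    · exact WithBot.coe_le_coe.mpr bot_le
  have hle : ((rs.length : ℕ) : WithBot ℕ∞) ≤ Module.supportDim R M := by
    rw [← h]
    calc ((rs.length : ℕ) : WithBot ℕ∞) = 0 + (rs.length : WithBot ℕ∞) := by simp
      _ ≤ _ := add_le_add h0 le_rfl
  exact Order.le_krullDim_iff.mp hle

/-- **FIN.**  See the file header. -/
theorem exists_minimalPrime_mem_radical
    (lam t : R) (rs : List R) (reg : IsRegular M (lam :: rs))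
    (hdim : ringKrullDim R ≤ ((rs.length + 1 : ℕ) : WithBot ℕ∞))
    (ht : ∀ m : M, t • m ∈ Ideal.span {lam} • (⊤ : Submodule R M)) :
    ∃ P ∈ minimalPrimes R, t ∈ (P ⊔ Ideal.span {lam}).radical := by
  obtain ⟨l, hl⟩ := exists_ltSeries_support_of_isRegular (lam :: rs) reg
  have hl' : l.length = rs.length + 1 := by simpa using hl
  -- the bottom of the chain is a minimal prime of `R`
  set p0 : PrimeSpectrum R := l.head.1 with hp0
  have hp0supp : p0 ∈ Module.support R M := l.head.2
  have hmin : p0.asIdeal ∈ minimalPrimes R := by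
    rw [minimalPrimes_eq_minimals]
    refine ⟨p0.2, ?_⟩
    intro q hq hqp
    by_contra hne
    have hlt : (⟨q, hq⟩ : PrimeSpectrum R) < p0 := lt_of_le_not_ge hqp hne
    -- a chain of length `rs.length + 2` in `Spec R`
    let l' : LTSeries (PrimeSpectrum R) := l.map Subtype.val (fun _ _ h => h)
    have hhead : l'.head = p0 := rfl
    have hl'len : l'.length = rs.length + 1 := hl'
    let l'' : LTSeries (PrimeSpectrum R) := l'.cons ⟨q, hq⟩ (by rw [hhead]; exact hlt)
    have hlen : l''.length = rs.length + 2 := by
      show 0 + l'.length + 1 = rs.length + 2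
      omega
    have h1 : ((rs.length + 2 : ℕ) : WithBot ℕ∞) ≤ ringKrullDim R := by
      rw [← hlen]; exact Order.LTSeries.length_le_krullDim l''
    have h2 := h1.trans hdim
    have h3 : (rs.length + 2 : ℕ) ≤ rs.length + 1 := by
      exact_mod_cast h2
    omega
  refine ⟨p0.asIdeal, hmin, ?_⟩
  rw [Ideal.radical_eq_sInf, Ideal.mem_sInf]
  rintro Q ⟨hQle, hQ⟩
  -- `Q ∈ Supp (M / lam M)`
  have hQsupp : (⟨Q, hQ⟩ : PrimeSpectrum R) ∈
      Module.support R (M ⧸ (Ideal.span {lam} • ⊤ : Submodule R M)) := by
    rw [Module.support_quotient]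
    refine ⟨Module.mem_support_mono (show p0 ≤ ⟨Q, hQ⟩ from le_sup_left.trans hQle) hp0supp, ?_⟩
    simpa [PrimeSpectrum.mem_zeroLocus] using le_sup_right.trans hQle
  have hann : t ∈ Module.annihilator R (M ⧸ (Ideal.span {lam} • ⊤ : Submodule R M)) := by
    rw [Module.mem_annihilator]
    intro x
    obtain ⟨m, rfl⟩ := Submodule.Quotient.mk_surjective _ x
    rw [← Submodule.Quotient.mk_smul, Submodule.Quotient.mk_eq_zero]
    exact ht m
  exact Module.annihilator_le_of_mem_support hQsupp hann

/-- **FIN**, contrapositive form used by the assembly: if `t` is non-nilpotent modulo `P + (lam)`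
for every minimal prime `P`, no such module exists. -/
theorem false_of_isRegular_of_forall_minimalPrime
    (lam t : R) (rs : List R) (reg : IsRegular M (lam :: rs))
    (hdim : ringKrullDim R ≤ ((rs.length + 1 : ℕ) : WithBot ℕ∞))
    (ht : ∀ m : M, t • m ∈ Ideal.span {lam} • (⊤ : Submodule R M))
    (hP : ∀ P ∈ minimalPrimes R, t ∉ (P ⊔ Ideal.span {lam}).radical) : False := by
  obtain ⟨P, hPmin, hmem⟩ := exists_minimalPrime_mem_radical lam t rs reg hdim ht
  exact hP P hPmin hmem

end Fermat.Agent.GB.Alg
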