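/-
GATE-B / B1-MULTI, (3.5) of helper53 R4 (board 5608): the ARTINIAN CERTIFICATE for SEVERAL framed
primes (helper66).  Generalises `GB/Local/DimCert` (helper51, one prime, `dim ≤ 4`).

A noetherian local ring `A` whose maximal ideal is generated by `lam`, the coordinates
`a v i, n v i` (`v : σ` the framed primes, `i : Fin 3`) and `g` further elements `x j`, such that for
every `v` the minors `a₀ n₂ = a₂ n₀`, `a₁ n₂ = a₂ n₁` of `(a v ∥ n v)` vanish (the third minor is
not needed) and `Q(n v) = n₀² + n₁ n₂ = (c v)²` with `c v ∈ (lam)`, has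
`ringKrullDim A ≤ 1 + 3 * card σ + g`.

Proof: modulo the `1 + 3 s + g` elements `lam, a v 0, a v 1 + n v 2, a v 2 + n v 1, x j` every prime
contains all the generators of the maximal ideal (`mem_of_cert`, pure algebra in any commutative
ring), so the quotient has dimension `0`; conclude by Krull's height theorem in the form
`ringKrullDim_le_ringKrullDim_quotient_add_card`.

* `mem_of_cert` : the per-prime algebra.
* `ringKrullDim_le_of_relations` : the certificate.
* `ringKrullDim_quotient_ker_le` : the same for `R ⧸ ker φ`, relations holding after `φ`.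
* `ringKrullDim_le_of_family` : `R` embedded in a finite product `∏ D ξ`, relations holding in each
  `D ξ` with constants `c ξ v` (type `1` charts: `c ξ v = 0`, `n v ↦ 0`).

Mathlib only.
-/
import Mathlib

set_option autoImplicit false

open IsLocalRing

namespace Fermat.Agent.GB.Alg.MultiCert

section PerPrime

variable {A : Type*} [CommRing A]

/-- **per-prime algebra**: a prime ideal containing `lam, a₀, a₁ + n₂, a₂ + n₁` contains all of
`a, n`, provided the minors of `(a ∥ n)` vanish and `Q(n) = c²` with `c ∈ (lam)`. -/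
theorem mem_of_cert (p : Ideal A) [hp : p.IsPrime] (lam a0 a1 a2 n0 n1 n2 c : A)
    (hc : c ∈ Ideal.span {lam})
    (h02 : a0 * n2 = a2 * n0) (h12 : a1 * n2 = a2 * n1)
    (hQ : n0 ^ 2 + n1 * n2 = c ^ 2)
    (plam : lam ∈ p) (pa0 : a0 ∈ p) (pb1 : a1 + n2 ∈ p) (pb2 : a2 + n1 ∈ p) :
    a1 ∈ p ∧ a2 ∈ p ∧ n0 ∈ p ∧ n1 ∈ p ∧ n2 ∈ p := by
  have pc : c ∈ p := by
    obtain ⟨r, rfl⟩ := Ideal.mem_span_singleton'.mp hc
    exact Ideal.mul_mem_left _ _ plam
  have p01 : n0 * n1 ∈ p := by
    have : n0 * n1 = (a2 + n1) * n0 - a0 * n2 := by rw [h02]; ring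
    rw [this]
    exact Ideal.sub_mem _ (Ideal.mul_mem_right _ _ pb2) (Ideal.mul_mem_right _ _ pa0)
  have psq : n1 ^ 2 - n2 ^ 2 ∈ p := by
    have : n1 ^ 2 - n2 ^ 2 = (a2 + n1) * n1 - (a1 + n2) * n2 + (a1 * n2 - a2 * n1) := by ring
    rw [this, h12, sub_self, add_zero]
    exact Ideal.sub_mem _ (Ideal.mul_mem_right _ _ pb2) (Ideal.mul_mem_right _ _ pb1)
  have pQ : n0 ^ 2 + n1 * n2 ∈ p := by rw [hQ]; exact Ideal.pow_mem_of_mem _ pc 2 (by norm_num)
  have pn0 : n0 ∈ p := by
    have h3 : n0 ^ 3 ∈ p := by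
      have : n0 ^ 3 = n0 * (n0 ^ 2 + n1 * n2) - n0 * n1 * n2 := by ring
      rw [this]
      exact Ideal.sub_mem _ (Ideal.mul_mem_left _ _ pQ) (Ideal.mul_mem_right _ _ p01)
    exact hp.mem_of_pow_mem 3 h3
  have p12 : n1 * n2 ∈ p := by
    have : n1 * n2 = (n0 ^ 2 + n1 * n2) - n0 * n0 := by ring
    rw [this]
    exact Ideal.sub_mem _ pQ (Ideal.mul_mem_left _ _ pn0)
  have pn12 : n1 ∈ p ∧ n2 ∈ p := by
    rcases hp.mem_or_mem p12 with h | h
    · refine ⟨h, hp.mem_of_pow_mem 2 ?_⟩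
      have : n2 ^ 2 = n1 * n1 - (n1 ^ 2 - n2 ^ 2) := by ring
      rw [this]
      exact Ideal.sub_mem _ (Ideal.mul_mem_left _ _ h) psq
    · refine ⟨hp.mem_of_pow_mem 2 ?_, h⟩
      have : n1 ^ 2 = n2 * n2 + (n1 ^ 2 - n2 ^ 2) := by ring
      rw [this]
      exact Ideal.add_mem _ (Ideal.mul_mem_left _ _ h) psq
  have pa1 : a1 ∈ p := by
    have : a1 = (a1 + n2) - n2 := by ring
    rw [this]; exact Ideal.sub_mem _ pb1 pn12.2
  have pa2 : a2 ∈ p := by
    have : a2 = (a2 + n1) - n1 := by ring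
    rw [this]; exact Ideal.sub_mem _ pb2 pn12.1
  exact ⟨pa1, pa2, pn0, pn12.1, pn12.2⟩

end PerPrime

section Generic

variable {R : Type*} [CommRing R]

/-- in a local ring, if the maximal ideal is the only prime containing `I` then `R ⧸ I` has
dimension `≤ 0`. -/
theorem ringKrullDim_quotient_le_zero [IsLocalRing R] (I : Ideal R)
    (h : ∀ p : Ideal R, p.IsPrime → I ≤ p → maximalIdeal R ≤ p) :
    ringKrullDim (R ⧸ I) ≤ 0 := by
  rw [ringKrullDim_quotient]
  have : Subsingleton (PrimeSpectrum.zeroLocus (R := R) I) := by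
    refine ⟨fun x y => ?_⟩
    have hx : x.1.asIdeal = maximalIdeal R :=
      le_antisymm (le_maximalIdeal x.1.2.ne_top)
        (h _ x.1.2 (fun a ha => (PrimeSpectrum.mem_zeroLocus _ _).mp x.2 ha))
    have hy : y.1.asIdeal = maximalIdeal R :=
      le_antisymm (le_maximalIdeal y.1.2.ne_top)
        (h _ y.1.2 (fun a ha => (PrimeSpectrum.mem_zeroLocus _ _).mp y.2 ha))
    exact Subtype.ext (PrimeSpectrum.ext (hx.trans hy.symm))
  exact Order.krullDim_nonpos_of_subsingleton

/-- **Krull height bound, finset form**: in a noetherian local ring, if every prime containing the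
finite set `s ⊆ 𝔪` contains the maximal ideal, then `dim R ≤ card s`. -/
theorem ringKrullDim_le_card [IsLocalRing R] [IsNoetherianRing R] (s : Finset R)
    (hs : ∀ x ∈ s, x ∈ maximalIdeal R)
    (h : ∀ p : Ideal R, p.IsPrime → (∀ x ∈ s, x ∈ p) → maximalIdeal R ≤ p) :
    ringKrullDim R ≤ s.card := by
  have hs' : (s : Set R) ⊆ Ring.jacobson R := by
    rw [ringJacobson_eq_maximalIdeal]
    exact fun x hx => hs x hx
  have h1 := ringKrullDim_le_ringKrullDim_quotient_add_card s hs'
  have h2 : ringKrullDim (R ⧸ Ideal.span (s : Set R)) ≤ 0 :=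
    ringKrullDim_quotient_le_zero _ fun p hp hle =>
      h p hp fun x hx => hle (Ideal.subset_span hx)
  calc ringKrullDim R ≤ ringKrullDim (R ⧸ Ideal.span (s : Set R)) + s.card := h1
    _ ≤ 0 + (s.card : ℕ) := add_le_add h2 le_rfl
    _ = s.card := by simp

/-- if every prime contains one of the `I i`, the dimension of `R` is at most the sup of the
dimensions of the `R ⧸ I i`. -/
theorem ringKrullDim_le_of_cover {ι : Type*} (I : ι → Ideal R)
    (d : WithBot ℕ∞) (hcov : ∀ p : Ideal R, p.IsPrime → ∃ i, I i ≤ p)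
    (hd : ∀ i, ringKrullDim (R ⧸ I i) ≤ d) : ringKrullDim R ≤ d := by
  rw [ringKrullDim, Order.krullDim]
  refine iSup_le fun l => ?_
  obtain ⟨i, hi⟩ := hcov l.head.asIdeal l.head.2
  have hmem : ∀ j, l j ∈ PrimeSpectrum.zeroLocus (R := R) (I i) := by
    intro j
    rw [PrimeSpectrum.mem_zeroLocus]
    have h1 : l.head ≤ l j := LTSeries.head_le l j
    exact fun x hx => h1 (hi hx)
  let l' : LTSeries (PrimeSpectrum.zeroLocus (R := R) (I i)) :=
    { length := l.length
      toFun := fun j => ⟨l j, hmem j⟩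
      step := fun j => l.step j }
  have h2 := Order.LTSeries.length_le_krullDim l'
  rw [← ringKrullDim_quotient] at h2
  exact h2.trans (hd i)

/-- a prime containing a finite intersection of ideals contains one of them. -/
theorem exists_ker_le_of_isPrime {ι : Type*} [Finite ι] {D : ι → Type*} [∀ i, CommRing (D i)]
    (φ : ∀ i, R →+* D i) (hker : ⨅ i, RingHom.ker (φ i) = ⊥) (p : Ideal R) [hp : p.IsPrime] :
    ∃ i, RingHom.ker (φ i) ≤ p := by
  classical
  have := Fintype.ofFinite ι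
  have h : (Finset.univ : Finset ι).inf (fun i => RingHom.ker (φ i)) ≤ p := by
    rw [Finset.inf_univ_eq_iInf, hker]; exact bot_le
  obtain ⟨i, -, hi⟩ := (Ideal.IsPrime.inf_le' hp).mp h
  exact ⟨i, hi⟩

end Generic

section Cert

variable {A : Type*} [CommRing A] [IsLocalRing A] [IsNoetherianRing A]
  {σ : Type*} [Fintype σ] {τ : Type*} [Fintype τ]

/-- **the multi-prime Artinian certificate** (R4 (3.5)). -/
theorem ringKrullDim_le_of_relations (lam : A) (a n : σ → Fin 3 → A) (x : τ → A) (c : σ → A)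
    (hm : ∀ p : Ideal A, p.IsPrime → lam ∈ p → (∀ v i, a v i ∈ p) → (∀ v i, n v i ∈ p) →
      (∀ j, x j ∈ p) → maximalIdeal A ≤ p)
    (hlam : lam ∈ maximalIdeal A) (ha : ∀ v i, a v i ∈ maximalIdeal A)
    (hn : ∀ v i, n v i ∈ maximalIdeal A) (hx : ∀ j, x j ∈ maximalIdeal A)
    (hc : ∀ v, c v ∈ Ideal.span {lam})
    (h02 : ∀ v, a v 0 * n v 2 = a v 2 * n v 0)
    (h12 : ∀ v, a v 1 * n v 2 = a v 2 * n v 1)
    (hQ : ∀ v, n v 0 ^ 2 + n v 1 * n v 2 = c v ^ 2) :
    ringKrullDim A ≤ ((1 + 3 * Fintype.card σ + Fintype.card τ : ℕ) : WithBot ℕ∞) := by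
  classical
  let s : Finset A := {lam} ∪ (Finset.univ.image fun v => a v 0) ∪
    (Finset.univ.image fun v => a v 1 + n v 2) ∪ (Finset.univ.image fun v => a v 2 + n v 1) ∪
    (Finset.univ.image x)
  have hcard : s.card ≤ 1 + 3 * Fintype.card σ + Fintype.card τ := by
    show (({lam} : Finset A) ∪ (Finset.univ.image fun v => a v 0) ∪
      (Finset.univ.image fun v => a v 1 + n v 2) ∪ (Finset.univ.image fun v => a v 2 + n v 1) ∪
      (Finset.univ.image x)).card ≤ _
    have e1 : (Finset.univ.image fun v => a v 0).card ≤ Fintype.card σ :=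
      Finset.card_image_le.trans (by simp)
    have e2 : (Finset.univ.image fun v => a v 1 + n v 2).card ≤ Fintype.card σ :=
      Finset.card_image_le.trans (by simp)
    have e3 : (Finset.univ.image fun v => a v 2 + n v 1).card ≤ Fintype.card σ :=
      Finset.card_image_le.trans (by simp)
    have e4 : (Finset.univ.image x).card ≤ Fintype.card τ :=
      Finset.card_image_le.trans (by simp)
    have e0 : ({lam} : Finset A).card = 1 := Finset.card_singleton _
    have u1 := Finset.card_union_le ({lam} : Finset A) (Finset.univ.image fun v => a v 0)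
    have u2 := Finset.card_union_le (({lam} : Finset A) ∪ (Finset.univ.image fun v => a v 0))
      (Finset.univ.image fun v => a v 1 + n v 2)
    have u3 := Finset.card_union_le (({lam} : Finset A) ∪ (Finset.univ.image fun v => a v 0) ∪
      (Finset.univ.image fun v => a v 1 + n v 2)) (Finset.univ.image fun v => a v 2 + n v 1)
    have u4 := Finset.card_union_le (({lam} : Finset A) ∪ (Finset.univ.image fun v => a v 0) ∪
      (Finset.univ.image fun v => a v 1 + n v 2) ∪ (Finset.univ.image fun v => a v 2 + n v 1))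
      (Finset.univ.image x)
    omega
  have hs : ∀ y ∈ s, y ∈ maximalIdeal A := by
    intro y hy
    simp only [s, Finset.mem_union, Finset.mem_singleton, Finset.mem_image, Finset.mem_univ,
      true_and] at hy
    rcases hy with (((rfl | ⟨v, rfl⟩) | ⟨v, rfl⟩) | ⟨v, rfl⟩) | ⟨j, rfl⟩
    · exact hlam
    · exact ha v 0
    · exact Ideal.add_mem _ (ha v 1) (hn v 2)
    · exact Ideal.add_mem _ (ha v 2) (hn v 1)
    · exact hx j
  have hprime : ∀ p : Ideal A, p.IsPrime → (∀ y ∈ s, y ∈ p) → maximalIdeal A ≤ p := by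
    intro p hp hin
    have plam : lam ∈ p := hin _ (by simp [s])
    have pa0 : ∀ v, a v 0 ∈ p := fun v => hin _ (by simp [s])
    have pb1 : ∀ v, a v 1 + n v 2 ∈ p := fun v => hin _ (by simp [s])
    have pb2 : ∀ v, a v 2 + n v 1 ∈ p := fun v => hin _ (by simp [s])
    have px : ∀ j, x j ∈ p := fun j => hin _ (by simp [s])
    have key : ∀ v, a v 1 ∈ p ∧ a v 2 ∈ p ∧ n v 0 ∈ p ∧ n v 1 ∈ p ∧ n v 2 ∈ p := fun v =>
      mem_of_cert p lam (a v 0) (a v 1) (a v 2) (n v 0) (n v 1) (n v 2) (c v) (hc v)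
        (h02 v) (h12 v) (hQ v) plam (pa0 v) (pb1 v) (pb2 v)
    refine hm p hp plam (fun v i => ?_) (fun v i => ?_) px
    · fin_cases i
      · exact pa0 v
      · exact (key v).1
      · exact (key v).2.1
    · fin_cases i
      · exact (key v).2.2.1
      · exact (key v).2.2.2.1
      · exact (key v).2.2.2.2
  calc ringKrullDim A ≤ s.card := ringKrullDim_le_card s hs hprime
    _ ≤ ((1 + 3 * Fintype.card σ + Fintype.card τ : ℕ) : WithBot ℕ∞) := by exact_mod_cast hcard

omit [IsNoetherianRing A] [Fintype σ] [Fintype τ] in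
/-- the generation hypothesis `hm` of `ringKrullDim_le_of_relations` from the usual span form. -/
theorem hm_of_span (lam : A) (a n : σ → Fin 3 → A) (x : τ → A)
    (hspan : maximalIdeal A ≤ Ideal.span ({lam} ∪ (Set.range fun vi : σ × Fin 3 => a vi.1 vi.2) ∪
      (Set.range fun vi : σ × Fin 3 => n vi.1 vi.2) ∪ Set.range x))
    (p : Ideal A) (_hp : p.IsPrime) (plam : lam ∈ p) (pa : ∀ v i, a v i ∈ p)
    (pn : ∀ v i, n v i ∈ p) (px : ∀ j, x j ∈ p) : maximalIdeal A ≤ p := by
  refine hspan.trans (Ideal.span_le.mpr ?_)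
  rintro y (((hy | ⟨⟨v, i⟩, rfl⟩) | ⟨⟨v, i⟩, rfl⟩) | ⟨j, rfl⟩)
  · rw [Set.mem_singleton_iff] at hy; subst hy; exact plam
  · exact pa v i
  · exact pn v i
  · exact px j

end Cert

section Family

variable {R : Type*} [CommRing R] [IsLocalRing R] [IsNoetherianRing R]
  {σ : Type*} [Fintype σ] {τ : Type*} [Fintype τ]

/-- the certificate for one quotient `R ⧸ ker φ`, the relations holding after `φ`. -/
theorem ringKrullDim_quotient_ker_le {D : Type*} [CommRing D] (φ : R →+* D)
    (lam : R) (a n : σ → Fin 3 → R) (x : τ → R) (c : σ → R)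
    (hm : ∀ p : Ideal R, p.IsPrime → lam ∈ p → (∀ v i, a v i ∈ p) → (∀ v i, n v i ∈ p) →
      (∀ j, x j ∈ p) → maximalIdeal R ≤ p)
    (hlam : lam ∈ maximalIdeal R) (ha : ∀ v i, a v i ∈ maximalIdeal R)
    (hn : ∀ v i, n v i ∈ maximalIdeal R) (hx : ∀ j, x j ∈ maximalIdeal R)
    (hc : ∀ v, c v ∈ Ideal.span {lam})
    (h02 : ∀ v, φ (a v 0 * n v 2) = φ (a v 2 * n v 0))
    (h12 : ∀ v, φ (a v 1 * n v 2) = φ (a v 2 * n v 1))
    (hQ : ∀ v, φ (n v 0 ^ 2 + n v 1 * n v 2) = φ (c v ^ 2)) :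
    ringKrullDim (R ⧸ RingHom.ker φ) ≤
      ((1 + 3 * Fintype.card σ + Fintype.card τ : ℕ) : WithBot ℕ∞) := by
  by_cases htop : RingHom.ker φ = ⊤
  · have : Subsingleton (R ⧸ RingHom.ker φ) := Ideal.Quotient.subsingleton_iff.mpr htop
    rw [ringKrullDim_eq_bot_of_subsingleton]; exact bot_le
  have : Nontrivial (R ⧸ RingHom.ker φ) := Ideal.Quotient.nontrivial_iff.mpr htop
  have : IsLocalRing (R ⧸ RingHom.ker φ) :=
    IsLocalRing.of_surjective' (Ideal.Quotient.mk _) Ideal.Quotient.mk_surjective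
  set mk := Ideal.Quotient.mk (RingHom.ker φ) with hmk
  have hsurj : Function.Surjective mk := Ideal.Quotient.mk_surjective
  have hloc : IsLocalHom mk := IsLocalHom.of_surjective mk hsurj
  have hmem : ∀ {y : R}, y ∈ maximalIdeal R → mk y ∈ maximalIdeal (R ⧸ RingHom.ker φ) := by
    intro y hy
    rw [mem_maximalIdeal, mem_nonunits_iff] at hy ⊢
    exact fun hu => hy (hu.of_map)
  have heq : ∀ {y z : R}, φ y = φ z → mk y = mk z := by
    intro y z h
    rw [hmk, Ideal.Quotient.eq, RingHom.mem_ker, map_sub, h, sub_self]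
  refine ringKrullDim_le_of_relations (mk lam) (fun v i => mk (a v i)) (fun v i => mk (n v i))
    (fun j => mk (x j)) (fun v => mk (c v)) ?_ (hmem hlam) (fun v i => hmem (ha v i))
    (fun v i => hmem (hn v i)) (fun j => hmem (hx j)) ?_ ?_ ?_ ?_
  · intro p' hp' plam pa pn px
    have hp : (p'.comap mk).IsPrime := Ideal.comap_isPrime mk p'
    have hle := hm (p'.comap mk) hp plam pa pn px
    intro y' hy'
    obtain ⟨y, rfl⟩ := hsurj y'
    have hy : y ∈ maximalIdeal R := by
      rw [mem_maximalIdeal, mem_nonunits_iff] at hy' ⊢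
      exact fun hu => hy' (hu.map mk)
    exact hle hy
  · intro v
    obtain ⟨r, hr⟩ := Ideal.mem_span_singleton'.mp (hc v)
    rw [← hr, map_mul]
    exact Ideal.mem_span_singleton'.mpr ⟨mk r, rfl⟩
  · intro v; simp only [← map_mul]; exact heq (h02 v)
  · intro v; simp only [← map_mul]; exact heq (h12 v)
  · intro v; simp only [← map_mul, ← map_pow, ← map_add]; exact heq (hQ v)

/-- **(3.5) of R4, spelling-independent**: a noetherian local ring `R` whose maximal ideal is
generated by `lam`, the `a v i`, `n v i` and the `x j`, embedded in a finite product `∏ D ξ` such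
that in each `D ξ`, for every framed prime `v`, `a v ∥ n v` and `Q(n v) = (c ξ v)²` with
`c ξ v ∈ (lam)` (charts of type `1`: `c ξ v = 0`), has dimension `≤ 1 + 3 s + g`. -/
theorem ringKrullDim_le_of_family {ι : Type*} [Finite ι] {D : ι → Type*}
    [∀ i, CommRing (D i)] (φ : ∀ i, R →+* D i) (hker : ⨅ i, RingHom.ker (φ i) = ⊥)
    (lam : R) (a n : σ → Fin 3 → R) (x : τ → R) (c : ι → σ → R)
    (hm : ∀ p : Ideal R, p.IsPrime → lam ∈ p → (∀ v i, a v i ∈ p) → (∀ v i, n v i ∈ p) →
      (∀ j, x j ∈ p) → maximalIdeal R ≤ p)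
    (hlam : lam ∈ maximalIdeal R) (ha : ∀ v i, a v i ∈ maximalIdeal R)
    (hn : ∀ v i, n v i ∈ maximalIdeal R) (hx : ∀ j, x j ∈ maximalIdeal R)
    (hc : ∀ i v, c i v ∈ Ideal.span {lam})
    (h02 : ∀ i v, φ i (a v 0 * n v 2) = φ i (a v 2 * n v 0))
    (h12 : ∀ i v, φ i (a v 1 * n v 2) = φ i (a v 2 * n v 1))
    (hQ : ∀ i v, φ i (n v 0 ^ 2 + n v 1 * n v 2) = φ i (c i v ^ 2)) :
    ringKrullDim R ≤ ((1 + 3 * Fintype.card σ + Fintype.card τ : ℕ) : WithBot ℕ∞) :=
  ringKrullDim_le_of_cover (fun i => RingHom.ker (φ i)) _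
    (fun p hp => haveI := hp; exists_ker_le_of_isPrime φ hker p)
    (fun i => ringKrullDim_quotient_ker_le (φ i) lam a n x (c i) hm hlam ha hn hx (hc i)
      (h02 i) (h12 i) (hQ i))

end Family

end Fermat.Agent.GB.Alg.MultiCert
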