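/-
GATE-B / B1-MULTI, (3.5) of helper53 R4 (board 5608) in the form needed by helper6's design (III)
(board 5688): the ARTINIAN CERTIFICATE for several framed primes with the relations holding only
MODULO `lam` (helper66).

In the Steinberg chart `St_v` the traceless Frobenius coordinate `a` is not parallel to the
nilpotent coordinate `n`: `[A₀, N] = 2 ε c N`, i.e. the three minors of `(a ∥ n)` are `ε c n_i`,
multiples of `c ∈ (lam)`; and `Q(n) = 0`.  In the charts `EE_c`, `W_c` one has exact parallelism and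
`Q(n) = c²`; in the unramified chart `n = 0`.  In all cases

  `a₀ n₂ - a₂ n₀ ∈ (lam)`, `a₁ n₂ - a₂ n₁ ∈ (lam)`, `n₀² + n₁ n₂ ∈ (lam)`,

and this is all the certificate uses.

* `mem_of_cert_mod` : the per-prime algebra, membership form.
* `ringKrullDim_le_of_relations_mod` : noetherian local `A`, `𝔪` generated by `lam`, `a v i`,
  `n v i`, `x j`, relations modulo `lam` ⟹ `ringKrullDim A ≤ 1 + 3 * card σ + card τ`.
* `ringKrullDim_quotient_ker_le_mod`, `ringKrullDim_le_of_family_mod` : relations after ring homs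
  `φ ξ : R →+* D ξ` with `⨅ ker = ⊥`, in the form `φ ξ (minor) = φ ξ (m)`, `m ∈ span {lam}`.

Mathlib + `GB/Alg/MultiCert`.
-/
import Fermat.Agent.GB.Alg.MultiCert

set_option autoImplicit false

open IsLocalRing

namespace Fermat.Agent.GB.Alg.MultiCertMod

open Fermat.Agent.GB.Alg.MultiCert

section PerPrime

variable {A : Type*} [CommRing A]

/-- **per-prime algebra, membership form**: a prime ideal `p` containing `a₀, a₁ + n₂, a₂ + n₁`,
two minors of `(a ∥ n)` and `Q(n)` contains all of `a, n`. -/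
theorem mem_of_cert_mod (p : Ideal A) [hp : p.IsPrime] (a0 a1 a2 n0 n1 n2 : A)
    (h02 : a0 * n2 - a2 * n0 ∈ p) (h12 : a1 * n2 - a2 * n1 ∈ p)
    (hQ : n0 ^ 2 + n1 * n2 ∈ p)
    (pa0 : a0 ∈ p) (pb1 : a1 + n2 ∈ p) (pb2 : a2 + n1 ∈ p) :
    a1 ∈ p ∧ a2 ∈ p ∧ n0 ∈ p ∧ n1 ∈ p ∧ n2 ∈ p := by
  set mk := Ideal.Quotient.mk p with hmk
  have hz : ∀ {y : A}, y ∈ p → mk y = 0 := fun hy => Ideal.Quotient.eq_zero_iff_mem.mpr hy
  have hb : ∀ {y : A}, mk y ∈ (⊥ : Ideal (A ⧸ p)) → y ∈ p := fun hy =>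
    Ideal.Quotient.eq_zero_iff_mem.mp ((Ideal.mem_bot).mp hy)
  have key := mem_of_cert (⊥ : Ideal (A ⧸ p)) (hp := Ideal.isPrime_bot)
    0 (mk a0) (mk a1) (mk a2) (mk n0) (mk n1) (mk n2) 0 (Ideal.zero_mem _)
    (by rw [← sub_eq_zero, ← map_mul, ← map_mul, ← map_sub]; exact hz h02)
    (by rw [← sub_eq_zero, ← map_mul, ← map_mul, ← map_sub]; exact hz h12)
    (by rw [← map_pow, ← map_mul, ← map_add, hz hQ]; ring)
    (Ideal.zero_mem _) (by rw [hz pa0]; exact Ideal.zero_mem _)
    (by rw [← map_add, hz pb1]; exact Ideal.zero_mem _)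
    (by rw [← map_add, hz pb2]; exact Ideal.zero_mem _)
  exact ⟨hb key.1, hb key.2.1, hb key.2.2.1, hb key.2.2.2.1, hb key.2.2.2.2⟩

end PerPrime

section Cert

variable {A : Type*} [CommRing A] [IsLocalRing A] [IsNoetherianRing A]
  {σ : Type*} [Fintype σ] {τ : Type*} [Fintype τ]

/-- **the multi-prime Artinian certificate, relations modulo `lam`**. -/
theorem ringKrullDim_le_of_relations_mod (lam : A) (a n : σ → Fin 3 → A) (x : τ → A)
    (hm : ∀ p : Ideal A, p.IsPrime → lam ∈ p → (∀ v i, a v i ∈ p) → (∀ v i, n v i ∈ p) →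
      (∀ j, x j ∈ p) → maximalIdeal A ≤ p)
    (hlam : lam ∈ maximalIdeal A) (ha : ∀ v i, a v i ∈ maximalIdeal A)
    (hn : ∀ v i, n v i ∈ maximalIdeal A) (hx : ∀ j, x j ∈ maximalIdeal A)
    (h02 : ∀ v, a v 0 * n v 2 - a v 2 * n v 0 ∈ Ideal.span {lam})
    (h12 : ∀ v, a v 1 * n v 2 - a v 2 * n v 1 ∈ Ideal.span {lam})
    (hQ : ∀ v, n v 0 ^ 2 + n v 1 * n v 2 ∈ Ideal.span {lam}) :
    ringKrullDim A ≤ ((1 + 3 * Fintype.card σ + Fintype.card τ : ℕ) : WithBot ℕ∞) := by
  classical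
  let s : Finset A := {lam} ∪ (Finset.univ.image fun v => a v 0) ∪
    (Finset.univ.image fun v => a v 1 + n v 2) ∪ (Finset.univ.image fun v => a v 2 + n v 1) ∪
    (Finset.univ.image x)
  have hcard : s.card ≤ 1 + 3 * Fintype.card σ + Fintype.card τ := by
    show (({lam} : Finset A) ∪ (Finset.univ.image fun v => a v 0) ∪
      (Finset.univ.image fun v => a v 1 + n v 2) ∪ (Finset.univ.image fun v => a v 2 + n v 1) ∪
      (Finset.univ.image x)).card ≤ _
    have e1 : (Finset.univ.image fun v => a v 0).card ≤ Fintype.card σ :=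
      Finset.card_image_le.trans (by simp)
    have e2 : (Finset.univ.image fun v => a v 1 + n v 2).card ≤ Fintype.card σ :=
      Finset.card_image_le.trans (by simp)
    have e3 : (Finset.univ.image fun v => a v 2 + n v 1).card ≤ Fintype.card σ :=
      Finset.card_image_le.trans (by simp)
    have e4 : (Finset.univ.image x).card ≤ Fintype.card τ :=
      Finset.card_image_le.trans (by simp)
    have e0 : ({lam} : Finset A).card = 1 := Finset.card_singleton _
    have u1 := Finset.card_union_le ({lam} : Finset A) (Finset.univ.image fun v => a v 0)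
    have u2 := Finset.card_union_le (({lam} : Finset A) ∪ (Finset.univ.image fun v => a v 0))
      (Finset.univ.image fun v => a v 1 + n v 2)
    have u3 := Finset.card_union_le (({lam} : Finset A) ∪ (Finset.univ.image fun v => a v 0) ∪
      (Finset.univ.image fun v => a v 1 + n v 2)) (Finset.univ.image fun v => a v 2 + n v 1)
    have u4 := Finset.card_union_le (({lam} : Finset A) ∪ (Finset.univ.image fun v => a v 0) ∪
      (Finset.univ.image fun v => a v 1 + n v 2) ∪ (Finset.univ.image fun v => a v 2 + n v 1))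
      (Finset.univ.image x)
    omega
  have hs : ∀ y ∈ s, y ∈ maximalIdeal A := by
    intro y hy
    simp only [s, Finset.mem_union, Finset.mem_singleton, Finset.mem_image, Finset.mem_univ,
      true_and] at hy
    rcases hy with (((rfl | ⟨v, rfl⟩) | ⟨v, rfl⟩) | ⟨v, rfl⟩) | ⟨j, rfl⟩
    · exact hlam
    · exact ha v 0
    · exact Ideal.add_mem _ (ha v 1) (hn v 2)
    · exact Ideal.add_mem _ (ha v 2) (hn v 1)
    · exact hx j
  have hprime : ∀ p : Ideal A, p.IsPrime → (∀ y ∈ s, y ∈ p) → maximalIdeal A ≤ p := by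
    intro p hp hin
    have plam : lam ∈ p := hin _ (by simp [s])
    have hle : Ideal.span {lam} ≤ p := (Ideal.span_singleton_le_iff_mem p).mpr plam
    have pa0 : ∀ v, a v 0 ∈ p := fun v => hin _ (by simp [s])
    have pb1 : ∀ v, a v 1 + n v 2 ∈ p := fun v => hin _ (by simp [s])
    have pb2 : ∀ v, a v 2 + n v 1 ∈ p := fun v => hin _ (by simp [s])
    have px : ∀ j, x j ∈ p := fun j => hin _ (by simp [s])
    have key : ∀ v, a v 1 ∈ p ∧ a v 2 ∈ p ∧ n v 0 ∈ p ∧ n v 1 ∈ p ∧ n v 2 ∈ p := fun v =>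
      mem_of_cert_mod p (a v 0) (a v 1) (a v 2) (n v 0) (n v 1) (n v 2)
        (hle (h02 v)) (hle (h12 v)) (hle (hQ v)) (pa0 v) (pb1 v) (pb2 v)
    refine hm p hp plam (fun v i => ?_) (fun v i => ?_) px
    · fin_cases i
      · exact pa0 v
      · exact (key v).1
      · exact (key v).2.1
    · fin_cases i
      · exact (key v).2.2.1
      · exact (key v).2.2.2.1
      · exact (key v).2.2.2.2
  calc ringKrullDim A ≤ s.card := ringKrullDim_le_card s hs hprime
    _ ≤ ((1 + 3 * Fintype.card σ + Fintype.card τ : ℕ) : WithBot ℕ∞) := by exact_mod_cast hcard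

end Cert

section Family

variable {R : Type*} [CommRing R] [IsLocalRing R] [IsNoetherianRing R]
  {σ : Type*} [Fintype σ] {τ : Type*} [Fintype τ]

/-- the certificate for one quotient `R ⧸ ker φ`, the relations holding modulo `lam` after `φ`. -/
theorem ringKrullDim_quotient_ker_le_mod {D : Type*} [CommRing D] (φ : R →+* D)
    (lam : R) (a n : σ → Fin 3 → R) (x : τ → R) (m02 m12 mQ : σ → R)
    (hm : ∀ p : Ideal R, p.IsPrime → lam ∈ p → (∀ v i, a v i ∈ p) → (∀ v i, n v i ∈ p) →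
      (∀ j, x j ∈ p) → maximalIdeal R ≤ p)
    (hlam : lam ∈ maximalIdeal R) (ha : ∀ v i, a v i ∈ maximalIdeal R)
    (hn : ∀ v i, n v i ∈ maximalIdeal R) (hx : ∀ j, x j ∈ maximalIdeal R)
    (hm02 : ∀ v, m02 v ∈ Ideal.span {lam}) (hm12 : ∀ v, m12 v ∈ Ideal.span {lam})
    (hmQ : ∀ v, mQ v ∈ Ideal.span {lam})
    (h02 : ∀ v, φ (a v 0 * n v 2 - a v 2 * n v 0) = φ (m02 v))
    (h12 : ∀ v, φ (a v 1 * n v 2 - a v 2 * n v 1) = φ (m12 v))
    (hQ : ∀ v, φ (n v 0 ^ 2 + n v 1 * n v 2) = φ (mQ v)) :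
    ringKrullDim (R ⧸ RingHom.ker φ) ≤
      ((1 + 3 * Fintype.card σ + Fintype.card τ : ℕ) : WithBot ℕ∞) := by
  by_cases htop : RingHom.ker φ = ⊤
  · have : Subsingleton (R ⧸ RingHom.ker φ) := Ideal.Quotient.subsingleton_iff.mpr htop
    rw [ringKrullDim_eq_bot_of_subsingleton]; exact bot_le
  have : Nontrivial (R ⧸ RingHom.ker φ) := Ideal.Quotient.nontrivial_iff.mpr htop
  have : IsLocalRing (R ⧸ RingHom.ker φ) :=
    IsLocalRing.of_surjective' (Ideal.Quotient.mk _) Ideal.Quotient.mk_surjective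
  set mk := Ideal.Quotient.mk (RingHom.ker φ) with hmk
  have hsurj : Function.Surjective mk := Ideal.Quotient.mk_surjective
  have hloc : IsLocalHom mk := IsLocalHom.of_surjective mk hsurj
  have hmem : ∀ {y : R}, y ∈ maximalIdeal R → mk y ∈ maximalIdeal (R ⧸ RingHom.ker φ) := by
    intro y hy
    rw [mem_maximalIdeal, mem_nonunits_iff] at hy ⊢
    exact fun hu => hy (hu.of_map)
  have heq : ∀ {y z : R}, φ y = φ z → mk y = mk z := by
    intro y z h
    rw [hmk, Ideal.Quotient.eq, RingHom.mem_ker, map_sub, h, sub_self]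
  have hspan : ∀ {y : R}, y ∈ Ideal.span {lam} → mk y ∈ Ideal.span {mk lam} := by
    intro y hy
    obtain ⟨r, rfl⟩ := Ideal.mem_span_singleton'.mp hy
    rw [map_mul]
    exact Ideal.mem_span_singleton'.mpr ⟨mk r, rfl⟩
  refine ringKrullDim_le_of_relations_mod (mk lam) (fun v i => mk (a v i)) (fun v i => mk (n v i))
    (fun j => mk (x j)) ?_ (hmem hlam) (fun v i => hmem (ha v i))
    (fun v i => hmem (hn v i)) (fun j => hmem (hx j)) ?_ ?_ ?_
  · intro p' hp' plam pa pn px
    have hp : (p'.comap mk).IsPrime := Ideal.comap_isPrime mk p'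
    have hle := hm (p'.comap mk) hp plam pa pn px
    intro y' hy'
    obtain ⟨y, rfl⟩ := hsurj y'
    have hy : y ∈ maximalIdeal R := by
      rw [mem_maximalIdeal, mem_nonunits_iff] at hy' ⊢
      exact fun hu => hy' (hu.map mk)
    exact hle hy
  · intro v
    have := heq (h02 v)
    simp only [← map_mul, ← map_sub]
    rw [this]; exact hspan (hm02 v)
  · intro v
    have := heq (h12 v)
    simp only [← map_mul, ← map_sub]
    rw [this]; exact hspan (hm12 v)
  · intro v
    have := heq (hQ v)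
    simp only [← map_mul, ← map_pow, ← map_add]
    rw [this]; exact hspan (hmQ v)

/-- **(3.5) of R4 for arbitrary chart types**: a noetherian local ring `R` whose maximal ideal is
generated by `lam`, the `a v i`, `n v i` and the `x j`, embedded in a finite product `∏ D ξ` such
that in each `D ξ`, for every framed prime `v`, the minors `a₀n₂ - a₂n₀`, `a₁n₂ - a₂n₁` and
`Q(n v)` agree with (the images of) multiples of `lam`, has dimension `≤ 1 + 3 s + g`. -/
theorem ringKrullDim_le_of_family_mod {ι : Type*} [Finite ι] {D : ι → Type*}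
    [∀ i, CommRing (D i)] (φ : ∀ i, R →+* D i) (hker : ⨅ i, RingHom.ker (φ i) = ⊥)
    (lam : R) (a n : σ → Fin 3 → R) (x : τ → R) (m02 m12 mQ : ι → σ → R)
    (hm : ∀ p : Ideal R, p.IsPrime → lam ∈ p → (∀ v i, a v i ∈ p) → (∀ v i, n v i ∈ p) →
      (∀ j, x j ∈ p) → maximalIdeal R ≤ p)
    (hlam : lam ∈ maximalIdeal R) (ha : ∀ v i, a v i ∈ maximalIdeal R)
    (hn : ∀ v i, n v i ∈ maximalIdeal R) (hx : ∀ j, x j ∈ maximalIdeal R)
    (hm02 : ∀ i v, m02 i v ∈ Ideal.span {lam}) (hm12 : ∀ i v, m12 i v ∈ Ideal.span {lam})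
    (hmQ : ∀ i v, mQ i v ∈ Ideal.span {lam})
    (h02 : ∀ i v, φ i (a v 0 * n v 2 - a v 2 * n v 0) = φ i (m02 i v))
    (h12 : ∀ i v, φ i (a v 1 * n v 2 - a v 2 * n v 1) = φ i (m12 i v))
    (hQ : ∀ i v, φ i (n v 0 ^ 2 + n v 1 * n v 2) = φ i (mQ i v)) :
    ringKrullDim R ≤ ((1 + 3 * Fintype.card σ + Fintype.card τ : ℕ) : WithBot ℕ∞) :=
  ringKrullDim_le_of_cover (fun i => RingHom.ker (φ i)) _
    (fun p hp => haveI := hp; exists_ker_le_of_isPrime φ hker p)
    (fun i => ringKrullDim_quotient_ker_le_mod (φ i) lam a n x (m02 i) (m12 i) (mQ i) hm hlam ha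
      hn hx (hm02 i) (hm12 i) (hmQ i) (h02 i) (h12 i) (hQ i))

end Family

end Fermat.Agent.GB.Alg.MultiCertMod
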