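/-
GATE-B (S38/S43), node B0 ALG, leaf PS-DIM part 1 (helper5): **Krull dimension of power series rings
over a noetherian ring**: `dim B⟦X⟧ = dim B + 1`, `dim B⟦x₁,…,x_g⟧ = dim B + g`.
Mathlib has the lower bound (`ringKrullDim_succ_le_ringKrullDim_powerseries`) and noetherianity of
`MvPowerSeries σ B`; the upper bound is Krull's height theorem applied to `X ∈ Jac (B⟦X⟧)` with
`B⟦X⟧ ⧸ (X) ≃ B`.  Mathlib only.
-/
import Mathlib

set_option autoImplicit false

namespace Fermat.Agent.GB.Alg.PSDim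

open PowerSeries

section OneVar

variable {B : Type*} [CommRing B]

/-- `(X) = ker (constant coefficient)`. -/
theorem span_X_eq_ker_constantCoeff :
    Ideal.span ({X} : Set B⟦X⟧) = RingHom.ker (constantCoeff (R := B)) := by
  ext f
  rw [RingHom.mem_ker, Ideal.mem_span_singleton, X_dvd_iff]

/-- `X` lies in the Jacobson radical of `B⟦X⟧`. -/
theorem X_mem_jacobson : (X : B⟦X⟧) ∈ Ring.jacobson B⟦X⟧ := by
  rw [← Ideal.jacobson_bot, Ideal.mem_jacobson_bot]
  intro y
  rw [PowerSeries.isUnit_iff_constantCoeff, map_add, map_mul, constantCoeff_X, zero_mul, zero_add,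
    map_one]
  exact isUnit_one

/-- `B⟦X⟧ ⧸ (X) ≃ B`. -/
noncomputable def quotSpanXEquiv : (B⟦X⟧ ⧸ Ideal.span ({X} : Set B⟦X⟧)) ≃+* B :=
  (Ideal.quotEquivOfEq span_X_eq_ker_constantCoeff).trans
    (RingHom.quotientKerEquivOfSurjective (f := constantCoeff (R := B))
      (fun b => ⟨C b, constantCoeff_C b⟩))

variable [IsNoetherianRing B]

/-- the upper bound `dim B⟦X⟧ ≤ dim B + 1` over a noetherian ring. -/
theorem ringKrullDim_powerSeries_le : ringKrullDim B⟦X⟧ ≤ ringKrullDim B + 1 := by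
  classical
  have h := ringKrullDim_le_ringKrullDim_quotient_add_card ({X} : Finset B⟦X⟧) (by
    intro f hf
    rw [Finset.coe_singleton, Set.mem_singleton_iff] at hf
    rw [hf]
    exact X_mem_jacobson)
  rw [Finset.coe_singleton, Finset.card_singleton, Nat.cast_one,
    ringKrullDim_eq_of_ringEquiv (quotSpanXEquiv (B := B))] at h
  exact h

/-- **`dim B⟦X⟧ = dim B + 1`** over a noetherian ring. -/
theorem ringKrullDim_powerSeries : ringKrullDim B⟦X⟧ = ringKrullDim B + 1 :=
  le_antisymm ringKrullDim_powerSeries_le ringKrullDim_succ_le_ringKrullDim_powerseries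

end OneVar

section MultiVar

variable (B : Type*) [CommRing B] [IsNoetherianRing B]

/-- **`dim B⟦x₁,…,x_g⟧ = dim B + g`** over a noetherian ring. -/
theorem ringKrullDim_mvPowerSeries_fin (g : ℕ) :
    ringKrullDim (MvPowerSeries (Fin g) B) = ringKrullDim B + g := by
  induction g with
  | zero =>
    rw [ringKrullDim_eq_of_ringEquiv (MvPowerSeries.isEmptyEquiv (Fin 0) B).toRingEquiv]
    simp
  | succ g ih =>
    rw [ringKrullDim_eq_of_ringEquiv (MvPowerSeries.finSuccEquiv B g).toRingEquiv,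
      ringKrullDim_powerSeries, ih, Nat.cast_add, Nat.cast_one, add_assoc]

/-- `dim B⟦x_i : i ∈ σ⟧ = dim B + #σ` for a finite set of variables. -/
theorem ringKrullDim_mvPowerSeries (σ : Type*) [Finite σ] :
    ringKrullDim (MvPowerSeries σ B) = ringKrullDim B + Nat.card σ := by
  cases nonempty_fintype σ
  rw [ringKrullDim_eq_of_ringEquiv
    (MvPowerSeries.renameEquiv B (Fintype.equivFin σ)).toRingEquiv,
    ringKrullDim_mvPowerSeries_fin, Nat.card_eq_fintype_card]

/-- the form used by FIN: `dim B⟦x₁,…,x_g⟧ ≤ n + g` if `dim B ≤ n`. -/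
theorem ringKrullDim_mvPowerSeries_fin_le {n : ℕ} (h : ringKrullDim B ≤ n) (g : ℕ) :
    ringKrullDim (MvPowerSeries (Fin g) B) ≤ (n + g : ℕ) := by
  rw [ringKrullDim_mvPowerSeries_fin, Nat.cast_add]
  exact add_le_add_left h _

end MultiVar

end Fermat.Agent.GB.Alg.PSDim
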