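/-
GATE-B / B0 ALG, leaf (F1) of helper54 5763 (N1) (helper51): **power series over a finite free
algebra are finite free over the power series of the base.**

`B` finite free over `S` ⟹ `MvPowerSeries σ B` is finite free over `MvPowerSeries σ S`
(Mathlib instance `MvPowerSeries.algebraMvPowerSeries`), with basis `C (b i)` for any finite
basis `b` of `B` over `S` (coefficientwise decomposition).  `σ` arbitrary.  Mathlib only.
-/
import Mathlib

set_option autoImplicit false

namespace Fermat.Agent.GB.Alg.PSFree

open MvPowerSeries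

variable {σ S B : Type*} [CommRing S] [CommRing B] [Algebra S B]
variable {ι : Type*} [Fintype ι] (b : Module.Basis ι S B)

/-- the `n`-th coefficient of `∑ f i • C (b i)` is `∑ (coeff n (f i)) • b i` -/
theorem coeff_sum_smul_C (f : ι → MvPowerSeries σ S) (n : σ →₀ ℕ) :
    coeff n (∑ i, f i • (C (b i) : MvPowerSeries σ B)) = ∑ i, coeff n (f i) • b i := by
  rw [map_sum]
  refine Finset.sum_congr rfl fun i _ => ?_
  rw [Algebra.smul_def, algebraMap_apply'', coeff_mul_C, coeff_map, Algebra.smul_def]

/-- the linear map `(f i) ↦ ∑ f i • C (b i)` -/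
noncomputable def linComb : (ι → MvPowerSeries σ S) →ₗ[MvPowerSeries σ S] MvPowerSeries σ B :=
  Fintype.linearCombination (MvPowerSeries σ S) (fun i => (C (b i) : MvPowerSeries σ B))

theorem linComb_apply (f : ι → MvPowerSeries σ S) :
    linComb (σ := σ) b f = ∑ i, f i • (C (b i) : MvPowerSeries σ B) := by
  rw [linComb, Fintype.linearCombination_apply]

theorem coeff_linComb (f : ι → MvPowerSeries σ S) (n : σ →₀ ℕ) :
    coeff n (linComb (σ := σ) b f) = ∑ i, coeff n (f i) • b i := by
  rw [linComb_apply, coeff_sum_smul_C]

theorem linComb_injective : Function.Injective (linComb (σ := σ) b) := by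
  rw [← LinearMap.ker_eq_bot, LinearMap.ker_eq_bot']
  intro f hf
  funext i
  ext n
  have h := congrArg (coeff n) hf
  rw [coeff_linComb, map_zero] at h
  have := Fintype.linearIndependent_iff.mp b.linearIndependent (fun i => coeff n (f i)) h i
  simpa using this

theorem linComb_surjective : Function.Surjective (linComb (σ := σ) b) := by
  intro g
  let f : ι → MvPowerSeries σ S := fun i n => b.repr (coeff n g) i
  have hf : ∀ i n, coeff n (f i) = b.repr (coeff n g) i := fun i n => rfl
  refine ⟨f, ?_⟩
  ext n
  rw [coeff_linComb]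
  simp only [hf]
  exact b.sum_repr (coeff n g)

/-- the equivalence `(ι → S⟦σ⟧) ≃ B⟦σ⟧` -/
noncomputable def linCombEquiv :
    (ι → MvPowerSeries σ S) ≃ₗ[MvPowerSeries σ S] MvPowerSeries σ B :=
  LinearEquiv.ofBijective (linComb (σ := σ) b) ⟨linComb_injective b, linComb_surjective b⟩

/-- **the basis `C (b i)` of `B⟦σ⟧` over `S⟦σ⟧`** -/
noncomputable def basisPS : Module.Basis ι (MvPowerSeries σ S) (MvPowerSeries σ B) :=
  Module.Basis.ofEquivFun (linCombEquiv (σ := σ) b).symm

theorem basisPS_apply [DecidableEq ι] (i : ι) :
    basisPS (σ := σ) b i = (C (b i) : MvPowerSeries σ B) := by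
  rw [basisPS, Module.Basis.coe_ofEquivFun, LinearEquiv.symm_symm]
  show linComb (σ := σ) b _ = _
  rw [linComb_apply]
  simp [Pi.single_apply, ite_smul]

variable (σ S B)

/-- **(F1) finiteness** -/
theorem finite_mvPowerSeries [Module.Finite S B] [Module.Free S B] :
    Module.Finite (MvPowerSeries σ S) (MvPowerSeries σ B) :=
  Module.Finite.of_basis (basisPS (σ := σ) (Module.Free.chooseBasis S B))

/-- **(F1) freeness** -/
theorem free_mvPowerSeries [Module.Finite S B] [Module.Free S B] :
    Module.Free (MvPowerSeries σ S) (MvPowerSeries σ B) :=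
  Module.Free.of_basis (basisPS (σ := σ) (Module.Free.chooseBasis S B))

/-- the structure map `S⟦σ⟧ → B⟦σ⟧` is injective when `S → B` is -/
theorem algebraMap_injective (h : Function.Injective (algebraMap S B)) :
    Function.Injective (algebraMap (MvPowerSeries σ S) (MvPowerSeries σ B)) := by
  intro f g hfg
  ext n
  have := congrArg (coeff n) hfg
  rw [algebraMap_apply'', algebraMap_apply'', coeff_map, coeff_map] at this
  exact h this

end Fermat.Agent.GB.Alg.PSFree
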