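/-
GATE-B / B1-MULTI (RULING R4 5608 §3.2–3.3; ASK (N0)–(N4) of helper54 5763), helper51:
the calculus of the invariant `NN lam B n` of `GB/Local/Multi/NNDef.lean`.

* (F2) `ringKrullDim_quotient_span_C_le` : `dim S⟦k⟧ ⧸ (C l) ≤ dim S ⧸ (l) + k`;
* (N0) `NN.base`            : `NN lam O⟦x₁..x_g⟧ g` for a one-dimensional noetherian domain `O`;
* (N1) `NN.mvPowerSeries`   : `NN lam B n → NN lam B⟦k variables⟧ (n + k)`;
* (N2) `NN.of_free`         : `NN lam B n`, `E` finite free over `B` ⟹ `NN lam E n`;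
* (N3) `NN.ringKrullDim_quotient_minimalPrimes` : `dim E ⧸ 𝔓 = n + 1` for every minimal prime;
* (N4) `NN.ringKrullDim_quotient_span_le`       : `dim B ⧸ (lam) ≤ n`.
-/
import Mathlib
import Fermat.Agent.GB.Local.Multi.NNDef
import Fermat.Agent.GB.Local.Chart
import Fermat.Agent.GB.Alg.PSFree
import Fermat.Agent.GB.Alg.PSDim
import Fermat.Agent.GB.Alg.ChartDim

set_option autoImplicit false

universe u

namespace Fermat.Agent.GB.Alg.NNStep

/-! ### (F2) power series modulo a constant -/

section F2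

variable {S : Type*} [CommRing S]

theorem mvMap_mk_surjective (σ : Type*) (I : Ideal S) :
    Function.Surjective (MvPowerSeries.map (σ := σ) (Ideal.Quotient.mk I)) := by
  intro g
  choose G hG using fun n => Ideal.Quotient.mk_surjective (I := I) (MvPowerSeries.coeff n g)
  let G' : MvPowerSeries σ S := fun n => G n
  refine ⟨G', ?_⟩
  ext n
  rw [MvPowerSeries.coeff_map]
  exact hG n

theorem ker_mvMap_mk (σ : Type*) (l : S) :
    RingHom.ker (MvPowerSeries.map (σ := σ) (Ideal.Quotient.mk (Ideal.span {l}))) =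
      Ideal.span {(MvPowerSeries.C l : MvPowerSeries σ S)} := by
  ext f
  rw [RingHom.mem_ker, Ideal.mem_span_singleton,
    Fermat.Agent.GB.Local.Chart.C_dvd_iff_map_eq_zero]

/-- `S⟦σ⟧ ⧸ (C l) ≃ (S ⧸ l)⟦σ⟧` -/
noncomputable def quotSpanCEquiv (σ : Type*) (l : S) :
    (MvPowerSeries σ S ⧸ Ideal.span {(MvPowerSeries.C l : MvPowerSeries σ S)}) ≃+*
      MvPowerSeries σ (S ⧸ Ideal.span {l}) :=
  (Ideal.quotEquivOfEq (ker_mvMap_mk σ l).symm).trans
    (RingHom.quotientKerEquivOfSurjective (mvMap_mk_surjective σ (Ideal.span {l})))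

/-- **(F2)** `dim S⟦x₁..x_k⟧ ⧸ (C l) = dim S ⧸ (l) + k` -/
theorem ringKrullDim_quotient_span_C [IsNoetherianRing S] (k : ℕ) (l : S) :
    ringKrullDim (MvPowerSeries (Fin k) S ⧸
        Ideal.span {(MvPowerSeries.C l : MvPowerSeries (Fin k) S)}) =
      ringKrullDim (S ⧸ Ideal.span {l}) + k := by
  rw [ringKrullDim_eq_of_ringEquiv (quotSpanCEquiv (Fin k) l)]
  exact PSDim.ringKrullDim_mvPowerSeries_fin (S ⧸ Ideal.span {l}) k

end F2

end Fermat.Agent.GB.Alg.NNStep

/-! ### The calculus of `NN` (declared in the namespace of `NN`, so that dot notation works) -/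

namespace Fermat.Agent.GB.Local.Multi

open Fermat.Agent.GB.Alg Fermat.Agent.GB.Alg.NNStep

section Calc

variable {O : Type u} [CommRing O] {lam : O}

/-- **(N0)** the base of the tower -/
theorem NN.base [IsDomain O] [IsNoetherianRing O] (hO : ringKrullDim O = 1)
    (hlam : ringKrullDim (O ⧸ Ideal.span {lam}) ≤ 0) (g : ℕ) :
    NN lam (MvPowerSeries (Fin g) O) g := by
  have hdom : IsDomain (MvPowerSeries (Fin g) O) := NoZeroDivisors.to_isDomain _
  refine ⟨MvPowerSeries (Fin g) O, inferInstance, hdom, inferInstance, inferInstance,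
    Algebra.id _, ?_, inferInstance, inferInstance, ?_, ?_⟩
  · exact IsScalarTower.right
  · rw [PSDim.ringKrullDim_mvPowerSeries_fin, hO, add_comm]
  · have h1 : algebraMap O (MvPowerSeries (Fin g) O) lam = MvPowerSeries.C lam := by
      rw [MvPowerSeries.algebraMap_apply]; rfl
    rw [h1, ringKrullDim_quotient_span_C]
    calc ringKrullDim (O ⧸ Ideal.span {lam}) + (g : WithBot ℕ∞) ≤ 0 + (g : WithBot ℕ∞) :=
          add_le_add hlam le_rfl
      _ = g := zero_add _

variable {B : Type u} [CommRing B] [Algebra O B]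

/-- **(N1)** the power series step -/
theorem NN.mvPowerSeries {n : ℕ} (h : NN lam B n) (k : ℕ) :
    NN lam (MvPowerSeries (Fin k) B) (n + k) := by
  obtain ⟨S, iS, iD, iN, iOS, iSB, iT, iFree, iFin, hdim, hlam⟩ := h
  have hdom : IsDomain (MvPowerSeries (Fin k) S) := NoZeroDivisors.to_isDomain _
  have htower : IsScalarTower O (MvPowerSeries (Fin k) S) (MvPowerSeries (Fin k) B) := by
    refine IsScalarTower.of_algebraMap_eq fun o => ?_
    rw [MvPowerSeries.algebraMap_apply'', MvPowerSeries.algebraMap_apply,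
      MvPowerSeries.algebraMap_apply, MvPowerSeries.map_C, ← IsScalarTower.algebraMap_apply]
  refine ⟨MvPowerSeries (Fin k) S, inferInstance, hdom, inferInstance, inferInstance,
    inferInstance, htower, PSFree.free_mvPowerSeries (Fin k) S B,
    PSFree.finite_mvPowerSeries (Fin k) S B, ?_, ?_⟩
  · rw [PSDim.ringKrullDim_mvPowerSeries_fin, hdim]
    push_cast
    abel
  · have h1 : algebraMap O (MvPowerSeries (Fin k) S) lam =
        MvPowerSeries.C (algebraMap O S lam) := by
      rw [MvPowerSeries.algebraMap_apply]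
    rw [h1, ringKrullDim_quotient_span_C]
    push_cast
    exact add_le_add hlam le_rfl

/-- **(N2)** a finite free extension keeps the invariant -/
theorem NN.of_free {n : ℕ} (h : NN lam B n) (E : Type u) [CommRing E] [Algebra B E] [Algebra O E]
    [IsScalarTower O B E] [Module.Free B E] [Module.Finite B E] : NN lam E n := by
  obtain ⟨S, iS, iD, iN, iOS, iSB, iT, iFree, iFin, hdim, hlam⟩ := h
  let iSE : Algebra S E := ((algebraMap B E).comp (algebraMap S B)).toAlgebra
  have hSBE : IsScalarTower S B E := IsScalarTower.of_algebraMap_eq fun _ => rfl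
  have hOSE : IsScalarTower O S E := by
    refine IsScalarTower.of_algebraMap_eq fun o => ?_
    rw [IsScalarTower.algebraMap_apply O B E, IsScalarTower.algebraMap_apply O S B]
    rfl
  exact ⟨S, iS, iD, iN, iOS, iSE, hOSE, Module.Free.trans (R := S) (S := B) (M := E),
    Module.Finite.trans B E, hdim, hlam⟩

variable {E : Type u} [CommRing E] [Algebra O E]

/-- **(N3)** equidimensionality -/
theorem NN.ringKrullDim_quotient_minimalPrimes {n : ℕ} (h : NN lam E n) {𝔓 : Ideal E}
    (h𝔓 : 𝔓 ∈ minimalPrimes E) : ringKrullDim (E ⧸ 𝔓) = (n : WithBot ℕ∞) + 1 := by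
  obtain ⟨S, iS, iD, iN, iOS, iSE, iT, iFree, iFin, hdim, hlam⟩ := h
  rw [ChartDim.ringKrullDim_quotient_minimalPrimes_of_free (S := S) h𝔓, hdim]

/-- **(N4)** the special fibre has dimension `≤ n` -/
theorem NN.ringKrullDim_quotient_span_le {n : ℕ} (h : NN lam E n) :
    ringKrullDim (E ⧸ Ideal.span {algebraMap O E lam}) ≤ (n : WithBot ℕ∞) := by
  obtain ⟨S, iS, iD, iN, iOS, iSE, iT, iFree, iFin, hdim, hlam⟩ := h
  have := ChartDim.ringKrullDim_quotient_span_le (S := S) (E := E) (algebraMap O S lam)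
  rw [← IsScalarTower.algebraMap_apply O S E] at this
  exact this.trans hlam

end Calc

end Fermat.Agent.GB.Local.Multi
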