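/-
CELL-B / S59-ENGINE, node B0 (helper66): Krull dimension of power series rings over a noetherian
ring, in the inequality form consumed by FIN (`GB/Alg/Fin.lean`):

* `ringKrullDim_powerSeries_le`   : `dim A⟦X⟧ ≤ dim A + 1`;
* `ringKrullDim_powerSeries_eq`   : `dim A⟦X⟧ = dim A + 1`;
* `ringKrullDim_mvPowerSeries_fin_le` : `dim A⟦x₁,…,x_g⟧ ≤ dim A + g`;
* `ringKrullDim_mvPowerSeries_fin_eq` : equality.

Mathlib-only (Krull's height theorem `ringKrullDim_le_ringKrullDim_quotient_add_card`,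
`MvPowerSeries.finSuccEquiv`).
-/
import Mathlib.RingTheory.Ideal.KrullsHeightTheorem
import Mathlib.RingTheory.KrullDimension.NonZeroDivisors
import Mathlib.RingTheory.PowerSeries.Ideal
import Mathlib.RingTheory.MvPowerSeries.Equiv

set_option autoImplicit false

open PowerSeries

namespace Fermat.Agent.GB.Alg

variable {A : Type*} [CommRing A] [IsNoetherianRing A]

omit [IsNoetherianRing A] in
/-- `X` lies in the Jacobson radical of `A⟦X⟧`. -/
theorem powerSeries_X_mem_jacobson : (X : A⟦X⟧) ∈ Ring.jacobson A⟦X⟧ := by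
  rw [Ring.jacobson_eq_sInf_isMaximal, Ideal.mem_sInf]
  intro m hm
  have hm' : m.IsMaximal := hm
  by_contra hX
  obtain ⟨f, a, ha, hfa⟩ := (hm'.exists_inv hX)
  -- `a = 1 - f * X` is a unit lying in `m`
  have hu : IsUnit a := by
    have : a = 1 - f * X := by rw [← hfa]; ring
    rw [this, PowerSeries.isUnit_iff_constantCoeff]
    simp
  exact hm'.ne_top (Ideal.eq_top_of_isUnit_mem _ ha hu)

/-- `dim A⟦X⟧ ≤ dim A + 1` for noetherian `A`. -/
theorem ringKrullDim_powerSeries_le : ringKrullDim A⟦X⟧ ≤ ringKrullDim A + 1 := by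
  have h := ringKrullDim_le_ringKrullDim_quotient_add_card ({X} : Finset A⟦X⟧)
    (by simpa using powerSeries_X_mem_jacobson (A := A))
  have hsurj : Function.Surjective
      ((Ideal.Quotient.mk (Ideal.span (({X} : Finset A⟦X⟧) : Set A⟦X⟧))).comp
        (PowerSeries.C (R := A))) := by
    intro z
    obtain ⟨f, rfl⟩ := Ideal.Quotient.mk_surjective z
    refine ⟨constantCoeff f, ?_⟩
    rw [RingHom.comp_apply, Ideal.Quotient.eq]
    have hdvd : (X : A⟦X⟧) ∣ C (constantCoeff f) - f := by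
      rw [PowerSeries.X_dvd_iff]; simp
    obtain ⟨g, hg⟩ := hdvd
    rw [hg]
    exact Ideal.mul_mem_right _ _ (Ideal.subset_span (by simp))
  have h2 := ringKrullDim_le_of_surjective _ hsurj
  calc ringKrullDim A⟦X⟧ ≤ _ := h
    _ ≤ ringKrullDim A + 1 := by
        have : ((({X} : Finset A⟦X⟧).card : ℕ) : WithBot ℕ∞) = 1 := by simp
        rw [this]
        exact add_le_add h2 le_rfl

/-- `dim A⟦X⟧ = dim A + 1` for noetherian `A`. -/
theorem ringKrullDim_powerSeries_eq : ringKrullDim A⟦X⟧ = ringKrullDim A + 1 :=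
  le_antisymm ringKrullDim_powerSeries_le ringKrullDim_succ_le_ringKrullDim_powerseries

/-- `dim A⟦x₁,…,x_g⟧ = dim A + g` for noetherian `A`. -/
theorem ringKrullDim_mvPowerSeries_fin_eq (g : ℕ) :
    ringKrullDim (MvPowerSeries (Fin g) A) = ringKrullDim A + (g : WithBot ℕ∞) := by
  induction g with
  | zero =>
    rw [ringKrullDim_eq_of_ringEquiv (MvPowerSeries.isEmptyEquiv (σ := Fin 0) (R := A)).toRingEquiv]
    simp
  | succ n ih =>
    rw [ringKrullDim_eq_of_ringEquiv (MvPowerSeries.finSuccEquiv A n).toRingEquiv,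
      ringKrullDim_powerSeries_eq, ih]
    push_cast
    rw [add_assoc]

/-- `dim A⟦x₁,…,x_g⟧ ≤ dim A + g` (the form consumed by FIN). -/
theorem ringKrullDim_mvPowerSeries_fin_le (g : ℕ) :
    ringKrullDim (MvPowerSeries (Fin g) A) ≤ ringKrullDim A + (g : WithBot ℕ∞) :=
  (ringKrullDim_mvPowerSeries_fin_eq g).le

end Fermat.Agent.GB.Alg
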