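/-
GATE-B (S38/S43), node B0 ALG, leaf PS-DIM part 2 (helper5): **minimal primes of a power series
ring over a noetherian ring.**  For an ideal `I` of `B`, `coeffIdeal σ I = I⟦x⟧` is the ideal of
the power series with all coefficients in `I` (the kernel of `B⟦x⟧ → (B/I)⟦x⟧`).  It is prime when
`I` is, `I⟦x⟧ * J⟦x⟧ ≤ (I * J)⟦x⟧`, and for noetherian `B`

* every prime of `B⟦x⟧` contains `P⟦x⟧` for a minimal prime `P` of `B`
  (`exists_minimalPrimes_coeffIdeal_le`),
* `minimalPrimes B⟦x⟧ = {P⟦x⟧ | P ∈ minimalPrimes B}` (`minimalPrimes_mvPowerSeries`),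
* the FIN hypothesis `t ∉ rad(𝔓 + (λ))` for the minimal primes `𝔓` of `B⟦x⟧` reduces to `B`
  (`not_mem_radical_of_minimalPrimes`).
Mathlib only.
-/
import Mathlib

set_option autoImplicit false

namespace Fermat.Agent.GB.Alg.PSDim

open MvPowerSeries

section Coeff

variable (σ : Type*) {B : Type*} [CommRing B]

/-- `I⟦x⟧`: the power series all of whose coefficients lie in `I`. -/
noncomputable def coeffIdeal (I : Ideal B) : Ideal (MvPowerSeries σ B) :=
  RingHom.ker (MvPowerSeries.map (σ := σ) (Ideal.Quotient.mk I))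

variable {σ}

theorem mem_coeffIdeal {I : Ideal B} {f : MvPowerSeries σ B} :
    f ∈ coeffIdeal σ I ↔ ∀ d, coeff d f ∈ I := by
  rw [coeffIdeal, RingHom.mem_ker]
  constructor
  · intro h d
    have := congrArg (coeff d) h
    rw [coeff_map, map_zero] at this
    exact Ideal.Quotient.eq_zero_iff_mem.mp this
  · intro h
    ext d
    rw [coeff_map, map_zero]
    exact Ideal.Quotient.eq_zero_iff_mem.mpr (h d)

theorem coeffIdeal_mono {I J : Ideal B} (h : I ≤ J) : coeffIdeal σ I ≤ coeffIdeal σ J := by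
  intro f hf
  rw [mem_coeffIdeal] at hf ⊢
  exact fun d => h (hf d)

@[simp]
theorem coeffIdeal_bot : coeffIdeal σ (⊥ : Ideal B) = ⊥ := by
  rw [eq_bot_iff]
  intro f hf
  rw [mem_coeffIdeal] at hf
  rw [Ideal.mem_bot]
  ext d
  rw [map_zero]
  exact (Ideal.mem_bot).mp (hf d)

theorem C_mem_coeffIdeal {I : Ideal B} {b : B} : C (σ := σ) b ∈ coeffIdeal σ I ↔ b ∈ I := by
  classical
  rw [mem_coeffIdeal]
  constructor
  · intro h
    have := h 0
    rwa [coeff_zero_C] at this
  · intro h d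
    rw [coeff_C]
    split_ifs
    · exact h
    · exact I.zero_mem

theorem constantCoeff_mem_of_mem_coeffIdeal {I : Ideal B} {f : MvPowerSeries σ B}
    (hf : f ∈ coeffIdeal σ I) : constantCoeff f ∈ I := by
  rw [← coeff_zero_eq_constantCoeff_apply]
  exact mem_coeffIdeal.mp hf 0

theorem coeffIdeal_le_iff {I J : Ideal B} : coeffIdeal σ I ≤ coeffIdeal σ J ↔ I ≤ J :=
  ⟨fun h _ hb => C_mem_coeffIdeal.mp (h (C_mem_coeffIdeal.mpr hb)), coeffIdeal_mono⟩

theorem coeffIdeal_injective : Function.Injective (coeffIdeal σ : Ideal B → _) := by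
  intro I J h
  exact le_antisymm (coeffIdeal_le_iff.mp h.le) (coeffIdeal_le_iff.mp h.ge)

theorem coeffIdeal_ne_top {I : Ideal B} (hI : I ≠ ⊤) : coeffIdeal σ I ≠ ⊤ := by
  intro h
  apply hI
  rw [Ideal.eq_top_iff_one]
  have h1 : (1 : MvPowerSeries σ B) ∈ coeffIdeal σ I := by rw [h]; exact Submodule.mem_top
  have : (1 : MvPowerSeries σ B) = C 1 := (map_one C).symm
  rw [this] at h1
  exact C_mem_coeffIdeal.mp h1

/-- `P⟦x⟧` is prime if `P` is: `(B/P)⟦x⟧` is a domain. -/
theorem coeffIdeal_isPrime (P : Ideal B) [P.IsPrime] : (coeffIdeal σ P).IsPrime := by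
  have h1 : IsDomain (B ⧸ P) := Ideal.Quotient.isDomain P
  have h2 : IsDomain (MvPowerSeries σ (B ⧸ P)) := NoZeroDivisors.to_isDomain _
  exact RingHom.ker_isPrime _

theorem coeffIdeal_mul_le (I J : Ideal B) :
    coeffIdeal σ I * coeffIdeal σ J ≤ coeffIdeal σ (I * J) := by
  classical
  rw [Ideal.mul_le]
  intro f hf g hg
  rw [mem_coeffIdeal] at hf hg ⊢
  intro d
  rw [coeff_mul]
  exact Ideal.sum_mem _ fun p _ => Ideal.mul_mem_mul (hf p.1) (hg p.2)

theorem coeffIdeal_pow_le (I : Ideal B) (n : ℕ) :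
    coeffIdeal σ I ^ n ≤ coeffIdeal σ (I ^ n) := by
  induction n with
  | zero =>
    rw [pow_zero, pow_zero]
    intro f _
    rw [mem_coeffIdeal]
    intro d
    rw [Ideal.one_eq_top]
    exact Submodule.mem_top
  | succ n ih =>
    rw [pow_succ, pow_succ]
    exact (Ideal.mul_mono_left ih).trans (coeffIdeal_mul_le _ _)

theorem coeffIdeal_finsetProd_le {ι : Type*} (s : Finset ι) (P : ι → Ideal B) :
    ∏ i ∈ s, coeffIdeal σ (P i) ≤ coeffIdeal σ (∏ i ∈ s, P i) := by
  classical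
  induction s using Finset.induction_on with
  | empty =>
    rw [Finset.prod_empty, Finset.prod_empty]
    intro f _
    rw [mem_coeffIdeal]
    intro d
    rw [Ideal.one_eq_top]
    exact Submodule.mem_top
  | insert a s ha ih =>
    rw [Finset.prod_insert ha, Finset.prod_insert ha]
    exact (Ideal.mul_mono_right ih).trans (coeffIdeal_mul_le _ _)

end Coeff

section MinPrimes

variable {σ : Type*} {B : Type*} [CommRing B] [IsNoetherianRing B]

/-- over a noetherian ring, every prime of `B⟦x⟧` contains `P⟦x⟧` for some minimal prime `P`. -/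
theorem exists_minimalPrimes_coeffIdeal_le (Q : Ideal (MvPowerSeries σ B)) [hQ : Q.IsPrime] :
    ∃ P ∈ minimalPrimes B, coeffIdeal σ P ≤ Q := by
  classical
  have hfin : (minimalPrimes B).Finite := minimalPrimes.finite_of_isNoetherianRing B
  obtain ⟨n, hn⟩ := IsNoetherianRing.isNilpotent_nilradical B
  -- the product of the minimal primes is nilpotent
  have h1 : ∏ P ∈ hfin.toFinset, P ≤ nilradical B := by
    have h2 : nilradical B = sInf (minimalPrimes B) := by
      rw [nilradical, minimalPrimes, Ideal.sInf_minimalPrimes, Ideal.zero_eq_bot]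
    rw [h2]
    refine le_sInf fun P hP => ?_
    exact Ideal.prod_le_inf.trans (Finset.inf_le (hfin.mem_toFinset.mpr hP))
  have h3 : (∏ P ∈ hfin.toFinset, coeffIdeal σ P) ^ n ≤ Q := by
    calc (∏ P ∈ hfin.toFinset, coeffIdeal σ P) ^ n
        ≤ (coeffIdeal σ (∏ P ∈ hfin.toFinset, P)) ^ n :=
          Ideal.pow_right_mono (coeffIdeal_finsetProd_le _ _) n
      _ ≤ coeffIdeal σ ((∏ P ∈ hfin.toFinset, P) ^ n) := coeffIdeal_pow_le _ _
      _ ≤ coeffIdeal σ (nilradical B ^ n) := coeffIdeal_mono (Ideal.pow_right_mono h1 n)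
      _ = ⊥ := by rw [hn, Ideal.zero_eq_bot, coeffIdeal_bot]
      _ ≤ Q := bot_le
  have h4 : ∏ P ∈ hfin.toFinset, coeffIdeal σ P ≤ Q := hQ.le_of_pow_le h3
  obtain ⟨P, hP, hPQ⟩ := (Ideal.IsPrime.prod_le hQ).mp h4
  exact ⟨P, hfin.mem_toFinset.mp hP, hPQ⟩

/-- **the minimal primes of `B⟦x⟧` are the `P⟦x⟧`, `P` a minimal prime of `B`.** -/
theorem minimalPrimes_mvPowerSeries :
    minimalPrimes (MvPowerSeries σ B) = coeffIdeal σ '' minimalPrimes B := by
  ext Q
  constructor
  · intro hQ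
    have hQp : Q.IsPrime := hQ.1.1
    obtain ⟨P, hP, hPQ⟩ := exists_minimalPrimes_coeffIdeal_le Q
    have hPp : P.IsPrime := hP.1.1
    have : (coeffIdeal σ P).IsPrime := coeffIdeal_isPrime P
    refine ⟨P, hP, le_antisymm hPQ ?_⟩
    exact hQ.2 ⟨this, bot_le⟩ hPQ
  · rintro ⟨P, hP, rfl⟩
    have hPp : P.IsPrime := hP.1.1
    have hprime : (coeffIdeal σ P).IsPrime := coeffIdeal_isPrime P
    refine ⟨⟨hprime, bot_le⟩, ?_⟩
    rintro Q ⟨hQp, -⟩ hQP
    obtain ⟨P', hP', hP'Q⟩ := exists_minimalPrimes_coeffIdeal_le Q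
    have h1 : P' ≤ P := coeffIdeal_le_iff.mp (hP'Q.trans hQP)
    have h2 : P ≤ P' := hP.2 ⟨hP'.1.1, bot_le⟩ h1
    have h3 : P = P' := le_antisymm h2 h1
    rw [h3]
    exact hP'Q

end MinPrimes

section Radical

variable {σ : Type*} {B : Type*} [CommRing B]

/-- the constant-coefficient retraction: a constant in the radical of `P⟦x⟧ + J·B⟦x⟧` already lies
in the radical of `P + J`. -/
theorem mem_radical_of_C_mem_radical {P J : Ideal B} {t : B}
    (h : C (σ := σ) t ∈ (coeffIdeal σ P ⊔ Ideal.map (C (σ := σ)) J).radical) :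
    t ∈ (P ⊔ J).radical := by
  obtain ⟨n, hn⟩ := h
  refine ⟨n, ?_⟩
  have hle : coeffIdeal σ P ⊔ Ideal.map (C (σ := σ)) J
      ≤ Ideal.comap (constantCoeff (σ := σ) (R := B)) (P ⊔ J) := by
    refine sup_le ?_ ?_
    · intro f hf
      rw [Ideal.mem_comap]
      exact Ideal.mem_sup_left (constantCoeff_mem_of_mem_coeffIdeal hf)
    · rw [Ideal.map_le_iff_le_comap]
      intro b hb
      rw [Ideal.mem_comap, Ideal.mem_comap, constantCoeff_C]
      exact Ideal.mem_sup_right hb
  have := hle hn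
  rwa [Ideal.mem_comap, map_pow, constantCoeff_C] at this

/-- **FIN hypothesis transfer.**  If `t ∉ rad(P + (λ))` for every minimal prime `P` of the
noetherian ring `B`, then `C t ∉ rad(𝔓 + (C λ))` for every minimal prime `𝔓` of `B⟦x⟧`. -/
theorem not_mem_radical_of_minimalPrimes [IsNoetherianRing B] {t l : B}
    (h : ∀ P ∈ minimalPrimes B, t ∉ (P ⊔ Ideal.span {l}).radical) :
    ∀ Q ∈ minimalPrimes (MvPowerSeries σ B),
      C (σ := σ) t ∉ (Q ⊔ Ideal.span {C (σ := σ) l}).radical := by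
  intro Q hQ
  rw [minimalPrimes_mvPowerSeries] at hQ
  obtain ⟨P, hP, rfl⟩ := hQ
  intro hcon
  apply h P hP
  apply mem_radical_of_C_mem_radical (σ := σ)
  rwa [Ideal.map_span, Set.image_singleton]

end Radical

end Fermat.Agent.GB.Alg.PSDim
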