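/-
GATE-B (helper66): **pointwise ⟹ identity** for reduced Hecke algebras.  Mathlib-only.

`O` a domain (the coefficient DVR), `T` a REDUCED commutative `O`-algebra, INTEGRAL and TORSION-FREE
over `O` (a Hecke algebra `T_Q`: finite flat + Petersson), `Ω` an algebraically closed field
containing `O` (`K̄`).

* `exists_algHom_ne_zero` : every `t ≠ 0` is non-zero at some point `θ : T →ₐ[O] Ω`.
* `eq_zero_of_forall_algHom`, `eq_of_forall_algHom` : identities in `T` can be checked pointwise
  (e.g. strictness `x = ε z` of B10', the relations `ξ'(σ)^{p^n} = 1`).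
* `smul_eq_zero_of_sq_smul_eq_zero` : the image of `T` in `End M` is reduced when `M` is
  `O`-torsion-free (`T` need not act faithfully).
* `smul_eq_zero_of_forall_algHom` / `act_eq_zero_of_forall_algHom` : **module form** — `t` kills the
  torsion-free module `M` as soon as `θ t = 0` for all points `θ` that factor through the action on
  `M` (the eigensystems OCCURRING in `M`).  This is how `(1)_i` and `(W)_i` of `UnitLevel.lean` are
  reduced to statements about single eigenforms: apply it to `M/(D_i - 1)M` resp. `M/unitSub i`.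
-/
import Mathlib

set_option autoImplicit false

namespace Fermat.Agent.GB.Alg.Points

open Module

section Exists

variable {O : Type*} [CommRing O] [IsDomain O] {T : Type*} [CommRing T] [Algebra O T]
  [IsReduced T] [Algebra.IsIntegral O T] [IsTorsionFree O T]
  (Ω : Type*) [Field Ω] [IsAlgClosed Ω] [Algebra O Ω] [IsTorsionFree O Ω]

/-- **Points separate elements.**  `T` a reduced, integral, torsion-free algebra over a domain `O`,
`Ω` an algebraically closed field containing `O`.  Every `t ≠ 0` of `T` is non-zero at some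
`O`-algebra point `θ : T → Ω`. -/
theorem exists_algHom_ne_zero {t : T} (ht : t ≠ 0) : ∃ θ : T →ₐ[O] Ω, θ t ≠ 0 := by
  classical
  -- a minimal prime avoiding `t`
  obtain ⟨P, hP, htP⟩ : ∃ P ∈ minimalPrimes T, t ∉ P := by
    by_contra hcon
    have hcon' : ∀ P ∈ minimalPrimes T, t ∈ P := fun P hP => by
      by_contra h; exact hcon ⟨P, hP, h⟩
    have h1 : t ∈ sInf (minimalPrimes T) := by
      rw [Ideal.mem_sInf]; exact fun {P} hP => hcon' P hP
    have h2 : sInf (minimalPrimes T) = (⊥ : Ideal T).radical := Ideal.sInf_minimalPrimes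
    have h3 : (⊥ : Ideal T).radical = ⊥ := by
      have := nilradical_eq_zero T
      rwa [nilradical, Ideal.zero_eq_bot] at this
    rw [h2, h3, Ideal.mem_bot] at h1
    exact ht h1
  have hPprime : P.IsPrime := hP.1.1
  -- `P ∩ O = 0`
  have hdisj := Ideal.disjoint_nonZeroDivisors_of_mem_minimalPrimes hP
  have hcomap : ∀ a : O, algebraMap O T a ∈ P → a = 0 := by
    intro a ha
    by_contra ha0
    have hreg : algebraMap O T a ∈ nonZeroDivisors T := by
      rw [mem_nonZeroDivisors_iff_right]
      intro x hx
      have : a • x = 0 := by rw [Algebra.smul_def, mul_comm]; exact hx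
      exact (smul_eq_zero.mp this).resolve_left ha0
    exact Set.disjoint_left.mp hdisj ha hreg
  -- the domain `B = T ⧸ P`
  let B := T ⧸ P
  have hBinj : Function.Injective (algebraMap O B) := by
    rw [injective_iff_map_eq_zero]
    intro a ha
    have : algebraMap O T a ∈ P := by
      rw [← Ideal.Quotient.eq_zero_iff_mem]; exact ha
    exact hcomap a this
  have : IsTorsionFree O B := by
    rw [Module.isTorsionFree_iff_smul_eq_zero]
    intro a b hab
    by_cases ha : a = 0
    · exact Or.inl ha
    · right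
      rw [Algebra.smul_def] at hab
      rcases mul_eq_zero.mp hab with h | h
      · exact absurd (hBinj (h.trans (map_zero _).symm)) ha
      · exact h
  have : Algebra.IsAlgebraic O B := Algebra.IsIntegral.isAlgebraic
  let ψ : B →ₐ[O] Ω := IsAlgClosed.lift
  -- `ψ` is injective
  have hψ : Function.Injective ψ := by
    rw [injective_iff_map_eq_zero]
    intro b hb
    have hker : RingHom.ker (ψ : B →+* Ω) = ⊥ := by
      refine Ideal.eq_bot_of_comap_eq_bot (R := O) ?_
      rw [eq_bot_iff]
      intro a ha
      rw [Ideal.mem_comap, RingHom.mem_ker] at ha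
      have h1 : algebraMap O Ω a = 0 := by
        have := ψ.commutes a
        rw [← this]; exact ha
      have hΩinj : Function.Injective (algebraMap O Ω) := FaithfulSMul.algebraMap_injective O Ω
      exact hΩinj (h1.trans (map_zero _).symm)
    have : b ∈ RingHom.ker (ψ : B →+* Ω) := hb
    rw [hker] at this
    exact this
  refine ⟨ψ.comp (Ideal.Quotient.mkₐ O P), ?_⟩
  rw [AlgHom.comp_apply]
  intro h0
  have := hψ (h0.trans (map_zero ψ).symm)
  exact htP (Ideal.Quotient.eq_zero_iff_mem.mp this)

/-- **pointwise ⟹ identity.** -/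
theorem eq_zero_of_forall_algHom {t : T} (h : ∀ θ : T →ₐ[O] Ω, θ t = 0) : t = 0 := by
  by_contra ht
  obtain ⟨θ, hθ⟩ := exists_algHom_ne_zero (O := O) Ω ht
  exact hθ (h θ)

theorem eq_of_forall_algHom {s t : T} (h : ∀ θ : T →ₐ[O] Ω, θ s = θ t) : s = t := by
  rw [← sub_eq_zero]
  refine eq_zero_of_forall_algHom (O := O) Ω fun θ => ?_
  rw [map_sub, h θ, sub_self]

end Exists

end Fermat.Agent.GB.Alg.Points

namespace Fermat.Agent.GB.Alg.Points

open Module

section ModuleForm

variable (O : Type*) [CommRing O] [IsDomain O] {T : Type*} [CommRing T] [Algebra O T]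
  [IsReduced T] [Algebra.IsIntegral O T]
  {M : Type*} [AddCommGroup M] [Module O M] [Module T M] [IsScalarTower O T M]
  [IsTorsionFree O M]

include O in
/-- For a reduced integral `O`-algebra `T` acting on an `O`-torsion-free module `M`:
`s² M = 0 ⟹ s M = 0` (the image of `T` in `End M` is reduced). -/
theorem smul_eq_zero_of_sq_smul_eq_zero (s : T) (h : ∀ m : M, (s * s) • m = 0) (m : M) :
    s • m = 0 := by
  classical
  let annS : Ideal T := LinearMap.ker (LinearMap.mulRight T s)
  have hann : ∀ r : T, r ∈ annS ↔ r * s = 0 := fun r => by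
    simp [annS, LinearMap.mem_ker]
  let A : Ideal T := annS ⊔ Ideal.span {s}
  let S : Submonoid T := (nonZeroDivisors O).map (algebraMap O T)
  -- key: some non-zero constant lies in `A`
  have hkey : ¬ Disjoint (A : Set T) S := by
    intro hdisj
    obtain ⟨q, hqprime, hAq, hqS⟩ := Ideal.exists_le_prime_disjoint A S hdisj
    have hcomap : q.comap (algebraMap O T) = ⊥ := by
      rw [eq_bot_iff]
      intro a ha
      by_contra ha0
      have ha0' : a ≠ 0 := fun h0 => ha0 (by rw [h0]; exact Ideal.zero_mem _)
      have h1 : algebraMap O T a ∈ S := ⟨a, mem_nonZeroDivisors_of_ne_zero ha0', rfl⟩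
      exact Set.disjoint_left.mp hqS ha h1
    -- `q` is a minimal prime
    obtain ⟨q', hq'min, hq'le⟩ := Ideal.exists_minimalPrimes_le (I := (⊥ : Ideal T)) (J := q) bot_le
    have hq'prime : q'.IsPrime := hq'min.1.1
    have hqq' : q' = q := by
      by_contra hne
      have hlt : q' < q := lt_of_le_of_ne hq'le hne
      obtain ⟨x, hxq, hxq'⟩ := SetLike.exists_of_lt hlt
      have := Ideal.comap_lt_comap_of_integral_mem_sdiff (R := O) hq'le ⟨hxq, hxq'⟩
        (Algebra.IsIntegral.isIntegral x)
      rw [hcomap] at this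
      exact not_lt_bot this
    have hqmin : q ∈ (⊥ : Ideal T).minimalPrimes := hqq' ▸ hq'min
    have hannq : annS ≤ q := le_trans le_sup_left hAq
    have hsq : s ∈ q := hAq (Ideal.mem_sup_right (Ideal.mem_span_singleton_self s))
    have hqmin' : q ∈ annS.minimalPrimes := by
      refine ⟨⟨hqprime, hannq⟩, fun P hP hPq => ?_⟩
      exact hqmin.2 ⟨hP.1, bot_le⟩ hPq
    obtain ⟨y, hy, hsy⟩ := Ideal.exists_mul_mem_of_mem_minimalPrimes hqmin' hsq
    rw [hann] at hy hsy
    -- `(y s)² = 0`
    have hnil : (y * s) * (y * s) = 0 := by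
      have : (y * s) * (y * s) = y * (s * y * s) := by ring
      rw [this, hsy, mul_zero]
    have : y * s = 0 := by
      have hn : IsNilpotent (y * s) := ⟨2, by rw [pow_two]; exact hnil⟩
      exact hn.eq_zero
    exact hy this
  rw [Set.not_disjoint_iff] at hkey
  obtain ⟨c, hcA, hcS⟩ := hkey
  obtain ⟨a, ha, rfl⟩ := Submonoid.mem_map.mp (SetLike.mem_coe.mp hcS)
  have ha0 : a ≠ 0 := nonZeroDivisors.ne_zero ha
  obtain ⟨r, hr, c', hc', hsum⟩ := Submodule.mem_sup.mp hcA
  obtain ⟨b, rfl⟩ := Ideal.mem_span_singleton'.mp hc'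
  rw [hann] at hr
  have h2 : a • (s • m) = 0 := by
    rw [← algebraMap_smul T a (s • m), ← hsum, add_smul, smul_smul, hr, zero_smul, zero_add,
      smul_smul, mul_assoc, mul_smul, h, smul_zero]
  exact (smul_eq_zero.mp h2).resolve_left ha0

include O in
/-- **pointwise ⟹ identity, module form.**  `T` reduced and integral over the domain `O`, acting
on the `O`-torsion-free module `M`.  If `θ t = 0` for every point `θ : T → Ω` that factors through
the action on `M` (i.e. kills `Ann_T M`), then `t` kills `M`. -/
theorem smul_eq_zero_of_forall_algHom (Ω : Type*) [Field Ω] [IsAlgClosed Ω] [Algebra O Ω]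
    [IsTorsionFree O Ω] (t : T)
    (h : ∀ θ : T →ₐ[O] Ω, (∀ r : T, (∀ m : M, r • m = 0) → θ r = 0) → θ t = 0) (m : M) :
    t • m = 0 := by
  classical
  set I : Ideal T := Module.annihilator T M with hI
  have hmemI : ∀ r : T, r ∈ I ↔ ∀ m : M, r • m = 0 := fun r => Module.mem_annihilator
  have hred : IsReduced (T ⧸ I) := by
    rw [isReduced_iff_pow_one_lt 2 (by norm_num)]
    intro x hx
    obtain ⟨s, rfl⟩ := Ideal.Quotient.mk_surjective x
    rw [← map_pow, Ideal.Quotient.eq_zero_iff_mem, pow_two, hmemI] at hx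
    rw [Ideal.Quotient.eq_zero_iff_mem, hmemI]
    exact smul_eq_zero_of_sq_smul_eq_zero O s hx
  have hint : Algebra.IsIntegral O (T ⧸ I) :=
    Algebra.IsIntegral.of_surjective (Ideal.Quotient.mkₐ O I) (Ideal.Quotient.mkₐ_surjective O I)
  have htf : IsTorsionFree O (T ⧸ I) := by
    rw [Module.isTorsionFree_iff_smul_eq_zero]
    intro a x hax
    by_cases ha : a = 0
    · exact Or.inl ha
    · right
      obtain ⟨s, rfl⟩ := Ideal.Quotient.mk_surjective x
      have h1 : a • s ∈ I := by
        rw [← Ideal.Quotient.eq_zero_iff_mem]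
        have : Ideal.Quotient.mk I (a • s) = a • Ideal.Quotient.mk I s := by
          rw [Algebra.smul_def, Algebra.smul_def, map_mul]; rfl
        rw [this]; exact hax
      rw [Ideal.Quotient.eq_zero_iff_mem, hmemI]
      intro m
      have h2 := (hmemI _).mp h1 m
      rw [smul_assoc] at h2
      exact (smul_eq_zero.mp h2).resolve_left ha
  have h0 : Ideal.Quotient.mk I t = 0 := by
    refine eq_zero_of_forall_algHom (O := O) Ω fun θ' => ?_
    have := h (θ'.comp (Ideal.Quotient.mkₐ O I)) (fun r hr => by
      rw [AlgHom.comp_apply, Ideal.Quotient.mkₐ_eq_mk,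
        Ideal.Quotient.eq_zero_iff_mem.mpr ((hmemI r).mpr hr), map_zero])
    rwa [AlgHom.comp_apply, Ideal.Quotient.mkₐ_eq_mk] at this
  exact (hmemI t).mp (Ideal.Quotient.eq_zero_iff_mem.mp h0) m

end ModuleForm

section ActionForm

variable (O : Type*) [CommRing O] [IsDomain O] {T : Type*} [CommRing T] [Algebra O T]
  [IsReduced T] [Algebra.IsIntegral O T]
  {M : Type*} [AddCommGroup M] [Module O M] [IsTorsionFree O M]

/-- **pointwise ⟹ identity, action form**: `T` acts on `M` through `act : T →ₐ[O] End_O M`. -/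
theorem act_eq_zero_of_forall_algHom (Ω : Type*) [Field Ω] [IsAlgClosed Ω] [Algebra O Ω]
    [IsTorsionFree O Ω] (act : T →ₐ[O] Module.End O M) (t : T)
    (h : ∀ θ : T →ₐ[O] Ω, (∀ r : T, act r = 0 → θ r = 0) → θ t = 0) : act t = 0 := by
  let _ : Module T M := Module.compHom M (act : T →+* Module.End O M)
  have hsmul : ∀ (r : T) (m : M), r • m = act r m := fun _ _ => rfl
  have : IsScalarTower O T M := ⟨fun a r m => by
    rw [hsmul, hsmul, map_smul, LinearMap.smul_apply]⟩
  ext m
  rw [LinearMap.zero_apply, ← hsmul]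
  refine smul_eq_zero_of_forall_algHom O Ω t (fun θ hθ => h θ fun r hr => hθ r fun m => ?_) m
  rw [hsmul, hr, LinearMap.zero_apply]

end ActionForm

end Fermat.Agent.GB.Alg.Points
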