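/-
CELL-B / S59-ENGINE (helper66): **lemma (UNIT)** of board post 5022, pure algebra, Mathlib-only.

Context (not used in this file).  `r` a Taylor–Wiles prime, `Λ = 𝒪[Δ_r]`, `M = M_Q` free over `Λ`
for the DIAMOND action, `x = ξ'(σ) - 1 ∈ T ⊆ End_Λ(M)` the Galois-side generator of the
augmentation ideal.  Because the level-`N` representation is unramified at `r`, `x M ⊆ π M`
(`π = D^{1/2} - 1`), i.e. `x = π • y` for a matrix `y`.  At the specialisation `φ : Λ → 𝒪[ζ_p]`
(nebentypus of exact order `p`), `1 + φ x = φ (ξ'(σ))` has finite order and all its eigenvalues are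
PRIMITIVE `p`-th roots of unity — that is the only arithmetic input (non-unipotence, from S36 on
main + two coset identities) — so `Φ_p (1 + π' • φ y) = 0`.  The lemmas below turn this into
`IsUnit y`, hence `x M = π M`: the Galois augmentation ideal equals the diamond one INTEGRALLY, and
local–global compatibility `ρ_g|I_r ≃ 1 ⊕ ψ` at Taylor–Wiles primes is never needed.

* `isUnit_of_cyclotomic_relation` (U1): in a (possibly non-commutative) `R`-algebra `E`,
  `p = u π^{p-1}`, `π` regular on `E`, `∑_{k<p} C(p,k+1) (π c)^k = 0`  ⟹  `c` is a unit.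
* `isUnit_of_isUnit_map` (U2): invertibility of a square matrix over a local ring can be tested
  after any local homomorphism.
* `range_eq_of_cyclotomic` (U3): the assembly, `x = π • y` ⟹ `y` invertible and
  `x.mulVec '' ⊤ = π • ⊤`.
-/
import Mathlib.LinearAlgebra.Matrix.NonsingularInverse
import Mathlib.RingTheory.LocalRing.RingHom.Basic
import Mathlib.Algebra.Algebra.Basic
import Mathlib.Data.Nat.Choose.Dvd
import Mathlib.Algebra.BigOperators.Intervals
import Mathlib.LinearAlgebra.Matrix.ToLin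

set_option autoImplicit false

open Finset

namespace Fermat.Agent.GB.Alg

section U1

variable {R : Type*} [CommRing R] {E : Type*} [Ring E] [Algebra R E]

/-- **(U1)**  `p` prime, `(p : R) = u * π ^ (p - 1)` with `u` a unit, `π` regular on `E`,
and `c : E` with `∑_{k < p} (p.choose (k+1)) • (π • c)^k = 0`
(i.e. `Φ_p (1 + π c) = 0`, since `Φ_p (1 + X) = ((1+X)^p - 1)/X`).  Then `c` is a unit of `E`. -/
theorem isUnit_of_cyclotomic_relation {p : ℕ} (hp : p.Prime) (π : R) (u : Rˣ)
    (hpu : (p : R) = u * π ^ (p - 1))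
    (hreg : ∀ e : E, π • e = 0 → e = 0) (c : E)
    (hrel : ∑ k ∈ range p, (p.choose (k + 1) : R) • (π • c) ^ k = 0) : IsUnit c := by
  have hp1 : 1 ≤ p := hp.one_lt.le
  -- split off the top term `k = p - 1`
  obtain ⟨m, rfl⟩ : ∃ m, p = m + 1 := ⟨p - 1, by omega⟩
  rw [sum_range_succ] at hrel
  simp only [Nat.choose_self, Nat.cast_one, one_smul, Nat.add_sub_cancel] at hrel hpu
  -- for `k < m`: `choose (m+1) (k+1) = (m+1) * b k`
  have hdvd : ∀ k ∈ range m, ∃ b : ℕ, (m + 1).choose (k + 1) = (m + 1) * b := by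
    intro k hk
    have hk' : k < m := mem_range.mp hk
    exact hp.dvd_choose_self (by omega) (by omega)
  choose! b hb using hdvd
  have hpow : ∀ k, (π • c) ^ k = π ^ k • c ^ k := fun k => by
    rw [smul_pow]
  -- rewrite everything as `π^m • (…) = 0`
  have hsum : ∑ k ∈ range m, ((m + 1).choose (k + 1) : R) • (π • c) ^ k
      = π ^ m • ∑ k ∈ range m, ((u : R) * (b k : R) * π ^ k) • c ^ k := by
    rw [smul_sum]
    refine sum_congr rfl fun k hk => ?_
    rw [hb k hk, hpow, smul_smul, smul_smul]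
    congr 1
    have hpu' : ((m : R) + 1) = u * π ^ m := by exact_mod_cast hpu
    push_cast
    rw [hpu']
    ring
  rw [hsum, hpow, ← smul_add] at hrel
  have hreg' : ∀ (n : ℕ) (e : E), π ^ n • e = 0 → e = 0 := by
    intro n
    induction n with
    | zero => intro e he; simpa using he
    | succ n ih =>
      intro e he
      rw [pow_succ, mul_smul] at he
      exact hreg _ (ih _ he) |> fun h => h
  have hmain := hreg' m _ hrel
  -- now  `∑_{k<m} (u b_k π^k) • c^k + c^m = 0`
  rcases Nat.eq_zero_or_pos m with rfl | hm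
  · -- `p = 1`: impossible
    exact absurd hp (by decide)
  -- `b 0 = 1`
  have hb0 : b 0 = 1 := by
    have h0 := hb 0 (mem_range.mpr hm)
    simp only [zero_add, Nat.choose_one_right] at h0
    have : (m + 1) * 1 = (m + 1) * b 0 := by simpa using h0
    exact (Nat.eq_of_mul_eq_mul_left (by omega) this).symm
  obtain ⟨m', rfl⟩ : ∃ m', m = m' + 1 := ⟨m - 1, by omega⟩
  rw [sum_range_succ'] at hmain
  simp only [pow_zero, hb0, Nat.cast_one, mul_one] at hmain
  -- `W * c = c * W = -u` with `W` a polynomial in `c`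
  set W : E := ∑ k ∈ range m', ((u : R) * (b (k + 1) : R) * π ^ (k + 1)) • c ^ k + c ^ m' with hW
  have hWc : W * c = -((u : R) • (1 : E)) := by
    have : W * c = ∑ k ∈ range m', ((u : R) * (b (k + 1) : R) * π ^ (k + 1)) • c ^ (k + 1)
        + c ^ (m' + 1) := by
      rw [hW, add_mul, sum_mul, ← pow_succ]
      congr 1
      refine sum_congr rfl fun k _ => ?_
      rw [smul_mul_assoc, ← pow_succ]
    rw [this]
    have h2 : ∑ k ∈ range m', ((u : R) * (b (k + 1) : R) * π ^ (k + 1)) • c ^ (k + 1)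
        + (u : R) • (1 : E) + c ^ (m' + 1) = 0 := by
      simpa using hmain
    rw [eq_neg_iff_add_eq_zero]
    rw [← h2]; abel
  have hcW : c * W = W * c := by
    rw [hW, add_mul, mul_add, sum_mul, mul_sum]
    congr 1
    · refine sum_congr rfl fun k _ => ?_
      rw [mul_smul_comm, smul_mul_assoc, ← pow_succ, ← pow_succ']
    · rw [← pow_succ, ← pow_succ']
  -- `-(u • 1)` is a unit of `E`
  have hunit : IsUnit (-((u : R) • (1 : E))) := by
    refine IsUnit.neg ?_
    rw [← Algebra.algebraMap_eq_smul_one]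
    exact (u.isUnit.map (algebraMap R E))
  have h1 : IsUnit (W * c) := by rw [hWc]; exact hunit
  have h2 : IsUnit (c * W) := by rw [hcW]; exact h1
  obtain ⟨v1, hv1⟩ := h1
  obtain ⟨v2, hv2⟩ := h2
  have e1 : c * (W * (↑v2⁻¹ : E)) = 1 := by
    rw [← mul_assoc, ← hv2]; exact v2.mul_inv
  have e2 : ((↑v1⁻¹ : E) * W) * c = 1 := by
    rw [mul_assoc, ← hv1]; exact v1.inv_mul
  -- left and right inverses agree
  have e3 : (↑v1⁻¹ : E) * W = W * (↑v2⁻¹ : E) := by
    calc (↑v1⁻¹ : E) * W = ((↑v1⁻¹ : E) * W) * (c * (W * (↑v2⁻¹ : E))) := by rw [e1, mul_one]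
      _ = (((↑v1⁻¹ : E) * W) * c) * (W * (↑v2⁻¹ : E)) := by simp only [mul_assoc]
      _ = W * (↑v2⁻¹ : E) := by rw [e2, one_mul]
  exact ⟨⟨c, W * (↑v2⁻¹ : E), e1, by rw [← e3]; exact e2⟩, rfl⟩

end U1

section U2

variable {Λ S : Type*} [CommRing Λ] [CommRing S] {d : Type*} [Fintype d] [DecidableEq d]

/-- **(U2)**  Over a local homomorphism, invertibility of a square matrix descends. -/
theorem isUnit_of_isUnit_map (φ : Λ →+* S) [IsLocalHom φ] (y : Matrix d d Λ)
    (h : IsUnit (y.map φ)) : IsUnit y := by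
  rw [Matrix.isUnit_iff_isUnit_det] at h ⊢
  have : (y.map φ).det = φ y.det := by
    rw [← RingHom.mapMatrix_apply, ← RingHom.map_det]
  rw [this] at h
  exact IsLocalHom.map_nonunit _ h

end U2

section U3

variable {Λ S : Type*} [CommRing Λ] [CommRing S] {d : Type*} [Fintype d] [DecidableEq d]

/-- **(U3)**  The specialisation criterion: `y` a square matrix over the local ring `Λ`,
`φ : Λ → S` a local homomorphism (`S = 𝒪[ζ_p]`), `π' = φ π` regular in `S` with
`p = u π'^{p-1}`, and `Φ_p (1 + π' • φ y) = 0` (all eigenvalues of `1 + π' φ(y)` are primitive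
`p`-th roots of unity).  Then `y` is invertible over `Λ`. -/
theorem isUnit_of_cyclotomic_specialisation (φ : Λ →+* S) [IsLocalHom φ]
    {p : ℕ} (hp : p.Prime) (π : Λ) (u : Sˣ) (hpu : (p : S) = u * (φ π) ^ (p - 1))
    (hreg : ∀ s : S, φ π * s = 0 → s = 0) (y : Matrix d d Λ)
    (hrel : ∑ k ∈ range p, (p.choose (k + 1) : S) • ((φ π) • y.map φ) ^ k = 0) : IsUnit y := by
  refine isUnit_of_isUnit_map φ y ?_
  refine isUnit_of_cyclotomic_relation (R := S) (E := Matrix d d S) hp (φ π) u hpu ?_ (y.map φ) hrel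
  intro e he
  ext i j
  have := congrFun (congrFun he i) j
  simp only [Matrix.smul_apply, smul_eq_mul, Matrix.zero_apply] at this
  simpa using hreg _ this

/-- Consequence: if `x = π • y` with `y` invertible, then `x` and `π` have the same image on
`d → Λ`: the "Galois" augmentation ideal and the "diamond" one cut out the same submodule. -/
theorem range_mulVec_eq_of_isUnit (π : Λ) (y : Matrix d d Λ) (hy : IsUnit y) :
    Set.range (π • y).mulVec = Set.range fun v : d → Λ => π • v := by
  ext w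
  constructor
  · rintro ⟨v, rfl⟩
    exact ⟨y.mulVec v, by rw [Matrix.smul_mulVec]⟩
  · rintro ⟨v, rfl⟩
    obtain ⟨yu, rfl⟩ := hy
    refine ⟨(↑yu⁻¹ : Matrix d d Λ).mulVec v, ?_⟩
    rw [Matrix.smul_mulVec, Matrix.mulVec_mulVec, Units.mul_inv, Matrix.one_mulVec]

end U3

end Fermat.Agent.GB.Alg
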