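/-
GATE-B / S59-ENGINE (helper66): **lemma (UNIT)** of board posts 5022 / 5238 at the MODULE level,
Mathlib-only (on top of `Unit.lean`).  `Λ` is an ABSTRACT commutative ring (think `𝒪[Δ_Q]`).

* `geom_sum_one_add` : `∑_{j<n} (1+z)^j = ∑_{k<n} C(n,k+1) • z^k` in any semiring.
* `exists_unit_of_geom_sum_eq_zero` : in ANY commutative ring, `Φ_p(z) = 0 ⟹ p = u (z-1)^{p-1}`.
* `algebraMap_mem_jacobson_bot`, `sub_one_mem_jacobson_bot`, `geom_sum_mem_jacobson_bot` :
  for `Λ` integral over `𝒪` with `p ∈ Jac(𝒪)` and `σ^{p^n} = 1`: `p`, `σ - 1`, `Φ_p(σ) ∈ Jac(Λ)`.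
* `exists_smul_eq_sub_of_basis` / `exists_smul_eq_sub` : **(UNIT) part 1**.
  `M` finite free over `Λ`, `x ∈ End_Λ M`, `σ ∈ Λ`, `J ≤ Jac(Λ)` with `Φ_p(σ) ∈ J` and `p` regular
  modulo `J`; `(x-1)M ⊆ (σ-1)M` and `Φ_p(x)M ⊆ JM`  ⟹  `(σ-1)M ⊆ (x-1)M`.
* `mem_smul_top_of_smul_mem` : torsion glue for checking `Φ_p(x)M ⊆ JM` after inverting scalars.
* `bijective_actSum_of_bijective_actSum` : **(UNIT) part 2**, freeness for the second structure.
-/
import Mathlib.RingTheory.Henselian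
import Mathlib.RingTheory.Ideal.GoingUp
import Mathlib.RingTheory.Nakayama
import Mathlib.RingTheory.OrzechProperty
import Mathlib.Algebra.CharP.Lemmas
import Mathlib.LinearAlgebra.FreeModule.Finite.Basic
import Fermat.Agent.GB.Alg.Unit

set_option autoImplicit false

open Finset

namespace Fermat.Agent.GB.Alg

section Hockey

variable {E : Type*} [Semiring E]

/-- Hockey-stick form of the geometric sum: `∑_{j<n} (1+z)^j = ∑_{k<n} C(n,k+1) • z^k`. -/
theorem geom_sum_one_add (z : E) (n : ℕ) :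
    ∑ j ∈ range n, (1 + z) ^ j = ∑ k ∈ range n, (n.choose (k + 1)) • z ^ k := by
  induction n with
  | zero => simp
  | succ n ih =>
    rw [sum_range_succ, ih]
    have hpow : (1 + z) ^ n = ∑ k ∈ range (n + 1), (n.choose k) • z ^ k := by
      rw [add_comm, (Commute.one_right z).add_pow]
      refine sum_congr rfl fun k _ => ?_
      rw [one_pow, mul_one, nsmul_eq_mul, (Nat.cast_commute _ _).eq]
    rw [hpow]
    have h1 : ∑ k ∈ range n, (n.choose (k + 1)) • z ^ k
        = ∑ k ∈ range (n + 1), (n.choose (k + 1)) • z ^ k := by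
      rw [sum_range_succ, Nat.choose_succ_self, zero_smul, add_zero]
    rw [h1, ← sum_add_distrib]
    refine sum_congr rfl fun k _ => ?_
    rw [← add_smul, Nat.choose_succ_succ' n k, add_comm]

end Hockey

section CycUnit

variable {S : Type*} [CommRing S]

/-- In ANY commutative ring, a root `z` of `Φ_p = 1 + X + ⋯ + X^{p-1}` satisfies
`p = u (z-1)^{p-1}` with `u` a unit. -/
theorem exists_unit_of_geom_sum_eq_zero {p : ℕ} (hp : p.Prime) (z : S)
    (hz : ∑ j ∈ range p, z ^ j = 0) : ∃ u : Sˣ, (p : S) = u * (z - 1) ^ (p - 1) := by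
  set π : S := z - 1 with hπ
  have hz' : ∑ k ∈ range p, (p.choose (k + 1)) • π ^ k = 0 := by
    rw [← geom_sum_one_add, hπ, add_sub_cancel]; exact hz
  obtain ⟨m, rfl⟩ : ∃ m, p = m + 1 := ⟨p - 1, by have := hp.one_lt; omega⟩
  rw [sum_range_succ] at hz'
  simp only [Nat.choose_self, one_smul, Nat.add_sub_cancel] at hz' ⊢
  have hdvd : ∀ k ∈ range m, ∃ b : ℕ, (m + 1).choose (k + 1) = (m + 1) * b := by
    intro k hk
    have hk' : k < m := mem_range.mp hk
    exact hp.dvd_choose_self (by omega) (by omega)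
  choose! b hb using hdvd
  have hm : 0 < m := by
    rcases Nat.eq_zero_or_pos m with rfl | h
    · exact absurd hp (by decide)
    · exact h
  have hb0 : b 0 = 1 := by
    have h0 := hb 0 (mem_range.mpr hm)
    simp only [zero_add, Nat.choose_one_right] at h0
    have : (m + 1) * 1 = (m + 1) * b 0 := by simpa using h0
    exact (Nat.eq_of_mul_eq_mul_left (by omega) this).symm
  set v : S := ∑ k ∈ range m, (b k : S) * π ^ k with hv
  have hsum : ∑ k ∈ range m, ((m + 1).choose (k + 1)) • π ^ k = ((m + 1 : ℕ) : S) * v := by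
    rw [hv, mul_sum]
    refine sum_congr rfl fun k hk => ?_
    rw [hb k hk, nsmul_eq_mul]; push_cast; ring
  rw [hsum] at hz'
  -- `v = 1 + π * w`
  obtain ⟨m', rfl⟩ : ∃ m', m = m' + 1 := ⟨m - 1, by omega⟩
  have hv1 : v = 1 + π * ∑ k ∈ range m', (b (k + 1) : S) * π ^ k := by
    rw [hv, sum_range_succ', hb0, mul_sum]
    simp only [Nat.cast_one, pow_zero, mul_one]
    rw [add_comm]
    congr 1
    refine sum_congr rfl fun k _ => ?_
    rw [pow_succ]; ring
  have hvu : IsUnit v := by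
    by_contra hnu
    obtain ⟨I, hI, hvI⟩ := exists_max_ideal_of_mem_nonunits hnu
    have hπI : π ∈ I := by
      have h1 : π ^ (m' + 1) ∈ I := by
        have : π ^ (m' + 1) = -(((m' + 1 + 1 : ℕ) : S) * v) := by
          rw [eq_neg_iff_add_eq_zero, add_comm]; exact hz'
        rw [this]
        exact I.neg_mem (I.mul_mem_left _ hvI)
      exact hI.isPrime.mem_of_pow_mem _ h1
    have h1I : (1 : S) ∈ I := by
      have : (1 : S) = v - π * ∑ k ∈ range m', (b (k + 1) : S) * π ^ k := by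
        rw [hv1]; ring
      rw [this]
      exact I.sub_mem hvI (I.mul_mem_right _ hπI)
    exact hI.ne_top ((Ideal.eq_top_iff_one I).mpr h1I)
  obtain ⟨vu, hvu'⟩ := hvu
  refine ⟨-vu⁻¹, ?_⟩
  have h2 : ((m' + 1 + 1 : ℕ) : S) * v = -π ^ (m' + 1) := by
    rw [eq_neg_iff_add_eq_zero]; exact hz'
  rw [Units.val_neg, neg_mul, ← mul_neg, ← h2, ← hvu', mul_comm _ (vu : S), ← mul_assoc,
    Units.inv_mul, one_mul]

end CycUnit

section Jac

variable {O Λ : Type*} [CommRing O] [CommRing Λ] [Algebra O Λ] [Algebra.IsIntegral O Λ]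

/-- `(S3a)` For `Λ` integral over `O`, `Jac(O)` maps into `Jac(Λ)`. -/
theorem algebraMap_mem_jacobson_bot {a : O} (ha : a ∈ Ideal.jacobson (⊥ : Ideal O)) :
    algebraMap O Λ a ∈ Ideal.jacobson (⊥ : Ideal Λ) := by
  rw [Ideal.jacobson, Ideal.mem_sInf]
  rintro I ⟨-, hI⟩
  have hmax : (I.comap (algebraMap O Λ)).IsMaximal :=
    Ideal.isMaximal_comap_of_isIntegral_of_isMaximal (R := O) I
  have : a ∈ I.comap (algebraMap O Λ) := by
    rw [Ideal.jacobson, Ideal.mem_sInf] at ha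
    exact ha ⟨bot_le, hmax⟩
  exact this

/-- `(S3a')` `p ∈ Jac(O)` implies `p ∈ Jac(Λ)`. -/
theorem natCast_mem_jacobson_bot {p : ℕ} (hpO : (p : O) ∈ Ideal.jacobson (⊥ : Ideal O)) :
    (p : Λ) ∈ Ideal.jacobson (⊥ : Ideal Λ) := by
  have := algebraMap_mem_jacobson_bot (Λ := Λ) hpO
  simpa using this

/-- `(S3b)` If `p ∈ Jac(O)`, `Λ` integral over `O` and `σ^{p^n} = 1` then `σ - 1 ∈ Jac(Λ)`. -/
theorem sub_one_mem_jacobson_bot {p : ℕ} (hp : p.Prime)
    (hpO : (p : O) ∈ Ideal.jacobson (⊥ : Ideal O)) (σ : Λ) (n : ℕ) (hσ : σ ^ p ^ n = 1) :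
    σ - 1 ∈ Ideal.jacobson (⊥ : Ideal Λ) := by
  have hpΛ := natCast_mem_jacobson_bot (Λ := Λ) hpO
  rw [Ideal.jacobson, Ideal.mem_sInf] at hpΛ ⊢
  rintro I ⟨hbot, hI⟩
  have hpI : (p : Λ) ∈ I := hpΛ ⟨hbot, hI⟩
  obtain ⟨r, hr⟩ := exists_add_pow_prime_pow_eq hp (σ - 1) 1 n
  rw [sub_add_cancel, hσ, one_pow] at hr
  have hpow : (σ - 1) ^ p ^ n ∈ I := by
    have : (σ - 1) ^ p ^ n = -((p : Λ) * ((σ - 1) * 1 * r)) := by
      have h2 : (p : Λ) * (σ - 1) * 1 * r = (p : Λ) * ((σ - 1) * 1 * r) := by ring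
      rw [h2] at hr
      linear_combination -hr
    rw [this]
    exact I.neg_mem (I.mul_mem_right _ hpI)
  exact hI.isPrime.mem_of_pow_mem _ hpow

/-- `(S3c)` Under the same hypotheses `Φ_p(σ) = ∑_{j<p} σ^j ∈ Jac(Λ)`. -/
theorem geom_sum_mem_jacobson_bot {p : ℕ} (hp : p.Prime)
    (hpO : (p : O) ∈ Ideal.jacobson (⊥ : Ideal O)) (σ : Λ) (n : ℕ) (hσ : σ ^ p ^ n = 1) :
    ∑ j ∈ range p, σ ^ j ∈ Ideal.jacobson (⊥ : Ideal Λ) := by
  have h1 := sub_one_mem_jacobson_bot hp hpO σ n hσ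
  have h2 := natCast_mem_jacobson_bot (Λ := Λ) hpO
  have : ∑ j ∈ range p, σ ^ j = ∑ j ∈ range p, (σ ^ j - 1) + (p : Λ) := by
    rw [sum_sub_distrib]; simp
  rw [this]
  refine Ideal.add_mem _ (sum_mem fun j _ => ?_) h2
  obtain ⟨c, hc⟩ := sub_dvd_pow_sub_pow σ 1 j
  rw [one_pow] at hc
  rw [hc]
  exact Ideal.mul_mem_right _ _ h1

end Jac

section Main

variable {Λ : Type*} [CommRing Λ] {M : Type*} [AddCommGroup M] [Module Λ M]

/-- Coordinates of an element of `J • ⊤` lie in `J`. -/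
theorem repr_mem_of_mem_smul_top {ι : Type*} (b : Module.Basis ι Λ M) (J : Ideal Λ) {m : M}
    (hm : m ∈ J • (⊤ : Submodule Λ M)) (i : ι) : b.repr m i ∈ J := by
  refine Submodule.smul_induction_on hm (fun a ha n _ => ?_) (fun m₁ m₂ h₁ h₂ => ?_)
  · rw [map_smul, Finsupp.smul_apply, smul_eq_mul]
    exact J.mul_mem_right _ ha
  · rw [map_add, Finsupp.add_apply]
    exact J.add_mem h₁ h₂

/-- **(UNIT), part 1, basis form.** -/
theorem exists_smul_eq_sub_of_basis {ι : Type*} [Fintype ι] [DecidableEq ι]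
    (b : Module.Basis ι Λ M) {p : ℕ} (hp : p.Prime) (σ : Λ) (J : Ideal Λ)
    (hJ : J ≤ Ideal.jacobson ⊥) (hΦ : ∑ j ∈ range p, σ ^ j ∈ J)
    (hreg : ∀ a : Λ, (p : Λ) * a ∈ J → a ∈ J)
    (x : Module.End Λ M)
    (h1 : ∀ m : M, ∃ m' : M, x m - m = (σ - 1) • m')
    (hW : ∀ m : M, (∑ j ∈ range p, x ^ j) m ∈ J • (⊤ : Submodule Λ M)) :
    ∀ m : M, ∃ m' : M, (σ - 1) • m = x m' - m' := by
  classical
  -- the quotient `y = (x - 1)/(σ - 1)` defined on the basis
  choose g hg using h1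
  let y : Module.End Λ M := b.constr Λ (fun j => g (b j))
  have hxy : x = 1 + (σ - 1) • y := by
    refine b.ext fun j => ?_
    have : y (b j) = g (b j) := b.constr_basis Λ _ j
    rw [LinearMap.add_apply, LinearMap.smul_apply, Module.End.one_apply, this, ← hg (b j)]
    abel
  set T := LinearMap.toMatrixAlgEquiv b with hT
  set Y : Matrix ι ι Λ := T y with hY
  have hX : T x = 1 + (σ - 1) • Y := by
    rw [hxy, map_add, map_one, map_smul]
  -- the specialisation
  let φ : Λ →+* Λ ⧸ J := Ideal.Quotient.mk J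
  have : IsLocalHom φ := isLocalHom_of_le_jacobson_bot J hJ
  have hz : ∑ j ∈ range p, (φ σ) ^ j = 0 := by
    simp only [← map_pow, ← map_sum]
    exact Ideal.Quotient.eq_zero_iff_mem.mpr hΦ
  obtain ⟨u, hu⟩ := exists_unit_of_geom_sum_eq_zero hp (φ σ) hz
  have hφπ : φ (σ - 1) = φ σ - 1 := by rw [map_sub, map_one]
  rw [← hφπ] at hu
  have hp1 : 1 ≤ p - 1 := by have := hp.two_le; omega
  have hregS : ∀ s : Λ ⧸ J, φ (σ - 1) * s = 0 → s = 0 := by
    intro s hs
    obtain ⟨a, rfl⟩ := Ideal.Quotient.mk_surjective s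
    have hpa : ((p : Λ ⧸ J)) * φ a = 0 := by
      obtain ⟨k, hk⟩ : ∃ k, p - 1 = k + 1 := ⟨p - 2, by omega⟩
      rw [hu, hk, pow_succ, mul_assoc, mul_assoc, hs, mul_zero, mul_zero]
    have : (p : Λ) * a ∈ J := by
      rw [← Ideal.Quotient.eq_zero_iff_mem, map_mul, map_natCast]; exact hpa
    exact Ideal.Quotient.eq_zero_iff_mem.mpr (hreg a this)
  -- the relation `Φ_p (1 + φπ • φY) = 0`
  have hrel : ∑ k ∈ range p, (p.choose (k + 1) : Λ ⧸ J) • ((φ (σ - 1)) • Y.map φ) ^ k = 0 := by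
    have h1 : ∑ k ∈ range p, (p.choose (k + 1) : Λ ⧸ J) • ((φ (σ - 1)) • Y.map φ) ^ k
        = ∑ j ∈ range p, (1 + (φ (σ - 1)) • Y.map φ) ^ j := by
      rw [geom_sum_one_add]
      refine sum_congr rfl fun k _ => ?_
      rw [Nat.cast_smul_eq_nsmul]
    rw [h1]
    have h2 : (1 + (φ (σ - 1)) • Y.map φ) = φ.mapMatrix (T x) := by
      rw [hX, map_add, map_one, RingHom.mapMatrix_apply, Matrix.map_smul' _ _ _ (map_mul φ)]
    rw [h2]
    simp only [← map_pow, ← map_sum]
    ext i j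
    rw [RingHom.mapMatrix_apply, Matrix.map_apply, Matrix.zero_apply, hT,
      LinearMap.toMatrixAlgEquiv_apply]
    exact Ideal.Quotient.eq_zero_iff_mem.mpr (repr_mem_of_mem_smul_top b J (hW (b j)) i)
  have hYu : IsUnit Y :=
    isUnit_of_cyclotomic_specialisation φ hp (σ - 1) u hu hregS Y hrel
  have hyu : IsUnit y := by
    have := hYu.map T.symm
    rwa [hY, AlgEquiv.symm_apply_apply] at this
  intro m
  obtain ⟨yu, hyu'⟩ := hyu
  refine ⟨(↑yu⁻¹ : Module.End Λ M) m, ?_⟩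
  have hym : y ((↑yu⁻¹ : Module.End Λ M) m) = m := by
    rw [← hyu', ← Module.End.mul_apply, Units.mul_inv, Module.End.one_apply]
  conv_rhs => rw [hxy]
  rw [LinearMap.add_apply, LinearMap.smul_apply, Module.End.one_apply, hym]
  abel

end Main

section Glue

variable {Λ : Type*} [CommRing Λ] {M : Type*} [AddCommGroup M] [Module Λ M]

/-- Membership in `J • ⊤` can be read off coordinates. -/
theorem mem_smul_top_iff_repr_mem {ι : Type*} (b : Module.Basis ι Λ M) (J : Ideal Λ) (m : M) :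
    m ∈ J • (⊤ : Submodule Λ M) ↔ ∀ i, b.repr m i ∈ J := by
  refine ⟨fun hm i => repr_mem_of_mem_smul_top b J hm i, fun h => ?_⟩
  rw [← b.linearCombination_repr m, Finsupp.linearCombination_apply]
  exact Submodule.sum_mem _ fun i _ => Submodule.smul_mem_smul (h i) trivial

/-- Torsion glue: if multiplication by `a` is injective on `Λ ⧸ J` and `M` is free, then
`a • m ∈ J M ⟹ m ∈ J M`.  (Used to verify `Φ_p(x) M ⊆ J M` after tensoring with `K̄`.) -/
theorem mem_smul_top_of_smul_mem {ι : Type*} (b : Module.Basis ι Λ M) (J : Ideal Λ) (a : Λ)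
    (ha : ∀ l : Λ, a * l ∈ J → l ∈ J) {m : M} (h : a • m ∈ J • (⊤ : Submodule Λ M)) :
    m ∈ J • (⊤ : Submodule Λ M) := by
  rw [mem_smul_top_iff_repr_mem b] at h ⊢
  intro i
  have := h i
  rw [map_smul, Finsupp.smul_apply, smul_eq_mul] at this
  exact ha _ this

/-- **(UNIT), part 1**, for a finite free module (no chosen basis). -/
theorem exists_smul_eq_sub [Module.Free Λ M] [Module.Finite Λ M]
    {p : ℕ} (hp : p.Prime) (σ : Λ) (J : Ideal Λ)
    (hJ : J ≤ Ideal.jacobson ⊥) (hΦ : ∑ j ∈ range p, σ ^ j ∈ J)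
    (hreg : ∀ a : Λ, (p : Λ) * a ∈ J → a ∈ J)
    (x : Module.End Λ M)
    (h1 : ∀ m : M, ∃ m' : M, x m - m = (σ - 1) • m')
    (hW : ∀ m : M, (∑ j ∈ range p, x ^ j) m ∈ J • (⊤ : Submodule Λ M)) :
    ∀ m : M, ∃ m' : M, (σ - 1) • m = x m' - m' := by
  classical
  exact exists_smul_eq_sub_of_basis (Module.Free.chooseBasis Λ M) hp σ J hJ hΦ hreg x h1 hW

end Glue

section Part2

variable {A : Type*} [CommRing A] {Λ : Type*} [CommRing Λ] [Algebra A Λ]
  {M : Type*} [AddCommGroup M] [Module A M] {ι : Type*} [Fintype ι]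

/-- The `A`-linear map `(ι → Λ) → M`, `v ↦ ∑_j γ(v_j)(e_j)` attached to an `A`-algebra action
`γ : Λ → End_A M` and a family `e`.  `M` is free over `Λ` (acting through `γ`) with basis `e`
iff this map is bijective. -/
def actSum (γ : Λ →ₐ[A] Module.End A M) (e : ι → M) : (ι → Λ) →ₗ[A] M where
  toFun v := ∑ j, γ (v j) (e j)
  map_add' v w := by
    simp only [Pi.add_apply, map_add, LinearMap.add_apply, sum_add_distrib]
  map_smul' a v := by
    simp only [Pi.smul_apply, map_smul, LinearMap.smul_apply, smul_sum, RingHom.id_apply]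

@[simp] theorem actSum_apply (γ : Λ →ₐ[A] Module.End A M) (e : ι → M) (v : ι → Λ) :
    actSum γ e v = ∑ j, γ (v j) (e j) := rfl

variable {κ : Type*}

/-- **(UNIT), part 2.**  Two `A`-algebra actions `δ γ : Λ → End_A M` of the same commutative ring
on `M` (`δ` the diamond structure, `γ` the Galois structure).  `Λ` finite over `A`, `I = (π_i)` an
ideal in the Jacobson radical with `A + I = Λ`, and `δ(π_i) M ⊆ γ(π_i) M` for all `i`.
If `M` is free over `Λ` through `δ` with basis `e`, it is free through `γ` with the same basis. -/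
theorem bijective_actSum_of_bijective_actSum [Module.Finite A Λ]
    (δ γ : Λ →ₐ[A] Module.End A M) (e : ι → M) (π : κ → Λ)
    (hI : Ideal.span (Set.range π) ≤ Ideal.jacobson ⊥)
    (hAI : ∀ l : Λ, ∃ a : A, l - algebraMap A Λ a ∈ Ideal.span (Set.range π))
    (hπ : ∀ (i : κ) (m : M), ∃ m' : M, δ (π i) m = γ (π i) m')
    (hδ : Function.Bijective (actSum δ e)) : Function.Bijective (actSum γ e) := by
  classical
  set I : Ideal Λ := Ideal.span (Set.range π) with hIdef
  -- `M` is finite over `A`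
  let E : (ι → Λ) ≃ₗ[A] M := LinearEquiv.ofBijective (actSum δ e) hδ
  have hfinA : Module.Finite A M := Module.Finite.equiv E
  -- the `Λ`-module structure through `γ`
  let _ : Module Λ M := Module.compHom M (γ : Λ →+* Module.End A M)
  have hsmul : ∀ (l : Λ) (m : M), l • m = γ l m := fun _ _ => rfl
  have : IsScalarTower A Λ M := ⟨fun a l m => by
    rw [hsmul, hsmul, map_smul, LinearMap.smul_apply]⟩
  have hfinΛ : Module.Finite Λ M := Module.Finite.of_restrictScalars_finite A Λ M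
  -- `δ(I) M ⊆ I • M`
  have hδI : ∀ l ∈ I, ∀ m : M, δ l m ∈ I • (⊤ : Submodule Λ M) := by
    intro l hl
    refine Submodule.span_induction (p := fun l _ => ∀ m : M, δ l m ∈ I • (⊤ : Submodule Λ M))
      ?_ ?_ ?_ ?_ hl
    · rintro _ ⟨i, rfl⟩ m
      obtain ⟨m', hm'⟩ := hπ i m
      rw [hm', ← hsmul]
      exact Submodule.smul_mem_smul (Ideal.subset_span ⟨i, rfl⟩) trivial
    · intro m; simp
    · intro l₁ l₂ _ _ h₁ h₂ m
      rw [map_add, LinearMap.add_apply]
      exact Submodule.add_mem _ (h₁ m) (h₂ m)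
    · intro c l _ h m
      rw [smul_eq_mul, mul_comm, map_mul, Module.End.mul_apply]
      exact h _
  -- Nakayama: the span of `e` is everything
  have htop : (⊤ : Submodule Λ M) ≤ Submodule.span Λ (Set.range e) := by
    refine Submodule.le_of_le_smul_of_le_jacobson_bot (Module.Finite.fg_top) hI ?_
    intro m _
    obtain ⟨v, rfl⟩ := hδ.2 m
    rw [actSum_apply]
    refine Submodule.sum_mem _ fun j _ => ?_
    obtain ⟨a, ha⟩ := hAI (v j)
    have : δ (v j) (e j) = (algebraMap A Λ a) • e j + δ (v j - algebraMap A Λ a) (e j) := by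
      rw [hsmul, map_sub, LinearMap.sub_apply, AlgHom.commutes, AlgHom.commutes]
      abel
    rw [this]
    exact Submodule.add_mem _
      (Submodule.mem_sup_left (Submodule.smul_mem _ _ (Submodule.subset_span ⟨j, rfl⟩)))
      (Submodule.mem_sup_right (hδI _ ha _))
  have hsurj : Function.Surjective (actSum γ e) := by
    intro m
    have hm : m ∈ Submodule.span Λ (Set.range e) := htop trivial
    obtain ⟨c, hc⟩ := (Submodule.mem_span_range_iff_exists_fun Λ).mp hm
    exact ⟨c, by rw [actSum_apply, ← hc]; rfl⟩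
  refine ⟨?_, hsurj⟩
  -- injectivity: surjective endomorphism of a finite module
  have hfin' : Module.Finite A (ι → Λ) := Module.Finite.pi
  let f : (ι → Λ) →ₗ[A] (ι → Λ) := E.symm.toLinearMap ∘ₗ actSum γ e
  have hf : Function.Surjective f := E.symm.surjective.comp hsurj
  have hinj : Function.Injective f := OrzechProperty.injective_of_surjective_endomorphism f hf
  exact Function.Injective.of_comp hinj

end Part2

end Fermat.Agent.GB.Alg
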