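/-
GATE-B (helper66): **(UNIT) part 1 for the B3 output shape** (`FreeLevel`: Δ_Q-freeness as an
`O`-BASIS OF MONOMIALS `∏ D_i^{a_i} e_j`).  Mathlib + `UnitMod.lean` only.

Model: `Λ = MonoidAlgebra O Δ`, `Δ = Grp N = ∏ᵢ Multiplicative (ZMod (N i))`, acting on `M` through
the commuting diamond operators `D i` (`gam`), `σ_i = sg N O i ↦ D i`.  For the `i`-th prime the
specialisation `χ_i = chi O N p hN i : Λ → O[X]/Φ_p`, `σ_i ↦ ζ`, `σ_j ↦ 1`, and `J = ker χ_i`.

* `bijective_actSum_gam` : the monomial basis makes `M` free over `Λ` on `e`.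
* `ker_chi_le_jacobson`, `geom_sum_sg_mem_ker`, `sg_sub_one_mem_ker`, `ker_chi_regular'` :
  the hypotheses (S1)(S2)(S3) of `UnitMod.exists_smul_eq_sub_of_basis` for `J = ker χ_i`.
* `exists_gam_sub_one_eq`, `mem_actSub_of_smul_mem`, `map_mem_actSub` : (UNIT) part 1 and the
  torsion glue in ACTION form (`γ : Λ →ₐ[A] End_A M`, no `Module Λ M` instance in the statement).
* `unitSub … i : Submodule O M` `= γ(ker χ_i) M ⊇ Φ_p(D_i)M + ∑_{j≠i}(D_j-1)M`
  (`range_le_unitSub`), stable under everything commuting with the diamonds (`map_mem_unitSub`),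
  with `O`-torsion-free quotient (`mem_unitSub_of_smul_mem`).
* **`range_sub_one_le_of_unitSub`** / `range_sub_one_le_of_basis` : `x` commuting with the
  diamonds, `(x-1)M ⊆ (D_i-1)M`, `Φ_p(x)M ⊆ unitSub i`  ⟹  `(D_i-1)M ⊆ (x-1)M`.
-/
import Mathlib
import Fermat.Agent.GB.Alg.UnitMod

set_option autoImplicit false

open Finset Polynomial

namespace Fermat.Agent.GB.Alg.UnitGrp

/-! ### `ZMod n ≃ Fin n` by `val` -/

/-- `ZMod n ≃ Fin n`, `a ↦ a.val`. -/
def zmodFinEquiv (n : ℕ) [NeZero n] : ZMod n ≃ Fin n where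
  toFun a := ⟨a.val, ZMod.val_lt a⟩
  invFun f := ((f : ℕ) : ZMod n)
  left_inv a := ZMod.natCast_zmod_val a
  right_inv f := Fin.ext (ZMod.val_natCast_of_lt f.isLt)

@[simp] theorem zmodFinEquiv_apply_val (n : ℕ) [NeZero n] (a : ZMod n) :
    ((zmodFinEquiv n a : Fin n) : ℕ) = a.val := rfl

/-! ### the power homomorphism `ℤ/n → E`, `1 ↦ u` -/

section PowHom

variable {E : Type*} [Monoid E]

/-- The hom `ℤ/n → Eˣ`, `1 ↦ u`, for `u ^ n = 1` (multiplicative notation on the source). -/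
noncomputable def powHom (n : ℕ) (u : Eˣ) (hu : u ^ n = 1) : Multiplicative (ZMod n) →* Eˣ :=
  AddMonoidHom.toMultiplicativeLeft
    (ZMod.lift n ⟨zmultiplesHom (Additive Eˣ) (Additive.ofMul u), by
      rw [zmultiplesHom_apply, natCast_zsmul, ← ofMul_pow, hu, ofMul_one]⟩)

theorem powHom_ofAdd_natCast (n : ℕ) (u : Eˣ) (hu : u ^ n = 1) (m : ℕ) :
    powHom n u hu (Multiplicative.ofAdd (m : ZMod n)) = u ^ m := by
  have : ((m : ℤ) : ZMod n) = (m : ZMod n) := by push_cast; rfl
  rw [powHom, AddMonoidHom.coe_toMultiplicativeLeft, Function.comp_apply, Function.comp_apply,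
    toAdd_ofAdd, ← this, ZMod.lift_coe]
  simp

theorem powHom_apply (n : ℕ) [NeZero n] (u : Eˣ) (hu : u ^ n = 1) (a : Multiplicative (ZMod n)) :
    powHom n u hu a = u ^ (Multiplicative.toAdd a).val := by
  have h := powHom_ofAdd_natCast n u hu (Multiplicative.toAdd a).val
  rwa [ZMod.natCast_zmod_val, ofAdd_toAdd] at h

end PowHom

/-! ### list products of commuting families -/

section ListProd

variable {E : Type*} [Monoid E] {k : ℕ}

theorem list_ofFn_prod_eq_noncommProd (f : Fin k → E)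
    (hf : (↑(Finset.univ : Finset (Fin k)) : Set (Fin k)).Pairwise (Function.onFun Commute f)) :
    (List.ofFn f).prod = Finset.univ.noncommProd f hf := by
  classical
  have h1 : (List.finRange k).toFinset = (Finset.univ : Finset (Fin k)) := by
    ext i; simp
  rw [List.ofFn_eq_map]
  have hf' : (↑((List.finRange k).toFinset) : Set (Fin k)).Pairwise (Function.onFun Commute f) := by
    rw [h1]; exact hf
  rw [← Finset.noncommProd_toFinset (List.finRange k) f hf' (List.nodup_finRange k)]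
  exact Finset.noncommProd_congr h1 (fun _ _ => rfl) hf'

end ListProd

section Action

variable {O : Type*} [CommRing O] {M : Type*} [AddCommGroup M] [Module O M]
variable {k : ℕ} (N : Fin k → ℕ) [∀ i, NeZero (N i)]

/-- `Δ = ∏ᵢ ℤ/N i`, each factor written multiplicatively. -/
abbrev Grp : Type := (i : Fin k) → Multiplicative (ZMod (N i))

variable (D : Fin k → Module.End O M) (hpow : ∀ i, D i ^ N i = 1)
  (hcomm : ∀ i j, Commute (D i) (D j))

/-- `D i` as a unit. -/
noncomputable def unitD (i : Fin k) : (Module.End O M)ˣ :=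
  Units.ofPowEqOne (D i) (N i) (hpow i) (NeZero.ne _)

theorem unitD_pow (i : Fin k) : unitD N D hpow i ^ N i = 1 :=
  Units.pow_ofPowEqOne (hpow i) (NeZero.ne _)

/-- the `i`-th factor hom `ℤ/N i → End_O M`, `1 ↦ D i` -/
noncomputable def rhoFactor (i : Fin k) : Multiplicative (ZMod (N i)) →* Module.End O M :=
  (Units.coeHom _).comp (powHom (N i) (unitD N D hpow i) (unitD_pow N D hpow i))

theorem rhoFactor_apply (i : Fin k) (a : Multiplicative (ZMod (N i))) :
    rhoFactor N D hpow i a = D i ^ (Multiplicative.toAdd a).val := by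
  rw [rhoFactor, MonoidHom.comp_apply, powHom_apply, Units.coeHom_apply, Units.val_pow_eq_pow_val]
  rfl

include hcomm in
theorem rhoFactor_commute : Pairwise fun i j : Fin k => ∀ (x : Multiplicative (ZMod (N i)))
    (y : Multiplicative (ZMod (N j))), Commute (rhoFactor N D hpow i x) (rhoFactor N D hpow j y) := by
  intro i j _ x y
  rw [rhoFactor_apply, rhoFactor_apply]
  exact (hcomm i j).pow_pow _ _

/-- the action of `Δ` on `M` through the commuting operators `D i` -/
noncomputable def rho : Grp N →* Module.End O M :=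
  MonoidHom.noncommPiCoprod (rhoFactor N D hpow) (rhoFactor_commute N D hpow hcomm)

theorem rho_mulSingle (i : Fin k) :
    rho N D hpow hcomm (Pi.mulSingle i (Multiplicative.ofAdd (1 : ZMod (N i)))) = D i := by
  rw [rho, MonoidHom.noncommPiCoprod_mulSingle, rhoFactor_apply, toAdd_ofAdd,
    ZMod.val_one_eq_one_mod, ← pow_eq_pow_mod 1 (hpow i), pow_one]

theorem rho_apply (g : Grp N) :
    rho N D hpow hcomm g
      = (List.ofFn fun i => D i ^ (Multiplicative.toAdd (g i)).val).prod := by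
  rw [rho, MonoidHom.noncommPiCoprod_apply, list_ofFn_prod_eq_noncommProd]
  exact Finset.noncommProd_congr rfl (fun i _ => rhoFactor_apply N D hpow i (g i)) _

/-- the `O`-algebra action of `Λ = O[Δ]` on `M` -/
noncomputable def gam : MonoidAlgebra O (Grp N) →ₐ[O] Module.End O M :=
  MonoidAlgebra.lift O (Module.End O M) (Grp N) (rho N D hpow hcomm)

theorem gam_single_one (g : Grp N) :
    gam N D hpow hcomm (MonoidAlgebra.single g 1) = rho N D hpow hcomm g := by
  rw [gam, MonoidAlgebra.lift_single, one_smul]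

/-- the generator `σ i` of `Δ` inside `Λ` -/
noncomputable def sg (O : Type*) [CommRing O] (i : Fin k) : MonoidAlgebra O (Grp N) :=
  MonoidAlgebra.single (Pi.mulSingle i (Multiplicative.ofAdd (1 : ZMod (N i)))) 1

theorem gam_sg (i : Fin k) : gam N D hpow hcomm (sg N O i) = D i := by
  rw [sg, gam_single_one, rho_mulSingle]

/-- the index bijection `Fin d × Δ ≃ (∏ Fin (N i)) × Fin d` -/
def idxEquiv (d : ℕ) : (Σ _ : Fin d, Grp N) ≃ ((∀ i : Fin k, Fin (N i)) × Fin d) where
  toFun x := (fun i => zmodFinEquiv (N i) (Multiplicative.toAdd (x.2 i)), x.1)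
  invFun y := ⟨y.2, fun i => Multiplicative.ofAdd ((zmodFinEquiv (N i)).symm (y.1 i))⟩
  left_inv x := by
    rcases x with ⟨j, g⟩
    simp
  right_inv y := by
    rcases y with ⟨a, j⟩
    simp

variable {d : ℕ} (e : Fin d → M)
  (b : Module.Basis ((∀ i : Fin k, Fin (N i)) × Fin d) O M)
  (hb : ∀ a j, b (a, j) = (List.ofFn fun i => D i ^ (a i : ℕ)).prod (e j))

include hb in
/-- **Δ-freeness in basis form ⟹ `actSum` is bijective.** -/
theorem bijective_actSum_gam : Function.Bijective (actSum (gam N D hpow hcomm) e) := by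
  classical
  let bP : Module.Basis (Σ _ : Fin d, Grp N) O (Fin d → MonoidAlgebra O (Grp N)) :=
    Pi.basis fun _ => MonoidAlgebra.basis (Grp N) O
  have key : actSum (gam N D hpow hcomm) e = (bP.equiv b (idxEquiv N d)).toLinearMap := by
    refine bP.ext fun x => ?_
    rcases x with ⟨j, g⟩
    rw [LinearEquiv.coe_coe, Module.Basis.equiv_apply, actSum_apply]
    have h1 : bP ⟨j, g⟩ = Pi.single j (MonoidAlgebra.single g 1) := by
      simp [bP, Pi.basis_apply]
    rw [h1, Finset.sum_eq_single j]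
    · rw [Pi.single_eq_same, gam_single_one, rho_apply]
      exact (hb (fun i => zmodFinEquiv (N i) (Multiplicative.toAdd (g i))) j).symm
    · intro j' _ hj'
      rw [Pi.single_eq_of_ne hj', map_zero, LinearMap.zero_apply]
    · intro h; exact absurd (Finset.mem_univ j) h
  rw [key]
  exact (bP.equiv b (idxEquiv N d)).bijective

end Action

section Cyc

variable (O : Type*) [CommRing O] (p : ℕ)

/-- `S = O[X]/Φ_p(X)`. -/
abbrev Cyc : Type _ := AdjoinRoot (cyclotomic p O)

/-- the class of `X` in `O[X]/Φ_p` -/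
noncomputable def zeta : Cyc O p := AdjoinRoot.root (cyclotomic p O)

theorem zeta_pow_prime : zeta O p ^ p = 1 := by
  have h : AdjoinRoot.mk (cyclotomic p O) (X ^ p - 1) = 0 :=
    AdjoinRoot.mk_eq_zero.mpr (cyclotomic.dvd_X_pow_sub_one p O)
  rw [map_sub, map_pow, AdjoinRoot.mk_X, map_one, sub_eq_zero] at h
  exact h

theorem zeta_pow_of_dvd {n : ℕ} (h : p ∣ n) : zeta O p ^ n = 1 := by
  obtain ⟨c, rfl⟩ := h
  rw [pow_mul, zeta_pow_prime, one_pow]

theorem geom_sum_zeta [hp : Fact p.Prime] : ∑ j ∈ range p, zeta O p ^ j = 0 := by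
  have h2 : AdjoinRoot.mk (cyclotomic p O) (∑ i ∈ range p, X ^ i) = ∑ j ∈ range p, zeta O p ^ j := by
    rw [map_sum]
    refine sum_congr rfl fun j _ => ?_
    rw [map_pow, AdjoinRoot.mk_X]; rfl
  rw [← h2, ← cyclotomic_prime O p]
  exact AdjoinRoot.mk_self

variable {O p}

theorem cyc_nontrivial [Nontrivial O] (hp : p.Prime) : Nontrivial (Cyc O p) := by
  refine ⟨⟨0, 1, fun h => ?_⟩⟩
  have h1 : AdjoinRoot.mk (cyclotomic p O) 1 = 0 := by rw [map_one]; exact h.symm
  have h2 : IsUnit (cyclotomic p O) := isUnit_of_dvd_one (AdjoinRoot.mk_eq_zero.mp h1)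
  have h3 : cyclotomic p O = 1 := (cyclotomic.monic p O).isUnit_iff.mp h2
  have h4 := natDegree_cyclotomic p O
  rw [h3, natDegree_one, Nat.totient_prime hp] at h4
  have := hp.two_le
  omega

/-- `O[X]/Φ_p` is `O`-torsion-free: a non-zero-divisor of `O` stays one. -/
theorem cyc_algebraMap_regular (a : O) (ha : ∀ o : O, a * o = 0 → o = 0) (s : Cyc O p)
    (h : algebraMap O (Cyc O p) a * s = 0) : s = 0 := by
  let B := (AdjoinRoot.powerBasis' (cyclotomic.monic p O)).basis
  have h' : a • s = 0 := by rw [Algebra.smul_def]; exact h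
  refine B.repr.map_eq_zero_iff.mp ?_
  ext i
  have := congrArg (fun t => B.repr t i) h'
  simp only [map_smul, Finsupp.smul_apply, smul_eq_mul, map_zero, Finsupp.zero_apply] at this
  simpa using ha _ this

theorem cyc_natCast_regular (hreg : ∀ a : O, (p : O) * a = 0 → a = 0) (s : Cyc O p)
    (h : (p : Cyc O p) * s = 0) : s = 0 := by
  let B := (AdjoinRoot.powerBasis' (cyclotomic.monic p O)).basis
  have h' : (p : O) • s = 0 := by
    rw [Nat.cast_smul_eq_nsmul, nsmul_eq_mul]; exact h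
  refine B.repr.map_eq_zero_iff.mp ?_
  ext i
  have := congrArg (fun t => B.repr t i) h'
  simp only [map_smul, Finsupp.smul_apply, smul_eq_mul, map_zero, Finsupp.zero_apply] at this
  simpa using hreg _ this

end Cyc

section Char

variable (O : Type*) [CommRing O] {k : ℕ} (N : Fin k → ℕ) [∀ i, NeZero (N i)] (p : ℕ)
  (hN : ∀ i, p ∣ N i)

/-- `ζ` as a unit of `O[X]/Φ_p` -/
noncomputable def zetaUnit (i : Fin k) : (Cyc O p)ˣ :=
  Units.ofPowEqOne (zeta O p) (N i) (zeta_pow_of_dvd O p (hN i)) (NeZero.ne _)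

theorem zetaUnit_pow (i : Fin k) : zetaUnit O N p hN i ^ N i = 1 :=
  Units.pow_ofPowEqOne (zeta_pow_of_dvd O p (hN i)) (NeZero.ne _)

/-- the character `Δ → O[X]/Φ_p`, `g ↦ ζ^{g_i}` -/
noncomputable def chiGrp (i : Fin k) : Grp N →* Cyc O p :=
  (Units.coeHom _).comp
    ((powHom (N i) (zetaUnit O N p hN i) (zetaUnit_pow O N p hN i)).comp
      (Pi.evalMonoidHom (fun i : Fin k => Multiplicative (ZMod (N i))) i))

theorem chiGrp_apply (i : Fin k) (g : Grp N) :
    chiGrp O N p hN i g = zeta O p ^ (Multiplicative.toAdd (g i)).val := by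
  rw [chiGrp, MonoidHom.comp_apply, MonoidHom.comp_apply, powHom_apply, Units.coeHom_apply,
    Units.val_pow_eq_pow_val]
  rfl

/-- the specialisation `χ_i : Λ = O[Δ] → O[X]/Φ_p`, `σ_i ↦ ζ`, `σ_j ↦ 1` -/
noncomputable def chi (i : Fin k) : MonoidAlgebra O (Grp N) →ₐ[O] Cyc O p :=
  MonoidAlgebra.lift O (Cyc O p) (Grp N) (chiGrp O N p hN i)

theorem chi_single_one (i : Fin k) (g : Grp N) :
    chi O N p hN i (MonoidAlgebra.single g 1) = zeta O p ^ (Multiplicative.toAdd (g i)).val := by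
  rw [chi, MonoidAlgebra.lift_single, one_smul, chiGrp_apply]

theorem chi_sg_self (i : Fin k) : chi O N p hN i (sg N O i) = zeta O p := by
  rw [sg, chi_single_one, Pi.mulSingle_eq_same, toAdd_ofAdd, ZMod.val_one_eq_one_mod,
    ← pow_eq_pow_mod 1 (zeta_pow_of_dvd O p (hN i)), pow_one]

theorem chi_sg_of_ne (i j : Fin k) (h : i ≠ j) : chi O N p hN i (sg N O j) = 1 := by
  rw [sg, chi_single_one, Pi.mulSingle_eq_of_ne h, toAdd_one, ZMod.val_zero, pow_zero]

theorem geom_sum_sg_mem_ker [Fact p.Prime] (i : Fin k) :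
    ∑ m ∈ range p, sg N O i ^ m ∈ RingHom.ker (chi O N p hN i) := by
  rw [RingHom.mem_ker, map_sum]
  simp only [map_pow, chi_sg_self]
  exact geom_sum_zeta O p

theorem sg_sub_one_mem_ker (i j : Fin k) (h : i ≠ j) :
    sg N O j - 1 ∈ RingHom.ker (chi O N p hN i) := by
  rw [RingHom.mem_ker, map_sub, map_one, chi_sg_of_ne O N p hN i j h, sub_self]

theorem ker_chi_regular (hreg : ∀ a : O, (p : O) * a = 0 → a = 0) (i : Fin k)
    (a : MonoidAlgebra O (Grp N))
    (h : (p : MonoidAlgebra O (Grp N)) * a ∈ RingHom.ker (chi O N p hN i)) :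
    a ∈ RingHom.ker (chi O N p hN i) := by
  rw [RingHom.mem_ker] at h ⊢
  rw [map_mul, map_natCast] at h
  exact cyc_natCast_regular hreg _ h

/-! ### `ker χ_i ⊆ Jac(Λ)` -/

instance : Module.Finite O (MonoidAlgebra O (Grp N)) :=
  Module.Finite.of_basis (MonoidAlgebra.basis (Grp N) O)

omit [∀ i, NeZero (N i)] in
/-- every element of `Δ` is killed by `∏ N i` -/
theorem grp_pow_prod_eq_one (g : Grp N) : g ^ (∏ i, N i) = 1 := by
  funext i
  rw [Pi.pow_apply, Pi.one_apply]
  have h1 : (g i) ^ (N i) = 1 := by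
    rw [← ofAdd_toAdd (g i), ← ofAdd_nsmul, nsmul_eq_mul, ZMod.natCast_self, zero_mul, ofAdd_zero]
  obtain ⟨c, hc⟩ : N i ∣ ∏ i, N i := Finset.dvd_prod_of_mem N (Finset.mem_univ i)
  rw [hc, pow_mul, h1, one_pow]

variable {p}

/-- `g - 1 ∈ Jac(Λ)` for every `g ∈ Δ`, when `Δ` is a `p`-group and `p ∈ Jac(O)`. -/
theorem single_sub_one_mem_jacobson (hp : p.Prime)
    (hpO : (p : O) ∈ Ideal.jacobson (⊥ : Ideal O)) (hNpow : ∀ i, ∃ n, N i = p ^ n) (g : Grp N) :
    MonoidAlgebra.single g (1 : O) - 1 ∈ Ideal.jacobson (⊥ : Ideal (MonoidAlgebra O (Grp N))) := by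
  choose n hn using hNpow
  have hprod : ∏ i, N i = p ^ (∑ i, n i) := by
    rw [← Finset.prod_pow_eq_pow_sum]; exact Finset.prod_congr rfl fun i _ => hn i
  refine sub_one_mem_jacobson_bot (O := O) hp hpO _ (∑ i, n i) ?_
  rw [MonoidAlgebra.single_pow, one_pow, ← hprod, grp_pow_prod_eq_one, MonoidAlgebra.one_def]

/-- the augmentation `Λ → O` -/
noncomputable def aug : MonoidAlgebra O (Grp N) →ₐ[O] O :=
  MonoidAlgebra.lift O O (Grp N) 1

omit [∀ i, NeZero (N i)] in
theorem aug_single (g : Grp N) (r : O) : aug O N (MonoidAlgebra.single g r) = r := by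
  rw [aug, MonoidAlgebra.lift_single]; simp

theorem sub_aug_mem_jacobson (hp : p.Prime)
    (hpO : (p : O) ∈ Ideal.jacobson (⊥ : Ideal O)) (hNpow : ∀ i, ∃ n, N i = p ^ n)
    (a : MonoidAlgebra O (Grp N)) :
    a - algebraMap O _ (aug O N a) ∈ Ideal.jacobson (⊥ : Ideal (MonoidAlgebra O (Grp N))) := by
  induction a using MonoidAlgebra.induction_on with
  | of g =>
    rw [MonoidAlgebra.of_apply, aug_single, map_one]
    exact single_sub_one_mem_jacobson O N hp hpO hNpow g
  | add x y hx hy =>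
    have : x + y - algebraMap O _ (aug O N (x + y))
        = (x - algebraMap O _ (aug O N x)) + (y - algebraMap O _ (aug O N y)) := by
      rw [map_add, map_add]; abel
    rw [this]
    exact Ideal.add_mem _ hx hy
  | smul r x hx =>
    have : r • x - algebraMap O _ (aug O N (r • x))
        = algebraMap O _ r * (x - algebraMap O _ (aug O N x)) := by
      rw [map_smul, smul_eq_mul, map_mul, Algebra.smul_def]; ring
    rw [this]
    exact Ideal.mul_mem_left _ _ hx

theorem ker_chi_le_jacobson [IsLocalRing O] (hp : p.Prime)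
    (hpO : (p : O) ∈ IsLocalRing.maximalIdeal O) (hNpow : ∀ i, ∃ n, N i = p ^ n) (i : Fin k) :
    RingHom.ker (chi O N p hN i) ≤ Ideal.jacobson ⊥ := by
  have hjac : Ideal.jacobson (⊥ : Ideal O) = IsLocalRing.maximalIdeal O :=
    IsLocalRing.jacobson_eq_maximalIdeal ⊥ bot_ne_top
  have hpO' : (p : O) ∈ Ideal.jacobson (⊥ : Ideal O) := hjac ▸ hpO
  have : Nontrivial (Cyc O p) := cyc_nontrivial hp
  intro a ha
  have hj := sub_aug_mem_jacobson O N hp hpO' hNpow a
  -- `aug a ∈ 𝔪`
  have haug : aug O N a ∈ IsLocalRing.maximalIdeal O := by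
    by_contra hnot
    have hu : IsUnit (aug O N a) := by
      by_contra h; exact hnot ((IsLocalRing.mem_maximalIdeal _).mpr h)
    have hU : IsUnit (algebraMap O (MonoidAlgebra O (Grp N)) (aug O N a)) := hu.map _
    obtain ⟨U, hUeq⟩ := hU
    have ha_unit : IsUnit a := by
      have h1 := (Ideal.mem_jacobson_bot.mp hj) (↑U⁻¹)
      have h2 : a = (U : MonoidAlgebra O (Grp N)) *
          ((a - algebraMap O _ (aug O N a)) * ↑U⁻¹ + 1) := by
        rw [mul_add, mul_one, mul_comm _ (↑U⁻¹ : MonoidAlgebra O (Grp N)), ← mul_assoc,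
          Units.mul_inv, one_mul, hUeq]
        abel
      rw [h2]
      exact U.isUnit.mul h1
    have := ha_unit.map (chi O N p hN i)
    rw [RingHom.mem_ker.mp ha] at this
    exact not_isUnit_zero this
  have h3 : algebraMap O (MonoidAlgebra O (Grp N)) (aug O N a) ∈ Ideal.jacobson ⊥ :=
    algebraMap_mem_jacobson_bot (hjac ▸ haug)
  have : a = (a - algebraMap O _ (aug O N a)) + algebraMap O _ (aug O N a) := by abel
  rw [this]
  exact Ideal.add_mem _ hj h3

/-- `Λ ⧸ ker χ_i` is `O`-torsion-free. -/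
theorem ker_chi_regular' (i : Fin k) (a : O) (ha : ∀ o : O, a * o = 0 → o = 0)
    (l : MonoidAlgebra O (Grp N))
    (h : algebraMap O (MonoidAlgebra O (Grp N)) a * l ∈ RingHom.ker (chi O N p hN i)) :
    l ∈ RingHom.ker (chi O N p hN i) := by
  rw [RingHom.mem_ker] at h ⊢
  rw [map_mul, AlgHom.commutes] at h
  exact cyc_algebraMap_regular a ha _ h

end Char

section Generic2

variable {A : Type*} [CommRing A] {Λ : Type*} [CommRing Λ] [Algebra A Λ]
  {M : Type*} [AddCommGroup M] [Module A M] {d : ℕ}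

/-- the `A`-submodule `γ(J) M` of `M` -/
def actSub (γ : Λ →ₐ[A] Module.End A M) (J : Ideal Λ) : Submodule A M :=
  Submodule.span A {n : M | ∃ l ∈ J, ∃ m' : M, n = γ l m'}

theorem gam_mem_actSub (γ : Λ →ₐ[A] Module.End A M) (J : Ideal Λ) {l : Λ} (hl : l ∈ J) (m : M) :
    γ l m ∈ actSub γ J :=
  Submodule.subset_span ⟨l, hl, m, rfl⟩

/-- `γ(J) M` is stable under every endomorphism commuting with the action. -/
theorem map_mem_actSub (γ : Λ →ₐ[A] Module.End A M) (J : Ideal Λ) (x : Module.End A M)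
    (hx : ∀ l : Λ, Commute x (γ l)) {n : M} (hn : n ∈ actSub γ J) : x n ∈ actSub γ J := by
  refine Submodule.span_induction (p := fun n _ => x n ∈ actSub γ J) ?_ ?_ ?_ ?_ hn
  · rintro _ ⟨l, hl, m', rfl⟩
    have : x (γ l m') = γ l (x m') := congrArg (fun f : Module.End A M => f m') (hx l).eq
    rw [this]
    exact gam_mem_actSub γ J hl _
  · rw [map_zero]; exact Submodule.zero_mem _
  · intro y z _ _ hy hz; rw [map_add]; exact Submodule.add_mem _ hy hz
  · intro a y _ hy; rw [map_smul]; exact Submodule.smul_mem _ _ hy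

/-- **torsion-freeness of `M / γ(J)M`**: if `M` is free over `Λ` (through `γ`) and multiplication
by `a ∈ A` is injective on `Λ ⧸ J`, then `a • n ∈ γ(J)M ⟹ n ∈ γ(J)M`. -/
theorem mem_actSub_of_smul_mem (γ : Λ →ₐ[A] Module.End A M) (e : Fin d → M)
    (hbij : Function.Bijective (actSum γ e)) (J : Ideal Λ) (a : A)
    (ha : ∀ l : Λ, algebraMap A Λ a * l ∈ J → l ∈ J) {n : M} (h : a • n ∈ actSub γ J) :
    n ∈ actSub γ J := by
  classical
  let _ : Module Λ M := Module.compHom M (γ : Λ →+* Module.End A M)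
  have hsmul : ∀ (l : Λ) (m : M), l • m = γ l m := fun _ _ => rfl
  have : IsScalarTower A Λ M := ⟨fun a l m => by
    rw [hsmul, hsmul, map_smul, LinearMap.smul_apply]⟩
  let F : (Fin d → Λ) →ₗ[Λ] M := Fintype.linearCombination Λ e
  have hFbij : Function.Bijective F := by
    have : (F : (Fin d → Λ) → M) = actSum γ e := funext fun v => rfl
    rw [this]; exact hbij
  let bΛ : Module.Basis (Fin d) Λ M :=
    Module.Basis.ofEquivFun (LinearEquiv.ofBijective F hFbij).symm
  have heq : actSub γ J = (J • (⊤ : Submodule Λ M)).restrictScalars A := by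
    refine le_antisymm (Submodule.span_le.mpr ?_) ?_
    · rintro _ ⟨l, hl, m', rfl⟩
      rw [SetLike.mem_coe, Submodule.restrictScalars_mem, ← hsmul]
      exact Submodule.smul_mem_smul hl trivial
    · intro m hm
      rw [Submodule.restrictScalars_mem] at hm
      refine Submodule.smul_induction_on hm (fun l hl m' _ => ?_) (fun y z hy hz => ?_)
      · rw [hsmul]; exact gam_mem_actSub γ J hl m'
      · exact Submodule.add_mem _ hy hz
  rw [heq, Submodule.restrictScalars_mem] at h ⊢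
  refine mem_smul_top_of_smul_mem bΛ J (algebraMap A Λ a) ha ?_
  rw [algebraMap_smul]
  exact h

end Generic2

section Generic

variable {A : Type*} [CommRing A] {Λ : Type*} [CommRing Λ] [Algebra A Λ]
  {M : Type*} [AddCommGroup M] [Module A M] {d : ℕ}

/-- **(UNIT) part 1 in ACTION form** (no `Module Λ M` instance in the statement): `Λ` acts on the
`A`-module `M` through `γ : Λ →ₐ[A] End_A M`, `M` is free over `Λ` on `e` (`actSum γ e` bijective),
`x ∈ End_A M` commutes with the action. -/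
theorem exists_gam_sub_one_eq (γ : Λ →ₐ[A] Module.End A M) (e : Fin d → M)
    (hbij : Function.Bijective (actSum γ e))
    {p : ℕ} (hp : p.Prime) (σ : Λ) (J : Ideal Λ)
    (hJ : J ≤ Ideal.jacobson ⊥) (hΦ : ∑ j ∈ range p, σ ^ j ∈ J)
    (hreg : ∀ a : Λ, (p : Λ) * a ∈ J → a ∈ J)
    (x : Module.End A M) (hx : ∀ l : Λ, Commute x (γ l))
    (h1 : ∀ m : M, ∃ m' : M, x m - m = γ (σ - 1) m')
    (hW : ∀ m : M, (∑ j ∈ range p, x ^ j) m ∈ actSub γ J) :
    ∀ m : M, ∃ m' : M, γ (σ - 1) m = x m' - m' := by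
  classical
  let _ : Module Λ M := Module.compHom M (γ : Λ →+* Module.End A M)
  have hsmul : ∀ (l : Λ) (m : M), l • m = γ l m := fun _ _ => rfl
  have : IsScalarTower A Λ M := ⟨fun a l m => by
    rw [hsmul, hsmul, map_smul, LinearMap.smul_apply]⟩
  let F : (Fin d → Λ) →ₗ[Λ] M := Fintype.linearCombination Λ e
  have hFbij : Function.Bijective F := by
    have : (F : (Fin d → Λ) → M) = actSum γ e := funext fun v => rfl
    rw [this]; exact hbij
  let bΛ : Module.Basis (Fin d) Λ M :=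
    Module.Basis.ofEquivFun (LinearEquiv.ofBijective F hFbij).symm
  let xΛ : Module.End Λ M :=
    { toFun := x
      map_add' := x.map_add
      map_smul' := fun l m => by
        simp only [hsmul, RingHom.id_apply]
        exact congrArg (fun f : Module.End A M => f m) (hx l).eq }
  have hxΛ : ∀ (n : ℕ) (m : M), (xΛ ^ n) m = (x ^ n) m := by
    intro n m
    rw [Module.End.pow_apply, Module.End.pow_apply]; rfl
  have h1' : ∀ m : M, ∃ m' : M, xΛ m - m = (σ - 1) • m' := h1
  have hW' : ∀ m : M, (∑ j ∈ range p, xΛ ^ j) m ∈ J • (⊤ : Submodule Λ M) := fun m => by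
    have hsum : (∑ j ∈ range p, xΛ ^ j) m = (∑ j ∈ range p, x ^ j) m := by
      rw [LinearMap.sum_apply, LinearMap.sum_apply]
      exact sum_congr rfl fun j _ => hxΛ j m
    rw [hsum]
    have hle : actSub γ J ≤ (J • (⊤ : Submodule Λ M)).restrictScalars A := by
      refine Submodule.span_le.mpr ?_
      rintro _ ⟨l, hl, m', rfl⟩
      rw [SetLike.mem_coe, Submodule.restrictScalars_mem, ← hsmul]
      exact Submodule.smul_mem_smul hl trivial
    exact hle (hW m)
  exact exists_smul_eq_sub_of_basis bΛ hp σ J hJ hΦ hreg xΛ h1' hW'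

end Generic

section Main

variable {O : Type*} [CommRing O] {M : Type*} [AddCommGroup M] [Module O M]
  {k : ℕ} (N : Fin k → ℕ) [∀ i, NeZero (N i)]
  (D : Fin k → Module.End O M) (hpow : ∀ i, D i ^ N i = 1) (hcomm : ∀ i j, Commute (D i) (D j))

theorem commute_gam (x : Module.End O M) (hx : ∀ j, Commute x (D j))
    (l : MonoidAlgebra O (Grp N)) : Commute x (gam N D hpow hcomm l) := by
  induction l using MonoidAlgebra.induction_on with
  | of g =>
    rw [MonoidAlgebra.of_apply, gam_single_one, rho_apply]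
    refine Commute.list_prod_right _ _ fun y hy => ?_
    rw [List.mem_ofFn] at hy
    obtain ⟨j, rfl⟩ := hy
    exact (hx j).pow_right _
  | add y z hy hz => rw [map_add]; exact hy.add_right hz
  | smul r y hy => rw [map_smul]; exact hy.smul_right r

/-- the submodule `γ(ker χ_i) M` of `M`: contains `Φ_p(D_i)M + ∑_{j≠i}(D_j-1)M`, is stable under
everything commuting with the diamonds, and `M / unitSub` is `O`-torsion-free (it is
`(O[X]/Φ_p)^d`, with `D_i` acting as `ζ` and `D_j`, `j ≠ i`, trivially). -/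
noncomputable def unitSub (p : ℕ) (hN : ∀ i, p ∣ N i) (i : Fin k) : Submodule O M :=
  actSub (gam N D hpow hcomm) (RingHom.ker (chi O N p hN i))

theorem range_le_unitSub (p : ℕ) [Fact p.Prime] (hN : ∀ i, p ∣ N i) (i : Fin k) :
    LinearMap.range (∑ j ∈ range p, D i ^ j) ⊔
      ⨆ (j : Fin k) (_ : i ≠ j), LinearMap.range (D j - 1) ≤ unitSub N D hpow hcomm p hN i := by
  refine sup_le ?_ (iSup_le fun j => iSup_le fun hj => ?_)
  · rintro _ ⟨m'', rfl⟩
    have : (∑ j ∈ range p, D i ^ j) m''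
        = gam N D hpow hcomm (∑ j ∈ range p, sg N O i ^ j) m'' := by
      rw [map_sum]
      simp only [map_pow, gam_sg]
    rw [this]
    exact gam_mem_actSub _ _ (geom_sum_sg_mem_ker O N p hN i) m''
  · rintro _ ⟨m'', rfl⟩
    have : (D j - 1) m'' = gam N D hpow hcomm (sg N O j - 1) m'' := by
      rw [map_sub, map_one, gam_sg]
    rw [this]
    exact gam_mem_actSub _ _ (sg_sub_one_mem_ker O N p hN i j hj) m''

theorem map_mem_unitSub (p : ℕ) (hN : ∀ i, p ∣ N i) (i : Fin k) (x : Module.End O M)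
    (hx : ∀ j, Commute x (D j)) {n : M} (hn : n ∈ unitSub N D hpow hcomm p hN i) :
    x n ∈ unitSub N D hpow hcomm p hN i :=
  map_mem_actSub _ _ x (commute_gam N D hpow hcomm x hx) hn

/-- `M / unitSub` is `O`-torsion-free. -/
theorem mem_unitSub_of_smul_mem {d : ℕ} (e : Fin d → M)
    (b : Module.Basis ((∀ i : Fin k, Fin (N i)) × Fin d) O M)
    (hb : ∀ a j, b (a, j) = (List.ofFn fun i => D i ^ (a i : ℕ)).prod (e j))
    (p : ℕ) (hN : ∀ i, p ∣ N i) (i : Fin k) (a : O) (ha : ∀ o : O, a * o = 0 → o = 0) {n : M}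
    (h : a • n ∈ unitSub N D hpow hcomm p hN i) : n ∈ unitSub N D hpow hcomm p hN i :=
  mem_actSub_of_smul_mem _ e (bijective_actSum_gam N D hpow hcomm e b hb) _ a
    (ker_chi_regular' O N hN i a ha) h

/-- **(UNIT) part 1 for a Δ_Q-free module in BASIS FORM** (the B3 output shape `FreeLevel`).
`x` commutes with the diamonds, `(x-1)M ⊆ (D_i-1)M` and `Φ_p(x)M ⊆ unitSub i`
⟹  `(D_i-1)M ⊆ (x-1)M`. -/
theorem range_sub_one_le_of_unitSub [IsLocalRing O]
    {d : ℕ} (e : Fin d → M) (b : Module.Basis ((∀ i : Fin k, Fin (N i)) × Fin d) O M)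
    (hb : ∀ a j, b (a, j) = (List.ofFn fun i => D i ^ (a i : ℕ)).prod (e j))
    {p : ℕ} (hp : p.Prime) (hpO : (p : O) ∈ IsLocalRing.maximalIdeal O)
    (hreg : ∀ a : O, (p : O) * a = 0 → a = 0)
    (hNpow : ∀ i, ∃ n, N i = p ^ n) (hN : ∀ i, p ∣ N i)
    (i : Fin k) (x : Module.End O M) (hx : ∀ j, Commute x (D j))
    (h1 : ∀ m : M, ∃ m' : M, x m - m = D i m' - m')
    (hW : ∀ m : M, (∑ j ∈ range p, x ^ j) m ∈ unitSub N D hpow hcomm p hN i) :
    ∀ m : M, ∃ m' : M, D i m - m = x m' - m' := by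
  classical
  have : Fact p.Prime := ⟨hp⟩
  have hσm : ∀ m : M, gam N D hpow hcomm (sg N O i - 1) m = D i m - m := by
    intro m
    rw [map_sub, map_one, LinearMap.sub_apply, gam_sg, Module.End.one_apply]
  have key := exists_gam_sub_one_eq (gam N D hpow hcomm) e
    (bijective_actSum_gam N D hpow hcomm e b hb) hp
    (sg N O i) (RingHom.ker (chi O N p hN i))
    (ker_chi_le_jacobson O N hN hp hpO hNpow i) (geom_sum_sg_mem_ker O N p hN i)
    (ker_chi_regular O N p hN hreg i) x (commute_gam N D hpow hcomm x hx)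
    (fun m => by
      obtain ⟨m', hm'⟩ := h1 m
      exact ⟨m', by rw [hσm]; exact hm'⟩)
    hW
  intro m
  obtain ⟨m', hm'⟩ := key m
  exact ⟨m', by rw [← hσm]; exact hm'⟩

include hpow hcomm in
/-- Same, with the explicit sufficient form of the hypothesis:
`Φ_p(x)M ⊆ Φ_p(D_i)M + ∑_{j≠i}(D_j-1)M`. -/
theorem range_sub_one_le_of_basis [IsLocalRing O]
    {d : ℕ} (e : Fin d → M) (b : Module.Basis ((∀ i : Fin k, Fin (N i)) × Fin d) O M)
    (hb : ∀ a j, b (a, j) = (List.ofFn fun i => D i ^ (a i : ℕ)).prod (e j))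
    {p : ℕ} (hp : p.Prime) (hpO : (p : O) ∈ IsLocalRing.maximalIdeal O)
    (hreg : ∀ a : O, (p : O) * a = 0 → a = 0)
    (hNpow : ∀ i, ∃ n, N i = p ^ n) (hN : ∀ i, p ∣ N i)
    (i : Fin k) (x : Module.End O M) (hx : ∀ j, Commute x (D j))
    (h1 : ∀ m : M, ∃ m' : M, x m - m = D i m' - m')
    (hW : ∀ m : M, (∑ j ∈ range p, x ^ j) m ∈
      LinearMap.range (∑ j ∈ range p, D i ^ j) ⊔
        ⨆ (j : Fin k) (_ : i ≠ j), LinearMap.range (D j - 1)) :
    ∀ m : M, ∃ m' : M, D i m - m = x m' - m' := by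
  have : Fact p.Prime := ⟨hp⟩
  exact range_sub_one_le_of_unitSub N D hpow hcomm e b hb hp hpO hreg hNpow hN i x hx h1
    (fun m => range_le_unitSub N D hpow hcomm p hN i (hW m))

end Main

end Fermat.Agent.GB.Alg.UnitGrp
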