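/-
GATE-B (helper66): **(UNIT) part 1 for helper95's pinned B3 package `FreeLevel`**
(`Fermat/Agent/GB/B3/TWLevel.lean`).  Thin wrapper around `UnitGrp.lean`.

For a Taylor–Wiles level `L : FreeLevel O 𝕋 M0 act0 k N` (diamonds `L.D i` of order `N i = p^{n_i}`,
`n_i ≥ 1`, Δ_Q-freeness as a monomial `O`-basis) and GALOIS-side operators `x i ∈ End_O L.M`
(`x i = ξ'(σ_i)`, the inertial character of the fixed-determinant representation at the `i`-th
Taylor–Wiles prime, an element of the image of `R_Q`), commuting with the diamonds: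

* `(1)_i`  `(x i - 1) M ⊆ (D i - 1) M`   (level-`N` representation unramified at `r_i`: S31), and
* `(W)_i`  `Φ_p(x i) M ⊆ FreeLevel.unitSub i ⊇ Φ_p(D i) M + ∑_{j≠i} (D j - 1) M`
          (non-unipotence at nebentypus of exact order `p`: S36 + (T1)(T2)); the quotient
          `M / unitSub i` is `O`-torsion-free (`FreeLevel.mem_unitSub_of_smul_mem`), so `(W)_i` may be
          checked after `⊗ K̄`, eigenform by eigenform,

imply `(D i - 1) M ⊆ (x i - 1) M` (`FreeLevel.unit_range_sub_one_le`), hence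
`ker π = ∑ (D i - 1) M ⊆ ∑ (x i - 1) M` (`FreeLevel.unit_ker_π_le`): the `d` elements `L.e j` generate `M`
modulo `∑ (x i - 1) M` over `O`, which is the generation clause (`h = d`) of the patching datum.
-/
import Fermat.Agent.GB.Alg.UnitGrp
import Fermat.Agent.GB.B3.TWLevel

set_option autoImplicit false

open Finset

namespace Fermat.Agent.GB.B3.TWLevel

open Fermat.Agent.GB.Alg.UnitGrp

variable {O : Type} [CommRing O] {𝕋 : Type} [CommRing 𝕋] [Algebra O 𝕋]
  {M0 : Type} [AddCommGroup M0] [Module O M0] {act0 : 𝕋 →ₐ[O] Module.End O M0}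
  {k : ℕ} {N : Fin k → ℕ} [∀ i, NeZero (N i)]

namespace FreeLevel

variable (L : FreeLevel O 𝕋 M0 act0 k N)

omit [∀ i, NeZero (N i)] in
theorem unit_D_commute (i j : Fin k) : Commute (L.D i) (L.D j) := L.D_comm i j

omit [∀ i, NeZero (N i)] in
theorem unit_basis_eq (a : ∀ i : Fin k, Fin (N i)) (j : Fin L.d) :
    L.basis (a, j) = (List.ofFn fun i => L.D i ^ (a i : ℕ)).prod (L.e j) :=
  L.basis_eq a j

/-- the submodule `γ(ker χ_i) M ⊇ Φ_p(D_i) M + ∑_{j≠i} (D_j - 1) M` with torsion-free quotient -/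
noncomputable def unitSub (p : ℕ) (hN : ∀ i, p ∣ N i) (i : Fin k) : Submodule O L.M :=
  Fermat.Agent.GB.Alg.UnitGrp.unitSub N L.D L.D_pow L.unit_D_commute p hN i

theorem range_le_unitSub (p : ℕ) [Fact p.Prime] (hN : ∀ i, p ∣ N i) (i : Fin k) :
    LinearMap.range (∑ j ∈ range p, L.D i ^ j) ⊔
      ⨆ (j : Fin k) (_ : i ≠ j), LinearMap.range (L.D j - 1) ≤ L.unitSub p hN i :=
  Fermat.Agent.GB.Alg.UnitGrp.range_le_unitSub N L.D L.D_pow L.unit_D_commute p hN i

theorem map_mem_unitSub (p : ℕ) (hN : ∀ i, p ∣ N i) (i : Fin k) (x : Module.End O L.M)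
    (hx : ∀ j, Commute x (L.D j)) {n : L.M} (hn : n ∈ L.unitSub p hN i) :
    x n ∈ L.unitSub p hN i :=
  Fermat.Agent.GB.Alg.UnitGrp.map_mem_unitSub N L.D L.D_pow L.unit_D_commute p hN i x hx hn

/-- `M / unitSub i` is `O`-torsion-free. -/
theorem mem_unitSub_of_smul_mem (p : ℕ) (hN : ∀ i, p ∣ N i) (i : Fin k) (a : O)
    (ha : ∀ o : O, a * o = 0 → o = 0) {n : L.M} (h : a • n ∈ L.unitSub p hN i) :
    n ∈ L.unitSub p hN i :=
  Fermat.Agent.GB.Alg.UnitGrp.mem_unitSub_of_smul_mem N L.D L.D_pow L.unit_D_commute L.e L.basis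
    L.unit_basis_eq p hN i a ha h

/-- **(UNIT) part 1 for a `FreeLevel`.** -/
theorem unit_range_sub_one_le [IsLocalRing O] {p : ℕ} (hp : p.Prime)
    (hpO : (p : O) ∈ IsLocalRing.maximalIdeal O) (hreg : ∀ a : O, (p : O) * a = 0 → a = 0)
    (hNpow : ∀ i, ∃ n, N i = p ^ n) (hN : ∀ i, p ∣ N i)
    (i : Fin k) (x : Module.End O L.M) (hx : ∀ j, Commute x (L.D j))
    (h1 : ∀ m : L.M, ∃ m' : L.M, x m - m = L.D i m' - m')
    (hW : ∀ m : L.M, (∑ j ∈ range p, x ^ j) m ∈ L.unitSub p hN i) :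
    ∀ m : L.M, ∃ m' : L.M, L.D i m - m = x m' - m' :=
  range_sub_one_le_of_unitSub N L.D L.D_pow L.unit_D_commute L.e L.basis L.unit_basis_eq hp hpO hreg
    hNpow hN i x hx h1 hW

/-- **`ker π ⊆ ∑ (x i - 1) M`**: the Galois-side augmentation ideal contains the diamond one. -/
theorem unit_ker_π_le [IsLocalRing O] {p : ℕ} (hp : p.Prime)
    (hpO : (p : O) ∈ IsLocalRing.maximalIdeal O) (hreg : ∀ a : O, (p : O) * a = 0 → a = 0)
    (hNpow : ∀ i, ∃ n, N i = p ^ n) (hN : ∀ i, p ∣ N i)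
    (x : Fin k → Module.End O L.M) (hx : ∀ i j, Commute (x i) (L.D j))
    (h1 : ∀ i, ∀ m : L.M, ∃ m' : L.M, x i m - m = L.D i m' - m')
    (hW : ∀ i, ∀ m : L.M, (∑ j ∈ range p, x i ^ j) m ∈ L.unitSub p hN i)
    {m : L.M} (hm : L.π m = 0) : m ∈ ⨆ i, LinearMap.range (x i - 1) := by
  have h := (L.ker_π m).mp hm
  have hle : ⨆ i, LinearMap.range (L.D i - 1) ≤ ⨆ i, LinearMap.range (x i - 1) := by
    refine iSup_le fun i => ?_
    rintro _ ⟨n, rfl⟩
    obtain ⟨m', hm'⟩ := L.unit_range_sub_one_le hp hpO hreg hNpow hN i (x i) (hx i) (h1 i) (hW i) n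
    refine Submodule.mem_iSup_of_mem i ⟨m', ?_⟩
    rw [LinearMap.sub_apply, LinearMap.sub_apply, Module.End.one_apply, Module.End.one_apply, hm']
  exact hle h

/-- **generation modulo the Galois augmentation**: every `m` is an `O`-combination of the `e j`
modulo `∑ (x i - 1) M`. -/
theorem unit_exists_sum_smul_e_sub_mem [IsLocalRing O] {p : ℕ} (hp : p.Prime)
    (hpO : (p : O) ∈ IsLocalRing.maximalIdeal O) (hreg : ∀ a : O, (p : O) * a = 0 → a = 0)
    (hNpow : ∀ i, ∃ n, N i = p ^ n) (hN : ∀ i, p ∣ N i)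
    (x : Fin k → Module.End O L.M) (hx : ∀ i j, Commute (x i) (L.D j))
    (h1 : ∀ i, ∀ m : L.M, ∃ m' : L.M, x i m - m = L.D i m' - m')
    (hW : ∀ i, ∀ m : L.M, (∑ j ∈ range p, x i ^ j) m ∈ L.unitSub p hN i) (m : L.M) :
    ∃ c : Fin L.d → O, m - ∑ j, c j • L.e j ∈ ⨆ i, LinearMap.range (x i - 1) := by
  refine ⟨fun j => L.basis0.repr (L.π m) j, ?_⟩
  refine L.unit_ker_π_le hp hpO hreg hNpow hN x hx h1 hW ?_
  rw [map_sub, map_sum, sub_eq_zero]
  conv_lhs => rw [← L.basis0.sum_repr (L.π m)]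
  refine sum_congr rfl fun j _ => ?_
  rw [map_smul, L.basis0_eq]

end FreeLevel

end Fermat.Agent.GB.B3.TWLevel
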