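/-
GATE-B / GRAPH v2 L7, **(1pt)-LOCAL** (helper66; GO = helper53 5980).

Consumer: `GB/Alg/UnitPoints.unit_field_of_diamonds` (P5), input `(1pt)`:
at a point `θ : T_Q → Ω` with trivial nebentypus at the Taylor–Wiles prime `r`, `θ (x) = 1`,
where `x = χ₁ (s)`, `s` an inertia element at `r`, and `ρ_Q|D_P = χ₀ ⊕ χ₁` in a basis `B`
(`GB/E2/TWChars.exists_characters_of_unr`, helper91).

LOCAL HALF (this file, Mathlib + the frozen `GaloisRepAdic` only): a *diagonal* endomorphism whose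
characteristic polynomial becomes `(X - 1)²` at the point `θ` (`Ω` reduced) has `θ (cᵢ) = 1`.
Equivalently (trace/determinant form, for a trace-comparison supply): `θ (tr g) = 2`,
`θ (det g) = 1`.

* `toMatrix_of_diag`, `charpoly_of_diag`, `trace_of_diag`, `det_of_diag` : bookkeeping;
* `eq_one_of_map_charpoly`, `eq_one_of_trace_det` : abstract statements;
* `chi_point_eq_one`, `chi_point_eq_one_of_trace_det` : in the exact shape of the `TWChars` output;
* `chi_eq_one_of_isUnipotentOnInertiaAt_baseChangeAlong` : from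
  `(ρ.baseChangeAlong θ hθ).IsUnipotentOnInertiaAt r` (S34 pushed to the point);
* `chi_eq_one_of_isUnipotentOnInertiaAt` : `θ = id` (`A` itself reduced).
-/
import Mathlib
import Fermat.Prelude.Def_GaloisRep_LocalConditions

set_option autoImplicit false
set_option linter.unusedSectionVars false

namespace Fermat.Agent.GB.Alg.UnitLocal

open Polynomial

section Abstract

variable {A : Type*} [CommRing A] {V : Type*} [AddCommGroup V] [Module A V]
  [Module.Free A V] [Module.Finite A V]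

/-- The matrix of an endomorphism which is diagonal in the basis `B`. -/
theorem toMatrix_of_diag (B : Module.Basis (Fin 2) A V) (g : V →ₗ[A] V) (c : Fin 2 → A)
    (hg : ∀ i, g (B i) = c i • B i) : LinearMap.toMatrix B B g = Matrix.diagonal c := by
  ext i j
  rw [LinearMap.toMatrix_apply, hg, map_smul, Finsupp.smul_apply, Module.Basis.repr_self,
    Matrix.diagonal_apply, Finsupp.single_apply, smul_eq_mul]
  by_cases h : i = j
  · subst h; simp
  · have h' : ¬ j = i := fun e => h e.symm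
    simp [h, h']

theorem charpoly_of_diag (B : Module.Basis (Fin 2) A V) (g : V →ₗ[A] V) (c : Fin 2 → A)
    (hg : ∀ i, g (B i) = c i • B i) :
    LinearMap.charpoly g = (X - C (c 0)) * (X - C (c 1)) := by
  rw [← LinearMap.charpoly_toMatrix g B, toMatrix_of_diag B g c hg, Matrix.charpoly,
    Matrix.charmatrix, Matrix.det_fin_two]
  simp

theorem trace_of_diag (B : Module.Basis (Fin 2) A V) (g : V →ₗ[A] V) (c : Fin 2 → A)
    (hg : ∀ i, g (B i) = c i • B i) : LinearMap.trace A V g = c 0 + c 1 := by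
  rw [LinearMap.trace_eq_matrix_trace A B, toMatrix_of_diag B g c hg, Matrix.trace_fin_two]
  simp

theorem det_of_diag (B : Module.Basis (Fin 2) A V) (g : V →ₗ[A] V) (c : Fin 2 → A)
    (hg : ∀ i, g (B i) = c i • B i) : LinearMap.det g = c 0 * c 1 := by
  rw [← LinearMap.det_toMatrix B, toMatrix_of_diag B g c hg, Matrix.det_fin_two]
  simp

variable {Ω : Type*} [CommRing Ω] [IsReduced Ω]

/-- `(X - a)(X - b) = (X - 1)²` in a reduced ring forces `a = b = 1`. -/
theorem eq_one_of_mul_eq_sq {a b : Ω}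
    (h : ((X : Polynomial Ω) - C a) * (X - C b) = (X - 1) ^ 2) : a = 1 ∧ b = 1 := by
  have ha := congrArg (Polynomial.eval a) h
  have hb := congrArg (Polynomial.eval b) h
  simp only [eval_mul, eval_sub, eval_X, eval_C, sub_self, zero_mul, mul_zero, eval_pow,
    eval_one] at ha hb
  exact ⟨sub_eq_zero.mp (IsReduced.eq_zero _ ⟨2, ha.symm⟩),
    sub_eq_zero.mp (IsReduced.eq_zero _ ⟨2, hb.symm⟩)⟩

/-- **(1pt)-LOCAL, characteristic polynomial form.** -/
theorem eq_one_of_map_charpoly (θ : A →+* Ω) (B : Module.Basis (Fin 2) A V) (g : V →ₗ[A] V)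
    (c : Fin 2 → A) (hg : ∀ i, g (B i) = c i • B i)
    (hu : (LinearMap.charpoly g).map θ = ((X : Polynomial Ω) - 1) ^ 2) (i : Fin 2) :
    θ (c i) = 1 := by
  rw [charpoly_of_diag B g c hg, Polynomial.map_mul, Polynomial.map_sub, Polynomial.map_sub,
    Polynomial.map_X, Polynomial.map_C, Polynomial.map_C] at hu
  obtain ⟨h0, h1⟩ := eq_one_of_mul_eq_sq hu
  fin_cases i
  · exact h0
  · exact h1

/-- **(1pt)-LOCAL, trace/determinant form.** -/
theorem eq_one_of_trace_det (θ : A →+* Ω) (B : Module.Basis (Fin 2) A V) (g : V →ₗ[A] V)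
    (c : Fin 2 → A) (hg : ∀ i, g (B i) = c i • B i)
    (htr : θ (LinearMap.trace A V g) = 2) (hdet : θ (LinearMap.det g) = 1) (i : Fin 2) :
    θ (c i) = 1 := by
  rw [trace_of_diag B g c hg, map_add] at htr
  rw [det_of_diag B g c hg, map_mul] at hdet
  have h0 : (θ (c 0) - 1) ^ 2 = 0 := by
    have e : θ (c 1) = 2 - θ (c 0) := by rw [← htr]; ring
    rw [e] at hdet
    linear_combination (-1 : Ω) * hdet
  have h0' : θ (c 0) = 1 := sub_eq_zero.mp (IsReduced.eq_zero _ ⟨2, h0⟩)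
  fin_cases i
  · exact h0'
  · show θ (c 1) = 1
    rw [h0'] at htr
    linear_combination htr

end Abstract

section Galois

local notation "GQ" => AlgebraicClosure ℚ ≃ₐ[ℚ] AlgebraicClosure ℚ

variable {A : Type} [CommRing A] [IsLocalRing A]

/-- **(1pt)-LOCAL in the shape of `GB/E2/TWChars.exists_characters_of_unr`.** If `ρ|D_P = χ₀ ⊕ χ₁`
in the basis `B` and the characteristic polynomial of `ρ s` becomes `(X - 1)²` at the point `θ`,
then `θ (χᵢ s) = 1`. -/
theorem chi_point_eq_one (ρ : GaloisRepAdic A) (P : ValuationSubring (AlgebraicClosure ℚ))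
    (B : Module.Basis (Fin 2) A ρ.V) (χ : Fin 2 → P.decompositionSubgroup ℚ →* Aˣ)
    (hχ : ∀ (i : Fin 2) (σ : P.decompositionSubgroup ℚ),
      ρ.ρ (σ : GQ) (B i) = (χ i σ : A) • B i)
    {Ω : Type*} [CommRing Ω] [IsReduced Ω] (θ : A →+* Ω) (s : P.decompositionSubgroup ℚ)
    (hu : (LinearMap.charpoly (ρ.ρ (s : GQ))).map θ = ((X : Polynomial Ω) - 1) ^ 2) (i : Fin 2) :
    θ (χ i s : A) = 1 :=
  eq_one_of_map_charpoly θ B (ρ.ρ (s : GQ)) (fun i => (χ i s : A)) (fun i => hχ i s) hu i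

/-- Trace/determinant form (for a supply by trace comparison + `det = cyclotomic`). -/
theorem chi_point_eq_one_of_trace_det (ρ : GaloisRepAdic A)
    (P : ValuationSubring (AlgebraicClosure ℚ))
    (B : Module.Basis (Fin 2) A ρ.V) (χ : Fin 2 → P.decompositionSubgroup ℚ →* Aˣ)
    (hχ : ∀ (i : Fin 2) (σ : P.decompositionSubgroup ℚ),
      ρ.ρ (σ : GQ) (B i) = (χ i σ : A) • B i)
    {Ω : Type*} [CommRing Ω] [IsReduced Ω] (θ : A →+* Ω) (s : P.decompositionSubgroup ℚ)
    (htr : θ (ρ.trace (s : GQ)) = 2) (hdet : θ (LinearMap.det (ρ.ρ (s : GQ))) = 1) (i : Fin 2) :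
    θ (χ i s : A) = 1 :=
  eq_one_of_trace_det θ B (ρ.ρ (s : GQ)) (fun i => (χ i s : A)) (fun i => hχ i s) htr hdet i

/-- From **unipotent inertia of the pushed representation** `ρ ⊗_θ B'` (S34 at the point):
`θ (χᵢ s) = 1` for every inertia element `s` at `P ∣ r`. -/
theorem chi_eq_one_of_isUnipotentOnInertiaAt_baseChangeAlong (ρ : GaloisRepAdic A)
    (P : ValuationSubring (AlgebraicClosure ℚ))
    (B : Module.Basis (Fin 2) A ρ.V) (χ : Fin 2 → P.decompositionSubgroup ℚ →* Aˣ)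
    (hχ : ∀ (i : Fin 2) (σ : P.decompositionSubgroup ℚ),
      ρ.ρ (σ : GQ) (B i) = (χ i σ : A) • B i)
    {B' : Type} [CommRing B'] [IsLocalRing B'] [IsReduced B'] (θ : A →+* B') (hθ : IsLocalHom θ)
    {r : ℕ} (hP : P.LiesOverPrime r) (hu : (ρ.baseChangeAlong θ hθ).IsUnipotentOnInertiaAt r)
    (s : GQ) (hs : s ∈ P.inertiaSubgroupIn ℚ) (hsD : s ∈ P.decompositionSubgroup ℚ) (i : Fin 2) :
    θ (χ i ⟨s, hsD⟩ : A) = 1 := by
  refine chi_point_eq_one ρ P B χ hχ θ ⟨s, hsD⟩ ?_ i
  have h := hu P hP s hs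
  have e : LinearMap.charpoly ((ρ.baseChangeAlong θ hθ).ρ s) =
      (LinearMap.charpoly (ρ.ρ s)).map θ := by
    let _ : Algebra A B' := θ.toAlgebra
    exact LinearMap.charpoly_baseChange (ρ.ρ s) B'
  rw [← e]
  exact h

/-- `θ = id`: over a reduced `A`, unipotent inertia + diagonal ⟹ `χᵢ` trivial on inertia. -/
theorem chi_eq_one_of_isUnipotentOnInertiaAt [IsReduced A] (ρ : GaloisRepAdic A)
    (P : ValuationSubring (AlgebraicClosure ℚ))
    (B : Module.Basis (Fin 2) A ρ.V) (χ : Fin 2 → P.decompositionSubgroup ℚ →* Aˣ)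
    (hχ : ∀ (i : Fin 2) (σ : P.decompositionSubgroup ℚ),
      ρ.ρ (σ : GQ) (B i) = (χ i σ : A) • B i)
    {r : ℕ} (hP : P.LiesOverPrime r) (hu : ρ.IsUnipotentOnInertiaAt r)
    (s : GQ) (hs : s ∈ P.inertiaSubgroupIn ℚ) (hsD : s ∈ P.decompositionSubgroup ℚ) (i : Fin 2) :
    (χ i ⟨s, hsD⟩ : A) = 1 := by
  have h := chi_point_eq_one ρ P B χ hχ (RingHom.id A) ⟨s, hsD⟩
    (by rw [Polynomial.map_id]; exact hu P hP s hs) i
  simpa using h

end Galois

end Fermat.Agent.GB.Alg.UnitLocal
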