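/-
GATE-B / (P5) of GRAPH v2 (helper66): **the `unit₁`, `unit₂` fields of helper55's `TWInput`
(`GB/B9/ModOfTW.lean`) from POINTWISE statements about eigensystems.**

`L : FreeLevel O 𝕋 M0 act0 k N` (helper95), `T` a commutative `O`-algebra acting on `L.M` through
`a : T →ₐ[O] End_O L.M` commuting with the diamonds, `x i ∈ T` the Galois diamonds.

* `unit_field` : the plug — `(1)_i` + `(W)_i` for `a (x i)` ⟹ the field
  `∀ i m, ∃ m', L.D i m - m = a (x i) m' - m'` (VERBATIM the shape of `TWInput.unit₁/unit₂`).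
* `mem_range_sub_one_of_smul_mem` : `M / (D_i - 1) M` is `O`-torsion-free (it is `O[Δ/⟨σ_i⟩]^d`).
* `quotAct`, `act_mem_of_points` : for a `T`-stable submodule `W` with `M / W` torsion-free, `T`
  reduced and integral over the domain `O`: `a t M ⊆ W` as soon as `θ t = 0` for every point
  `θ : T →ₐ[O] Ω` OCCURRING in `M / W` (i.e. killing every `r` with `a r M ⊆ W`).
* `h1_of_points`, `hW_of_points` : `(1)_i`, `(W)_i` from points.
* **`unit_field_of_points`** : the field from the two pointwise statements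
    `θ` occurs in `M/(D_i-1)M`  ⟹ `θ (x i) = 1`,
    `θ` occurs in `M/unitSub_i` ⟹ `∑_{j<p} θ (x i)^j = 0`.
* **`unit_field_of_diamonds`** : the same when the diamonds are in `T` (`a (δ i) = L.D i`):
    `θ (δ i) = 1 ⟹ θ (x i) = 1`  and
    `Φ_p(θ (δ i)) = 0 ∧ (∀ j ≠ i, θ (δ j) = 1) ⟹ Φ_p(θ (x i)) = 0`
  — "trivial nebentypus at `r_i` ⟹ unramified at `r_i`" (S34 + distinct Frobenius eigenvalues)
  and "nebentypus of exact order `p` at `r_i` ⟹ inertial character of exact order `p`" (B5 `(W_p)`).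
-/
import Fermat.Agent.GB.Alg.UnitLevel
import Fermat.Agent.GB.Alg.Points

set_option autoImplicit false

open Finset

namespace Fermat.Agent.GB.Alg.UnitPoints

open Fermat.Agent.GB.Alg.UnitGrp Fermat.Agent.GB.Alg Fermat.Agent.GB.B3.TWLevel

/-! ### the quotient `Δ → Δ/⟨σ_i⟩` on group algebras -/

section Kill

variable (O : Type*) [CommRing O] {k : ℕ} (N : Fin k → ℕ) [∀ i, NeZero (N i)]

/-- forget the `i`-th coordinate of `Δ = ∏ ℤ/N i` -/
def killGrp (i : Fin k) : Grp N →* Grp N where
  toFun g := Function.update g i 1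
  map_one' := by
    funext j
    by_cases h : j = i
    · subst h; simp
    · simp [Function.update_of_ne h]
  map_mul' g h := by
    funext j
    by_cases hj : j = i
    · subst hj; simp
    · simp [Function.update_of_ne hj]

/-- the endomorphism of `Λ = O[Δ]` induced by `killGrp` (`σ_i ↦ 1`) -/
noncomputable def kill (i : Fin k) : MonoidAlgebra O (Grp N) →ₐ[O] MonoidAlgebra O (Grp N) :=
  MonoidAlgebra.lift O (MonoidAlgebra O (Grp N)) (Grp N)
    ((MonoidAlgebra.of O (Grp N)).comp (killGrp N i))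

omit [∀ i, NeZero (N i)] in
theorem kill_single (i : Fin k) (g : Grp N) (r : O) :
    kill O N i (MonoidAlgebra.single g r) = MonoidAlgebra.single (Function.update g i 1) r := by
  rw [kill, MonoidAlgebra.lift_single, MonoidHom.comp_apply, MonoidAlgebra.of_apply,
    MonoidAlgebra.smul_single, smul_eq_mul, mul_one]
  rfl

omit [∀ i, NeZero (N i)] in
theorem kill_sg_self (i : Fin k) : kill O N i (sg N O i) = 1 := by
  rw [sg, kill_single, MonoidAlgebra.one_def]
  congr 1
  funext j
  by_cases h : j = i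
  · subst h; simp
  · simp [Function.update_of_ne h, Pi.mulSingle_eq_of_ne h]

omit [∀ i, NeZero (N i)] in
/-- `single (σ_i^a) - 1 ∈ (σ_i - 1)` -/
theorem single_mulSingle_sub_one_mem (i : Fin k) (a : ℕ) :
    MonoidAlgebra.single (Pi.mulSingle i (Multiplicative.ofAdd (a : ZMod (N i))) : Grp N) (1 : O)
      - 1 ∈ Ideal.span {sg N O i - 1} := by
  induction a with
  | zero =>
    rw [Nat.cast_zero, ofAdd_zero, Pi.mulSingle_one, ← MonoidAlgebra.one_def, sub_self]
    exact Ideal.zero_mem _
  | succ a ih =>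
    have h1 : (Pi.mulSingle i (Multiplicative.ofAdd ((a + 1 : ℕ) : ZMod (N i))) : Grp N)
        = Pi.mulSingle i (Multiplicative.ofAdd (a : ZMod (N i))) *
          Pi.mulSingle i (Multiplicative.ofAdd (1 : ZMod (N i))) := by
      rw [← Pi.mulSingle_mul, ← ofAdd_add, Nat.cast_succ]
    have h2 : MonoidAlgebra.single
        (Pi.mulSingle i (Multiplicative.ofAdd ((a + 1 : ℕ) : ZMod (N i))) : Grp N) (1 : O)
        = MonoidAlgebra.single (Pi.mulSingle i (Multiplicative.ofAdd (a : ZMod (N i))) : Grp N) 1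
          * sg N O i := by
      rw [h1, sg, MonoidAlgebra.single_mul_single, mul_one]
    rw [h2]
    have h3 : MonoidAlgebra.single
          (Pi.mulSingle i (Multiplicative.ofAdd (a : ZMod (N i))) : Grp N) (1 : O) * sg N O i - 1
        = MonoidAlgebra.single (Pi.mulSingle i (Multiplicative.ofAdd (a : ZMod (N i))) : Grp N) 1
            * (sg N O i - 1)
          + (MonoidAlgebra.single
              (Pi.mulSingle i (Multiplicative.ofAdd (a : ZMod (N i))) : Grp N) 1 - 1) := by
      ring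
    rw [h3]
    exact Ideal.add_mem _ (Ideal.mul_mem_left _ _ (Ideal.subset_span rfl)) ih

/-- `l - kill l ∈ (σ_i - 1)` -/
theorem sub_kill_mem (i : Fin k) (l : MonoidAlgebra O (Grp N)) :
    l - kill O N i l ∈ Ideal.span {sg N O i - 1} := by
  induction l using MonoidAlgebra.induction_on with
  | of g =>
    rw [MonoidAlgebra.of_apply, kill_single]
    have hg : g = Function.update g i 1 * Pi.mulSingle i (g i) := by
      funext j
      by_cases h : j = i
      · subst h; simp
      · simp [Function.update_of_ne h, Pi.mulSingle_eq_of_ne h]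
    have hgi : g i = Multiplicative.ofAdd (((Multiplicative.toAdd (g i)).val : ℕ) : ZMod (N i)) := by
      rw [ZMod.natCast_zmod_val, ofAdd_toAdd]
    have h1 : MonoidAlgebra.single g (1 : O)
        = MonoidAlgebra.single (Function.update g i 1) 1 *
          MonoidAlgebra.single (Pi.mulSingle i (g i) : Grp N) 1 := by
      rw [MonoidAlgebra.single_mul_single, mul_one, ← hg]
    have h2 : MonoidAlgebra.single g (1 : O) - MonoidAlgebra.single (Function.update g i 1) 1
        = MonoidAlgebra.single (Function.update g i 1) 1 *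
          (MonoidAlgebra.single (Pi.mulSingle i (g i) : Grp N) 1 - 1) := by
      rw [mul_sub, mul_one, ← h1]
    rw [h2]
    refine Ideal.mul_mem_left _ _ ?_
    rw [hgi]
    exact single_mulSingle_sub_one_mem O N i _
  | add y z hy hz =>
    have : y + z - kill O N i (y + z) = (y - kill O N i y) + (z - kill O N i z) := by
      rw [map_add]; ring
    rw [this]; exact Ideal.add_mem _ hy hz
  | smul r y hy =>
    have : r • y - kill O N i (r • y) = r • (y - kill O N i y) := by
      rw [map_smul, smul_sub]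
    rw [this, ← algebraMap_smul (MonoidAlgebra O (Grp N)) r, smul_eq_mul]
    exact Ideal.mul_mem_left _ _ hy

theorem ker_kill (i : Fin k) :
    RingHom.ker (kill O N i : MonoidAlgebra O (Grp N) →+* MonoidAlgebra O (Grp N))
      = Ideal.span {sg N O i - 1} := by
  refine le_antisymm (fun l hl => ?_) ?_
  · have h := sub_kill_mem O N i l
    rw [RingHom.mem_ker] at hl
    have hl' : kill O N i l = 0 := hl
    rwa [hl', sub_zero] at h
  · rw [Ideal.span_le]
    intro l hl
    rw [Set.mem_singleton_iff] at hl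
    subst hl
    rw [SetLike.mem_coe, RingHom.mem_ker]
    show kill O N i (sg N O i - 1) = 0
    rw [map_sub, map_one, kill_sg_self, sub_self]

omit [∀ i, NeZero (N i)] in
/-- `O`-regular scalars are regular on `Λ`. -/
theorem smul_eq_zero_of_regular (a : O) (ha : ∀ o : O, a * o = 0 → o = 0)
    (y : MonoidAlgebra O (Grp N)) (h : a • y = 0) : y = 0 := by
  apply MonoidAlgebra.ext
  have h1 : (a • y).coeff = a • y.coeff := MonoidAlgebra.coeff_smul a y
  rw [h] at h1
  ext g
  have h2 : ((0 : MonoidAlgebra O (Grp N)).coeff) g = (a • y.coeff) g := by rw [h1]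
  have h3 : ((0 : MonoidAlgebra O (Grp N)).coeff) g = 0 := by
    have : (0 : MonoidAlgebra O (Grp N)).coeff = 0 := map_zero (MonoidAlgebra.coeffLinearEquiv O)
    rw [this]; rfl
  rw [h3, Finsupp.smul_apply, smul_eq_mul] at h2
  have h4 : ((0 : MonoidAlgebra O (Grp N)).coeff) g = 0 := h3
  rw [h4]
  exact ha _ h2.symm

theorem ker_kill_regular (i : Fin k) (a : O) (ha : ∀ o : O, a * o = 0 → o = 0)
    (l : MonoidAlgebra O (Grp N))
    (h : algebraMap O (MonoidAlgebra O (Grp N)) a * l ∈ Ideal.span {sg N O i - 1}) :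
    l ∈ Ideal.span {sg N O i - 1} := by
  rw [← ker_kill, RingHom.mem_ker] at h ⊢
  have h' : kill O N i (algebraMap O (MonoidAlgebra O (Grp N)) a * l) = 0 := h
  rw [map_mul, AlgHom.commutes, ← Algebra.smul_def] at h'
  exact smul_eq_zero_of_regular O N a ha _ h'

end Kill

/-! ### `M / (D_i - 1) M` is torsion-free -/

section RangeSubOne

variable {O : Type*} [CommRing O] {M : Type*} [AddCommGroup M] [Module O M]
  {k : ℕ} (N : Fin k → ℕ) [∀ i, NeZero (N i)]
  (D : Fin k → Module.End O M) (hpow : ∀ i, D i ^ N i = 1) (hcomm : ∀ i j, Commute (D i) (D j))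

theorem actSub_span_sg_sub_one (i : Fin k) :
    actSub (gam N D hpow hcomm) (Ideal.span {sg N O i - 1}) = LinearMap.range (D i - 1) := by
  have hσ : gam N D hpow hcomm (sg N O i - 1) = D i - 1 := by
    rw [map_sub, map_one, gam_sg]
  refine le_antisymm (Submodule.span_le.mpr ?_) ?_
  · rintro _ ⟨l, hl, m', rfl⟩
    obtain ⟨c, rfl⟩ := Ideal.mem_span_singleton'.mp hl
    have e1 : c * (sg N O i - 1) = (sg N O i - 1) * c := mul_comm _ _
    rw [e1, map_mul, hσ]
    exact ⟨gam N D hpow hcomm c m', rfl⟩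
  · rintro _ ⟨m', rfl⟩
    have hmem : sg N O i - 1 ∈ Ideal.span {sg N O i - 1} :=
      Ideal.subset_span (Set.mem_singleton _)
    have := gam_mem_actSub (gam N D hpow hcomm) _ hmem m'
    rwa [hσ] at this

include hpow hcomm in
/-- **`M / (D_i - 1) M` is `O`-torsion-free** for a `Δ`-free module in basis form. -/
theorem mem_range_sub_one_of_smul_mem {d : ℕ} (e : Fin d → M)
    (b : Module.Basis ((∀ i : Fin k, Fin (N i)) × Fin d) O M)
    (hb : ∀ a j, b (a, j) = (List.ofFn fun i => D i ^ (a i : ℕ)).prod (e j))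
    (i : Fin k) (a : O) (ha : ∀ o : O, a * o = 0 → o = 0) {n : M}
    (h : a • n ∈ LinearMap.range (D i - 1)) : n ∈ LinearMap.range (D i - 1) := by
  rw [← actSub_span_sg_sub_one N D hpow hcomm i] at h ⊢
  exact mem_actSub_of_smul_mem _ e (bijective_actSum_gam N D hpow hcomm e b hb) _ a
    (ker_kill_regular O N i a ha) h

end RangeSubOne

/-! ### pointwise ⟹ identity on a quotient module -/

section Quot

variable {O : Type*} [CommRing O] {T : Type*} [CommRing T] [Algebra O T]
  {M : Type*} [AddCommGroup M] [Module O M]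

/-- the action induced on `M ⧸ W` for a stable submodule `W` -/
noncomputable def quotAct (a : T →ₐ[O] Module.End O M) (W : Submodule O M)
    (hW : ∀ t, ∀ m ∈ W, a t m ∈ W) : T →ₐ[O] Module.End O (M ⧸ W) where
  toFun t := W.mapQ W (a t) (fun m hm => hW t m hm)
  map_one' := by
    ext m
    simp
  map_mul' s t := by
    ext m
    simp [map_mul]
  map_zero' := by
    ext m
    simp
  map_add' s t := by
    ext m
    simp [map_add]
  commutes' c := by
    ext m
    simp [AlgHom.commutes, Module.algebraMap_end_apply]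

theorem quotAct_mk (a : T →ₐ[O] Module.End O M) (W : Submodule O M)
    (hW : ∀ t, ∀ m ∈ W, a t m ∈ W) (t : T) (m : M) :
    quotAct a W hW t (Submodule.Quotient.mk m) = Submodule.Quotient.mk (a t m) := rfl

theorem quotAct_eq_zero_iff (a : T →ₐ[O] Module.End O M) (W : Submodule O M)
    (hW : ∀ t, ∀ m ∈ W, a t m ∈ W) (t : T) :
    quotAct a W hW t = 0 ↔ ∀ m, a t m ∈ W := by
  constructor
  · intro h m
    have := congrArg (fun f : Module.End O (M ⧸ W) => f (Submodule.Quotient.mk m)) h
    simp only [quotAct_mk, LinearMap.zero_apply] at this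
    exact (Submodule.Quotient.mk_eq_zero W).mp this
  · intro h
    ext m
    simp only [LinearMap.zero_comp, LinearMap.comp_apply, Submodule.mkQ_apply,
      LinearMap.zero_apply]
    rw [quotAct_mk]
    exact (Submodule.Quotient.mk_eq_zero W).mpr (h m)

/-- torsion-freeness of `M ⧸ W` from the membership form -/
theorem isTorsionFree_quotient (W : Submodule O M)
    (htf : ∀ a : O, (∀ o : O, a * o = 0 → o = 0) → ∀ n : M, a • n ∈ W → n ∈ W) :
    Module.IsTorsionFree O (M ⧸ W) where
  isSMulRegular r hr := by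
    intro q₁ q₂ h
    have h0 : r • (q₁ - q₂) = 0 := by
      have h' : r • q₁ = r • q₂ := h
      rw [smul_sub, h', sub_self]
    obtain ⟨n, hn⟩ := Submodule.Quotient.mk_surjective W (q₁ - q₂)
    rw [← hn, ← Submodule.Quotient.mk_smul, Submodule.Quotient.mk_eq_zero] at h0
    have hreg : ∀ o : O, r * o = 0 → o = 0 := fun o ho =>
      hr.left (show r * o = r * 0 by rw [ho, mul_zero])
    have := htf r hreg n h0
    rw [← sub_eq_zero, ← hn]
    exact (Submodule.Quotient.mk_eq_zero W).mpr this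

variable [IsDomain O] [IsReduced T] [Algebra.IsIntegral O T]

/-- **pointwise ⟹ `a t M ⊆ W`**: `θ t = 0` at all points `θ` occurring in `M ⧸ W`. -/
theorem act_mem_of_points (Ω : Type*) [Field Ω] [IsAlgClosed Ω] [Algebra O Ω]
    [Module.IsTorsionFree O Ω] (a : T →ₐ[O] Module.End O M) (W : Submodule O M)
    (hW : ∀ t, ∀ m ∈ W, a t m ∈ W)
    (htf : ∀ c : O, (∀ o : O, c * o = 0 → o = 0) → ∀ n : M, c • n ∈ W → n ∈ W) (t : T)
    (hpt : ∀ θ : T →ₐ[O] Ω, (∀ r : T, (∀ m, a r m ∈ W) → θ r = 0) → θ t = 0) :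
    ∀ m, a t m ∈ W := by
  have : Module.IsTorsionFree O (M ⧸ W) := isTorsionFree_quotient W htf
  rw [← quotAct_eq_zero_iff a W hW t]
  refine Points.act_eq_zero_of_forall_algHom O Ω (quotAct a W hW) t fun θ hθ => hpt θ fun r hr => ?_
  exact hθ r ((quotAct_eq_zero_iff a W hW r).mpr hr)

end Quot

/-! ### the `unit` fields for a `FreeLevel` -/

section Level

variable {O : Type} [CommRing O] {𝕋 : Type} [CommRing 𝕋] [Algebra O 𝕋]
  {M0 : Type} [AddCommGroup M0] [Module O M0] {act0 : 𝕋 →ₐ[O] Module.End O M0}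
  {k : ℕ} {N : Fin k → ℕ} [∀ i, NeZero (N i)]
  (L : FreeLevel O 𝕋 M0 act0 k N)
  {T : Type*} [CommRing T] [Algebra O T]
  (a : T →ₐ[O] Module.End O L.M) (a_D : ∀ t i, a t * L.D i = L.D i * a t)

include a_D in
/-- **the plug**: the `unit` field of `TWInput` from `(1)_i` and `(W)_i` for the operators
`a (x i)`. -/
theorem unit_field [IsLocalRing O] {p : ℕ} (hp : p.Prime)
    (hpO : (p : O) ∈ IsLocalRing.maximalIdeal O) (hreg : ∀ c : O, (p : O) * c = 0 → c = 0)
    (hNpow : ∀ i, ∃ n, N i = p ^ n) (hN : ∀ i, p ∣ N i) (x : Fin k → T)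
    (h1 : ∀ i (m : L.M), ∃ m' : L.M, a (x i) m - m = L.D i m' - m')
    (hW : ∀ i (m : L.M), (∑ j ∈ range p, a (x i) ^ j) m ∈ L.unitSub p hN i) :
    ∀ i (m : L.M), ∃ m' : L.M, L.D i m - m = a (x i) m' - m' := fun i =>
  L.unit_range_sub_one_le hp hpO hreg hNpow hN i (a (x i)) (fun j => a_D (x i) j) (h1 i) (hW i)

omit [∀ i, NeZero (N i)] in
include a_D in
theorem range_sub_one_stable (i : Fin k) (t : T) (m : L.M)
    (hm : m ∈ LinearMap.range (L.D i - 1)) : a t m ∈ LinearMap.range (L.D i - 1) := by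
  obtain ⟨m', rfl⟩ := hm
  refine ⟨a t m', ?_⟩
  have h := congrArg (fun f : Module.End O L.M => f m') (a_D t i)
  simp only [Module.End.mul_apply] at h
  rw [LinearMap.sub_apply, LinearMap.sub_apply, Module.End.one_apply, Module.End.one_apply,
    map_sub, h]

variable [IsDomain O] [IsReduced T] [Algebra.IsIntegral O T]
  (Ω : Type*) [Field Ω] [IsAlgClosed Ω] [Algebra O Ω] [Module.IsTorsionFree O Ω]

include a_D in
/-- `(1)_i` from points: `θ (x) = 1` for every `θ` occurring in `M / (D_i - 1) M`. -/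
theorem h1_of_points (i : Fin k) (x : T)
    (hpt : ∀ θ : T →ₐ[O] Ω,
      (∀ r : T, (∀ m, a r m ∈ LinearMap.range (L.D i - 1)) → θ r = 0) → θ x = 1) :
    ∀ m : L.M, ∃ m' : L.M, a x m - m = L.D i m' - m' := by
  have key := act_mem_of_points Ω a (LinearMap.range (L.D i - 1))
    (fun t m hm => range_sub_one_stable L a a_D i t m hm)
    (fun c hc n hn => mem_range_sub_one_of_smul_mem N L.D L.D_pow L.unit_D_commute L.e L.basis
      L.unit_basis_eq i c hc hn)
    (x - 1) (fun θ hθ => by rw [map_sub, map_one, hpt θ hθ, sub_self])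
  intro m
  obtain ⟨m', hm'⟩ := key m
  refine ⟨m', ?_⟩
  have e1 : a (x - 1) m = a x m - m := by
    rw [map_sub, map_one, LinearMap.sub_apply, Module.End.one_apply]
  have e2 : (L.D i - 1) m' = L.D i m' - m' := by
    rw [LinearMap.sub_apply, Module.End.one_apply]
  rw [← e1, ← e2]
  exact hm'.symm

include a_D in
/-- `(W)_i` from points: `Φ_p(θ x) = 0` for every `θ` occurring in `M / unitSub_i`. -/
theorem hW_of_points (p : ℕ) (hN : ∀ i, p ∣ N i) (i : Fin k) (x : T)
    (hpt : ∀ θ : T →ₐ[O] Ω,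
      (∀ r : T, (∀ m, a r m ∈ L.unitSub p hN i) → θ r = 0) → ∑ j ∈ range p, θ x ^ j = 0) :
    ∀ m : L.M, (∑ j ∈ range p, a x ^ j) m ∈ L.unitSub p hN i := by
  have key := act_mem_of_points Ω a (L.unitSub p hN i)
    (fun t m hm => L.map_mem_unitSub p hN i (a t) (fun j => a_D t j) hm)
    (fun c hc n hn => L.mem_unitSub_of_smul_mem p hN i c hc hn)
    (∑ j ∈ range p, x ^ j) (fun θ hθ => by rw [map_sum]; simp only [map_pow]; exact hpt θ hθ)
  intro m
  have := key m
  rwa [map_sum, show (∑ j ∈ range p, a (x ^ j)) = ∑ j ∈ range p, a x ^ j from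
    Finset.sum_congr rfl fun j _ => map_pow a x j] at this

include a_D in
/-- **the `unit` field of `TWInput` from points.** -/
theorem unit_field_of_points [IsLocalRing O] {p : ℕ} (hp : p.Prime)
    (hpO : (p : O) ∈ IsLocalRing.maximalIdeal O) (hreg : ∀ c : O, (p : O) * c = 0 → c = 0)
    (hNpow : ∀ i, ∃ n, N i = p ^ n) (hN : ∀ i, p ∣ N i) (x : Fin k → T)
    (h1pt : ∀ i, ∀ θ : T →ₐ[O] Ω,
      (∀ r : T, (∀ m, a r m ∈ LinearMap.range (L.D i - 1)) → θ r = 0) → θ (x i) = 1)
    (hWpt : ∀ i, ∀ θ : T →ₐ[O] Ω,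
      (∀ r : T, (∀ m, a r m ∈ L.unitSub p hN i) → θ r = 0) →
        ∑ j ∈ range p, θ (x i) ^ j = 0) :
    ∀ i (m : L.M), ∃ m' : L.M, L.D i m - m = a (x i) m' - m' := by
  exact unit_field L a a_D hp hpO hreg hNpow hN x
    (fun i => h1_of_points L a a_D Ω i (x i) (h1pt i))
    (fun i => hW_of_points L a a_D Ω p hN i (x i) (hWpt i))

include a_D in
/-- **the `unit` field of `TWInput` when the diamonds lie in `T`** (`a (δ i) = L.D i`): it suffices
that at every point `θ : T → Ω`

* trivial nebentypus at `r_i` (`θ (δ i) = 1`) forces `θ (x i) = 1`, and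
* nebentypus of exact order `p` at `r_i`, trivial at the other `r_j`, forces `Φ_p(θ (x i)) = 0`. -/
theorem unit_field_of_diamonds [IsLocalRing O] {p : ℕ} (hp : p.Prime)
    (hpO : (p : O) ∈ IsLocalRing.maximalIdeal O) (hreg : ∀ c : O, (p : O) * c = 0 → c = 0)
    (hNpow : ∀ i, ∃ n, N i = p ^ n) (hN : ∀ i, p ∣ N i) (x δ : Fin k → T)
    (hδ : ∀ i, a (δ i) = L.D i)
    (h1pt : ∀ i, ∀ θ : T →ₐ[O] Ω, θ (δ i) = 1 → θ (x i) = 1)
    (hWpt : ∀ i, ∀ θ : T →ₐ[O] Ω, ∑ j ∈ range p, θ (δ i) ^ j = 0 →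
      (∀ j, i ≠ j → θ (δ j) = 1) → ∑ j ∈ range p, θ (x i) ^ j = 0) :
    ∀ i (m : L.M), ∃ m' : L.M, L.D i m - m = a (x i) m' - m' := by
  have : Fact p.Prime := ⟨hp⟩
  refine unit_field_of_points L a a_D Ω hp hpO hreg hNpow hN x (fun i θ hθ => ?_)
    (fun i θ hθ => ?_)
  · refine h1pt i θ ?_
    have h0 : θ (δ i - 1) = 0 := hθ (δ i - 1) fun m => by
      rw [map_sub, map_one, hδ]
      exact ⟨m, rfl⟩
    rwa [map_sub, map_one, sub_eq_zero] at h0
  · refine hWpt i θ ?_ (fun j hj => ?_)
    · have h0 : θ (∑ j ∈ range p, δ i ^ j) = 0 := hθ _ fun m => by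
        have e1 : a (∑ j ∈ range p, δ i ^ j) = ∑ j ∈ range p, L.D i ^ j := by
          rw [map_sum]
          exact Finset.sum_congr rfl fun j _ => by rw [map_pow, hδ]
        rw [e1]
        exact L.range_le_unitSub p hN i (Submodule.mem_sup_left ⟨m, rfl⟩)
      rw [map_sum] at h0
      simpa only [map_pow] using h0
    · have h0 : θ (δ j - 1) = 0 := hθ (δ j - 1) fun m => by
        rw [map_sub, map_one, hδ]
        refine L.range_le_unitSub p hN i (Submodule.mem_sup_right ?_)
        exact Submodule.mem_iSup_of_mem j (Submodule.mem_iSup_of_mem hj ⟨m, rfl⟩)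
      rwa [map_sub, map_one, sub_eq_zero] at h0

end Level

end Fermat.Agent.GB.Alg.UnitPoints
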