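/-
GATE-B / (P5), **the exact-order gap of `(Wpt)` closed by integrality** (helper66).

`GB/Alg/UnitPoints.unit_field_of_points` wants, at every point `θ` occurring in `M / unitSub_i`
(nebentypus of exact order `p` at `r_i`), `Φ_p(θ (x i)) = 0`: the inertial character has EXACT
order `p`.  Local–global compatibility on main (S36) only gives `θ (x i) ≠ 1`, and `x i` is a priori
a `p^m`-th root of unity (`m = v_p(r_i - 1)`).  Here: **exact order `p` follows from `(1)_i`.**

On `Q = M / unitSub_i` the diamond `D_i =: ζ` satisfies `Φ_p(ζ) = 0`, and `(1)_i` gives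
`X = 1 + (ζ - 1) Y` for the operator `X` of `x i`, with `Y ∈ End(Q)` commuting.  Then
`X ^ p ≡ 1 mod p`, and an element `≡ 1 mod p` of `p`-power order is `1` (`p` odd, `Q` `p`-torsion
free and finitely generated over the local ring `O ∋ p`, `p ∈ 𝔪`).  So `X ^ p = 1` on `Q`, every
`θ` occurring in `Q` has `θ (x i) ^ p = 1`, and `θ (x i) ≠ 1` gives `Φ_p(θ (x i)) = 0`.

* `Core` : the commutative-ring statement;
* `pow_prime_eq_one_of_range_le` : operators on a module;
* `hWpt_of_ne`, **`unit_field_of_points_ne`**, **`unit_field_of_diamonds_ne`** : the `unit` field of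
  `TWInput` with `(Wpt)` weakened to `θ (x i) ≠ 1`.
-/
import Fermat.Agent.GB.Alg.UnitPoints

set_option autoImplicit false
set_option linter.unusedSectionVars false

open Finset

namespace Fermat.Agent.GB.Alg.UnitOrder

/-! ### the commutative core -/

section Core

variable {C : Type*} [CommRing C]

/-- `(1 + P N)^j = 1 + j P N + P² N² e`. -/
theorem one_add_mul_pow (P N : C) (j : ℕ) :
    ∃ e : C, (1 + P * N) ^ j = 1 + j * P * N + P ^ 2 * N ^ 2 * e := by
  induction j with
  | zero => exact ⟨0, by simp⟩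
  | succ j ih =>
    obtain ⟨e, he⟩ := ih
    refine ⟨j + e + P * N * e, ?_⟩
    rw [pow_succ, he]
    push_cast
    ring

/-- a power of `1 + p N` is `1 + p N'`. -/
theorem one_add_mul_pow' (P N : C) (j : ℕ) : ∃ N' : C, (1 + P * N) ^ j = 1 + P * N' := by
  obtain ⟨e, he⟩ := one_add_mul_pow P N j
  exact ⟨j * N + P * N ^ 2 * e, by rw [he]; ring⟩

variable {p : ℕ} (hp : p.Prime) (hp2 : p ≠ 2)
  (htf : ∀ c : C, (p : C) * c = 0 → c = 0)
  (hcancel : ∀ c d : C, d * (1 + (p : C) * c) = 0 → d = 0)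

include hp hp2 htf hcancel in
/-- **no `p`-torsion in `1 + p C`** (`p` odd). -/
theorem eq_zero_of_one_add_mul_pow_prime (N : C) (h : (1 + (p : C) * N) ^ p = 1) : N = 0 := by
  choose e he using one_add_mul_pow (p : C) N
  -- `∑_{j<p} j = p * h`
  obtain ⟨h', hh'⟩ : ∃ h' : ℕ, ∑ j ∈ range p, j = p * h' := by
    have hodd : Odd p := hp.odd_of_ne_two hp2
    obtain ⟨m, hm⟩ := hodd
    refine ⟨m, ?_⟩
    have h2 := Finset.sum_range_id_mul_two p
    have : p - 1 = 2 * m := by omega
    rw [this] at h2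
    have : (∑ i ∈ range p, i) * 2 = (p * m) * 2 := by rw [h2]; ring
    exact Nat.eq_of_mul_eq_mul_right (by norm_num) this
  have hsum : ∑ j ∈ range p, (1 + (p : C) * N) ^ j =
      (p : C) * (1 + (p : C) * (N * h' + N ^ 2 * ∑ j ∈ range p, e j)) := by
    have e1 : ∑ j ∈ range p, (1 + (p : C) * N) ^ j =
        ∑ j ∈ range p, (1 + (j : C) * p * N + (p : C) ^ 2 * N ^ 2 * e j) :=
      Finset.sum_congr rfl fun j _ => he j
    rw [e1, Finset.sum_add_distrib, Finset.sum_add_distrib, Finset.sum_const, Finset.card_range,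
      ← Finset.mul_sum, nsmul_eq_mul, mul_one]
    have e2 : ∑ j ∈ range p, (j : C) * p * N = ((p * h' : ℕ) : C) * p * N := by
      rw [← hh', Nat.cast_sum, Finset.sum_mul, Finset.sum_mul]
    rw [e2]
    push_cast
    ring
  have hgeom := mul_geom_sum (1 + (p : C) * N) p
  rw [h, sub_self, hsum] at hgeom
  have h3 : (p : C) * ((p : C) * (N * (1 + (p : C) * (N * h' + N ^ 2 * ∑ j ∈ range p, e j))))
      = 0 := by
    rw [← hgeom]; ring
  exact hcancel _ _ (htf _ (htf _ h3))

include hp hp2 htf hcancel in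
/-- an element `≡ 1 mod p` of `p`-power order is `1`. -/
theorem eq_one_of_pow_prime_pow (N : C) (k : ℕ) (h : (1 + (p : C) * N) ^ p ^ k = 1) :
    1 + (p : C) * N = 1 := by
  induction k with
  | zero => simpa using h
  | succ k ih =>
    apply ih
    obtain ⟨N', hN'⟩ := one_add_mul_pow' (p : C) N (p ^ k)
    rw [pow_succ, pow_mul, hN'] at h
    have := eq_zero_of_one_add_mul_pow_prime hp hp2 htf hcancel N' h
    rw [hN', this, mul_zero, add_zero]

include hp hp2 htf hcancel in
/-- **the core**: `X = 1 + λ Y`, `Φ_p(1 + λ) = 0`, `X` of `p`-power order ⟹ `X ^ p = 1`. -/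
theorem pow_prime_eq_one (X lam Y : C) (hX : X = 1 + lam * Y)
    (hlam : ∑ j ∈ range p, (1 + lam) ^ j = 0) (n : ℕ) (hpow : X ^ p ^ n = 1) : X ^ p = 1 := by
  -- `λ^p ∈ p λ C`
  have h1 : (1 + lam) ^ p = 1 := by
    have := mul_geom_sum (1 + lam) p
    rw [hlam, mul_zero] at this
    exact (sub_eq_zero.mp this.symm)
  obtain ⟨r, hr⟩ := exists_add_pow_prime_eq hp (1 : C) lam
  obtain ⟨r', hr'⟩ := exists_add_pow_prime_eq hp (1 : C) (lam * Y)
  have hlp : lam ^ p = -((p : C) * lam * r) := by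
    rw [h1, one_pow] at hr
    linear_combination -hr
  have hXp : X ^ p = 1 + (p : C) * (-(lam * r * Y ^ p) + lam * Y * r') := by
    rw [hX, hr', one_pow, mul_pow, hlp]
    ring
  have hz : (1 + (p : C) * (-(lam * r * Y ^ p) + lam * Y * r')) ^ p ^ n = 1 := by
    rw [← hXp, ← pow_mul, mul_comm, pow_mul, hpow, one_pow]
  rw [hXp]
  exact eq_one_of_pow_prime_pow hp hp2 htf hcancel _ n hz

end Core

/-! ### operators on a module -/

section Operators

variable {O : Type*} [CommRing O] {Q : Type*} [AddCommGroup Q] [Module O Q]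

/-- division of an endomorphism by an injective one. -/
theorem exists_comp_eq_of_range_le (lam A : Module.End O Q) (hinj : Function.Injective lam)
    (hle : ∀ v, ∃ w, A v = lam w) : ∃ Y : Module.End O Q, lam * Y = A := by
  let e := LinearEquiv.ofInjective lam hinj
  have hmem : ∀ v, A v ∈ LinearMap.range lam := fun v => by
    obtain ⟨w, hw⟩ := hle v
    exact ⟨w, hw.symm⟩
  refine ⟨(e.symm : LinearMap.range lam →ₗ[O] Q).comp (A.codRestrict (LinearMap.range lam) hmem),
    ?_⟩
  ext v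
  rw [Module.End.mul_apply, LinearMap.comp_apply]
  have : lam (e.symm (A.codRestrict (LinearMap.range lam) hmem v)) =
      (e (e.symm (A.codRestrict (LinearMap.range lam) hmem v)) : Q) := rfl
  erw [this, LinearEquiv.apply_symm_apply]
  rfl

open scoped IsMulCommutative in
/-- **operator form**: `X`, `Z` commuting endomorphisms of a `p`-torsion-free module `Q` on which
every `1 + p c` is surjective; `Φ_p(Z) = 0`, `(X - 1) Q ⊆ (Z - 1) Q`, `X` of `p`-power order.
Then `X ^ p = 1`. -/
theorem pow_prime_eq_one_of_range_le {p : ℕ} (hp : p.Prime) (hp2 : p ≠ 2)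
    (htf : ∀ v : Q, p • v = 0 → v = 0)
    (hsurj : ∀ c : Module.End O Q, Function.Surjective ((1 : Module.End O Q) + (p : Module.End O Q) * c))
    (X Z : Module.End O Q) (hXZ : X * Z = Z * X)
    (hZ : ∑ j ∈ range p, Z ^ j = 0)
    (h1 : ∀ v, ∃ w, X v - v = Z w - w)
    (n : ℕ) (hpow : X ^ p ^ n = 1) : X ^ p = 1 := by
  -- `λ = Z - 1` is injective
  have hinj : Function.Injective ((Z - 1 : Module.End O Q) : Q → Q) := by
    rw [← LinearMap.ker_eq_bot, LinearMap.ker_eq_bot']
    intro v hv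
    have hZv : Z v = v := by
      have : Z v - v = 0 := by simpa using hv
      exact sub_eq_zero.mp this
    have hpow' : ∀ j : ℕ, (Z ^ j) v = v := fun j => by
      induction j with
      | zero => simp
      | succ j ih => rw [pow_succ, Module.End.mul_apply, hZv, ih]
    have := congrArg (fun f : Module.End O Q => f v) hZ
    simp only [LinearMap.sum_apply, hpow', Finset.sum_const, Finset.card_range,
      LinearMap.zero_apply] at this
    exact htf v this
  obtain ⟨Y, hY⟩ := exists_comp_eq_of_range_le (Z - 1) (X - 1) hinj (fun v => by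
    obtain ⟨w, hw⟩ := h1 v
    exact ⟨w, by simpa using hw⟩)
  -- commutation
  have cancel : ∀ A B : Module.End O Q, (Z - 1) * A = (Z - 1) * B → A = B := fun A B h => by
    ext v
    apply hinj
    have := congrArg (fun f : Module.End O Q => f v) h
    simpa using this
  have hlX : (Z - 1) * X = X * (Z - 1) := by
    rw [sub_mul, mul_sub, one_mul, mul_one, hXZ]
  have hYX : Y * X = X * Y := by
    apply cancel
    rw [← mul_assoc, hY, ← mul_assoc, hlX, mul_assoc, hY]
    noncomm_ring
  have hYl : Y * (Z - 1) = (Z - 1) * Y := by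
    apply cancel
    rw [← mul_assoc, hY]
    rw [sub_mul, mul_sub, one_mul, mul_one, sub_mul, mul_sub, one_mul, mul_one, hXZ]
    abel
  -- the commutative subalgebra
  let s : Set (Module.End O Q) := {X, Z - 1, Y}
  have hcomm : ∀ a ∈ s, ∀ b ∈ s, a * b = b * a := by
    intro a ha b hb
    simp only [s, Set.mem_insert_iff, Set.mem_singleton_iff] at ha hb
    rcases ha with rfl | rfl | rfl <;> rcases hb with rfl | rfl | rfl
    · rfl
    · exact hlX.symm
    · exact hYX.symm
    · exact hlX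
    · rfl
    · exact hYl.symm
    · exact hYX
    · exact hYl
    · rfl
  have hC : IsMulCommutative (Algebra.adjoin O s) := Algebra.isMulCommutative_adjoin O hcomm
  let Xc : Algebra.adjoin O s := ⟨X, Algebra.subset_adjoin (by simp [s])⟩
  let lc : Algebra.adjoin O s := ⟨Z - 1, Algebra.subset_adjoin (by simp [s])⟩
  let Yc : Algebra.adjoin O s := ⟨Y, Algebra.subset_adjoin (by simp [s])⟩
  have key : Xc ^ p = 1 := by
    refine pow_prime_eq_one hp hp2 ?_ ?_ Xc lc Yc ?_ ?_ n ?_
    · intro c hc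
      apply Subtype.ext
      ext v
      have h' := congrArg (fun f : Algebra.adjoin O s => (f : Module.End O Q) v) hc
      simp only [MulMemClass.coe_mul, SubringClass.coe_natCast, Module.End.mul_apply,
        ZeroMemClass.coe_zero, LinearMap.zero_apply] at h'
      rw [Module.End.natCast_apply] at h'
      exact htf _ h'
    · intro c d hcd
      apply Subtype.ext
      ext v
      obtain ⟨w, rfl⟩ := hsurj (c : Module.End O Q) v
      have h' := congrArg (fun f : Algebra.adjoin O s => (f : Module.End O Q) w) hcd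
      simpa using h'
    · apply Subtype.ext
      show X = 1 + (Z - 1) * Y
      rw [hY]; abel
    · apply Subtype.ext
      have : ((∑ j ∈ range p, (1 + lc) ^ j : Algebra.adjoin O s) : Module.End O Q) =
          ∑ j ∈ range p, Z ^ j := by
        rw [AddSubmonoidClass.coe_finsetSum]
        refine Finset.sum_congr rfl fun j _ => ?_
        rw [SubmonoidClass.coe_pow]
        congr 1
        show (1 : Module.End O Q) + (Z - 1) = Z
        abel
      rw [this, hZ]
      rfl
    · apply Subtype.ext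
      rw [SubmonoidClass.coe_pow]
      exact hpow
  have := congrArg (fun f : Algebra.adjoin O s => (f : Module.End O Q)) key
  simpa [Xc] using this

end Operators

/-! ### the plug into `UnitPoints` -/

section Level

open Fermat.Agent.GB.B3.TWLevel Fermat.Agent.GB.Alg.UnitPoints

variable {O : Type} [CommRing O] {𝕋 : Type} [CommRing 𝕋] [Algebra O 𝕋]
  {M0 : Type} [AddCommGroup M0] [Module O M0] {act0 : 𝕋 →ₐ[O] Module.End O M0}
  {k : ℕ} {N : Fin k → ℕ} [∀ i, NeZero (N i)]
  (L : FreeLevel O 𝕋 M0 act0 k N)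
  {T : Type*} [CommRing T] [Algebra O T]
  (a : T →ₐ[O] Module.End O L.M) (a_D : ∀ t i, a t * L.D i = L.D i * a t)

/-- Nakayama: on a finitely generated module over a local ring with `p ∈ 𝔪`, `1 + p c` is onto. -/
theorem surjective_one_add_natCast_mul {Q : Type*} [AddCommGroup Q] [Module O Q] [Module.Finite O Q]
    [IsLocalRing O] {p : ℕ} (hpO : (p : O) ∈ IsLocalRing.maximalIdeal O) (c : Module.End O Q) :
    Function.Surjective ((1 : Module.End O Q) + (p : Module.End O Q) * c) := by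
  rw [← LinearMap.range_eq_top, eq_top_iff]
  refine Submodule.le_of_le_smul_of_le_jacobson_bot (I := IsLocalRing.maximalIdeal O)
    Module.Finite.fg_top
    (le_of_eq (IsLocalRing.jacobson_eq_maximalIdeal ⊥ bot_ne_top).symm) ?_
  intro v _
  have e : v = ((1 : Module.End O Q) + (p : Module.End O Q) * c) v + (-((p : O) • c v)) := by
    rw [LinearMap.add_apply, Module.End.one_apply, Module.End.mul_apply,
      Module.End.natCast_apply, Nat.cast_smul_eq_nsmul]
    abel
  rw [e]
  exact Submodule.add_mem_sup ⟨v, rfl⟩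
    (Submodule.neg_mem _ (Submodule.smul_mem_smul hpO Submodule.mem_top))

include a_D in
/-- **module level**: `(1)_i` + `x` of `p`-power order ⟹ `a (x ^ p - 1) M ⊆ unitSub_i`. -/
theorem pow_prime_sub_one_mem_unitSub [IsLocalRing O] {p : ℕ} (hp : p.Prime) (hp2 : p ≠ 2)
    (hpO : (p : O) ∈ IsLocalRing.maximalIdeal O) (hreg : ∀ c : O, (p : O) * c = 0 → c = 0)
    (hN : ∀ i, p ∣ N i) (i : Fin k) (x : T)
    (h1 : ∀ m : L.M, ∃ m' : L.M, a x m - m = L.D i m' - m')
    (n : ℕ) (hxpow : x ^ p ^ n = 1) :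
    ∀ m : L.M, a (x ^ p - 1) m ∈ L.unitSub p hN i := by
  have : Fact p.Prime := ⟨hp⟩
  set W := L.unitSub p hN i with hWdef
  have hWstab : ∀ t, ∀ m ∈ W, a t m ∈ W := fun t m hm =>
    L.map_mem_unitSub p hN i (a t) (fun j => a_D t j) hm
  have hDstab : W ≤ W.comap (L.D i) := fun m hm =>
    L.map_mem_unitSub p hN i (L.D i) (fun j => L.D_comm i j) hm
  have : Module.Finite O L.M := Module.Finite.of_basis L.basis
  let Xb : Module.End O (L.M ⧸ W) := quotAct a W hWstab x
  let Zb : Module.End O (L.M ⧸ W) := W.mapQ W (L.D i) hDstab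
  have hZpow : ∀ j : ℕ, ∀ m : L.M, (Zb ^ j) (Submodule.Quotient.mk m) =
      Submodule.Quotient.mk ((L.D i ^ j) m) := by
    intro j
    induction j with
    | zero => intro m; simp
    | succ j ih =>
      intro m
      rw [pow_succ, Module.End.mul_apply, pow_succ, Module.End.mul_apply]
      show (Zb ^ j) (Submodule.Quotient.mk (L.D i m)) = _
      rw [ih]
  have key : Xb ^ p = 1 := by
    refine pow_prime_eq_one_of_range_le hp hp2 ?_ (surjective_one_add_natCast_mul hpO) Xb Zb ?_ ?_
      ?_ n ?_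
    · intro v hv
      obtain ⟨m, rfl⟩ := Submodule.Quotient.mk_surjective W v
      rw [← Submodule.Quotient.mk_smul, Submodule.Quotient.mk_eq_zero,
        ← Nat.cast_smul_eq_nsmul O] at hv
      exact (Submodule.Quotient.mk_eq_zero W).mpr (L.mem_unitSub_of_smul_mem p hN i (p : O) hreg hv)
    · ext m
      simp only [LinearMap.comp_apply, Submodule.mkQ_apply, Module.End.mul_apply]
      show Submodule.Quotient.mk (a x (L.D i m)) = Submodule.Quotient.mk (L.D i (a x m))
      have h := congrArg (fun f : Module.End O L.M => f m) (a_D x i)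
      simp only [Module.End.mul_apply] at h
      rw [h]
    · ext m
      simp only [LinearMap.comp_apply, Submodule.mkQ_apply, LinearMap.sum_apply,
        LinearMap.zero_apply, hZpow]
      have e : ∑ j ∈ range p, (Submodule.Quotient.mk ((L.D i ^ j) m) : L.M ⧸ W) =
          Submodule.Quotient.mk (∑ j ∈ range p, (L.D i ^ j) m) :=
        (map_sum (Submodule.mkQ W) (fun j => (L.D i ^ j) m) (range p)).symm
      rw [e]
      refine (Submodule.Quotient.mk_eq_zero W).mpr ?_
      refine L.range_le_unitSub p hN i (Submodule.mem_sup_left ⟨m, ?_⟩)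
      rw [LinearMap.sum_apply]
    · intro v
      obtain ⟨m, rfl⟩ := Submodule.Quotient.mk_surjective W v
      obtain ⟨m', hm'⟩ := h1 m
      refine ⟨Submodule.Quotient.mk m', ?_⟩
      show Submodule.Quotient.mk (a x m) - Submodule.Quotient.mk m =
        Submodule.Quotient.mk (L.D i m') - Submodule.Quotient.mk m'
      rw [← Submodule.Quotient.mk_sub, ← Submodule.Quotient.mk_sub, hm']
    · show (quotAct a W hWstab x) ^ p ^ n = 1
      rw [← map_pow, hxpow, map_one]
  have h0 : quotAct a W hWstab (x ^ p - 1) = 0 := by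
    rw [map_sub, map_pow, map_one]
    show Xb ^ p - 1 = 0
    rw [key, sub_self]
  exact (quotAct_eq_zero_iff a W hWstab (x ^ p - 1)).mp h0

variable [IsDomain O] [IsReduced T] [Algebra.IsIntegral O T]
  (Ω : Type*) [Field Ω] [IsAlgClosed Ω] [Algebra O Ω] [Module.IsTorsionFree O Ω]

include a_D in
/-- **`(Wpt)` from `θ (x) ≠ 1`**: exact order `p` at the points of `M / unitSub_i`. -/
theorem hWpt_of_ne [IsLocalRing O] {p : ℕ} (hp : p.Prime) (hp2 : p ≠ 2)
    (hpO : (p : O) ∈ IsLocalRing.maximalIdeal O) (hreg : ∀ c : O, (p : O) * c = 0 → c = 0)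
    (hN : ∀ i, p ∣ N i) (i : Fin k) (x : T)
    (h1 : ∀ m : L.M, ∃ m' : L.M, a x m - m = L.D i m' - m')
    (n : ℕ) (hxpow : x ^ p ^ n = 1) (θ : T →ₐ[O] Ω)
    (hθ : ∀ r : T, (∀ m, a r m ∈ L.unitSub p hN i) → θ r = 0) (hne : θ x ≠ 1) :
    ∑ j ∈ range p, θ x ^ j = 0 := by
  have h0 : θ (x ^ p - 1) = 0 :=
    hθ _ (pow_prime_sub_one_mem_unitSub L a a_D hp hp2 hpO hreg hN i x h1 n hxpow)
  rw [map_sub, map_pow, map_one] at h0
  have hg := mul_geom_sum (θ x) p
  rw [h0] at hg
  rcases mul_eq_zero.mp hg with h | h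
  · exact absurd (sub_eq_zero.mp h) hne
  · exact h

include a_D in
/-- **the `unit` field of `TWInput` from points, `(Wpt)` weakened to `θ (x i) ≠ 1`.** -/
theorem unit_field_of_points_ne [IsLocalRing O] {p : ℕ} (hp : p.Prime) (hp2 : p ≠ 2)
    (hpO : (p : O) ∈ IsLocalRing.maximalIdeal O) (hreg : ∀ c : O, (p : O) * c = 0 → c = 0)
    (hNpow : ∀ i, ∃ n, N i = p ^ n) (hN : ∀ i, p ∣ N i) (x : Fin k → T)
    (hxpow : ∀ i, ∃ n, x i ^ p ^ n = 1)
    (h1pt : ∀ i, ∀ θ : T →ₐ[O] Ω,
      (∀ r : T, (∀ m, a r m ∈ LinearMap.range (L.D i - 1)) → θ r = 0) → θ (x i) = 1)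
    (hWne : ∀ i, ∀ θ : T →ₐ[O] Ω,
      (∀ r : T, (∀ m, a r m ∈ L.unitSub p hN i) → θ r = 0) → θ (x i) ≠ 1) :
    ∀ i (m : L.M), ∃ m' : L.M, L.D i m - m = a (x i) m' - m' := by
  have h1 : ∀ i (m : L.M), ∃ m' : L.M, a (x i) m - m = L.D i m' - m' :=
    fun i => h1_of_points L a a_D Ω i (x i) (h1pt i)
  refine unit_field L a a_D hp hpO hreg hNpow hN x h1 fun i => ?_
  obtain ⟨n, hn⟩ := hxpow i
  exact hW_of_points L a a_D Ω p hN i (x i) fun θ hθ =>
    hWpt_of_ne L a a_D Ω hp hp2 hpO hreg hN i (x i) (h1 i) n hn θ hθ (hWne i θ hθ)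

include a_D in
/-- **the `unit` field when the diamonds lie in `T`**, `(Wpt)` weakened to `θ (x i) ≠ 1`:
* `θ (δ i) = 1 ⟹ θ (x i) = 1` (S34 at `r_i ∥ N/r_i`), and
* `Φ_p(θ (δ i)) = 0`, `θ (δ j) = 1` (`j ≠ i`) `⟹ θ (x i) ≠ 1` (S36: non-unipotent). -/
theorem unit_field_of_diamonds_ne [IsLocalRing O] {p : ℕ} (hp : p.Prime) (hp2 : p ≠ 2)
    (hpO : (p : O) ∈ IsLocalRing.maximalIdeal O) (hreg : ∀ c : O, (p : O) * c = 0 → c = 0)
    (hNpow : ∀ i, ∃ n, N i = p ^ n) (hN : ∀ i, p ∣ N i) (x δ : Fin k → T)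
    (hxpow : ∀ i, ∃ n, x i ^ p ^ n = 1)
    (hδ : ∀ i, a (δ i) = L.D i)
    (h1pt : ∀ i, ∀ θ : T →ₐ[O] Ω, θ (δ i) = 1 → θ (x i) = 1)
    (hWne : ∀ i, ∀ θ : T →ₐ[O] Ω, ∑ j ∈ range p, θ (δ i) ^ j = 0 →
      (∀ j, i ≠ j → θ (δ j) = 1) → θ (x i) ≠ 1) :
    ∀ i (m : L.M), ∃ m' : L.M, L.D i m - m = a (x i) m' - m' := by
  have : Fact p.Prime := ⟨hp⟩
  refine unit_field_of_points_ne L a a_D Ω hp hp2 hpO hreg hNpow hN x hxpow (fun i θ hθ => ?_)
    (fun i θ hθ => ?_)
  · refine h1pt i θ ?_
    have h0 : θ (δ i - 1) = 0 := hθ (δ i - 1) fun m => by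
      rw [map_sub, map_one, hδ]
      exact ⟨m, rfl⟩
    rwa [map_sub, map_one, sub_eq_zero] at h0
  · refine hWne i θ ?_ (fun j hj => ?_)
    · have h0 : θ (∑ j ∈ range p, δ i ^ j) = 0 := hθ _ fun m => by
        have e1 : a (∑ j ∈ range p, δ i ^ j) = ∑ j ∈ range p, L.D i ^ j := by
          rw [map_sum]
          exact Finset.sum_congr rfl fun j _ => by rw [map_pow, hδ]
        rw [e1]
        exact L.range_le_unitSub p hN i (Submodule.mem_sup_left ⟨m, rfl⟩)
      rw [map_sum] at h0
      simpa only [map_pow] using h0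
    · have h0 : θ (δ j - 1) = 0 := hθ (δ j - 1) fun m => by
        rw [map_sub, map_one, hδ]
        refine L.range_le_unitSub p hN i (Submodule.mem_sup_right ?_)
        exact Submodule.mem_iSup_of_mem j (Submodule.mem_iSup_of_mem hj ⟨m, rfl⟩)
      rwa [map_sub, map_one, sub_eq_zero] at h0

end Level

end Fermat.Agent.GB.Alg.UnitOrder
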